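import Fermat.Agent.ES1.Inf.BridgeAbs
import Fermat.Agent.ES1.HeckeGrp
import Fermat.Agent.ES1.G1Op
import Fermat.Agent.RT.K5.Defs

/-!
# ES₁-inf, piece (P4): the bridge `heckeGrp` (ES₁) ↔ `tS` (K5), `diamGrp` ↔ `diamS` (helper38)

`Γ = gammaH L M H`, `Γ' = gammaH (L ℓ) M H`, `i : Γ' → Γ` the inclusion, `c : Γ' → Γ` conjugation
by `δ = diag(ℓ, 1)`.
* ES₁: `heckeGrp ℓ = cores_i ∘ res_c` (`es1inf_heckeGrp_eq_cores_res`);
* K5:  `tS ℓ = cores_c ∘ res_i`.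
For `σ = (ℓ, b; L, d) ∈ Γ₀(L)`, `ℓ d − b L = 1` (diamond class `ℓ`):
**`diamGrp σ (tS ℓ φ) = heckeGrp ℓ φ`** (`es1inf_diamGrp_tS`).
-/

set_option autoImplicit false

noncomputable section

namespace Fermat.Agent.ES1

open CongruenceSubgroup Matrix Matrix.SpecialLinearGroup Fermat.Agent
open scoped MatrixGroups

/-! ## Entries of a conjugate -/

theorem es1inf_conj_00 (g x : SL(2, ℤ)) :
    (g * x * g⁻¹ : SL(2, ℤ)) 0 0
      = (g 0 0 * x 0 0 + g 0 1 * x 1 0) * g 1 1 - (g 0 0 * x 0 1 + g 0 1 * x 1 1) * g 1 0 := by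
  rw [SL2_inv_expl]
  simp only [coe_mul, Matrix.mul_apply, Fin.sum_univ_two, Matrix.of_apply, Matrix.cons_val_zero,
    Matrix.cons_val_one, Matrix.cons_val', Matrix.cons_val_fin_one]
  ring

theorem es1inf_conj_01 (g x : SL(2, ℤ)) :
    (g * x * g⁻¹ : SL(2, ℤ)) 0 1
      = -((g 0 0 * x 0 0 + g 0 1 * x 1 0) * g 0 1) + (g 0 0 * x 0 1 + g 0 1 * x 1 1) * g 0 0 := by
  rw [SL2_inv_expl]
  simp only [coe_mul, Matrix.mul_apply, Fin.sum_univ_two, Matrix.of_apply, Matrix.cons_val_zero,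
    Matrix.cons_val_one, Matrix.cons_val', Matrix.cons_val_fin_one]
  ring

theorem es1inf_conj_10 (g x : SL(2, ℤ)) :
    (g * x * g⁻¹ : SL(2, ℤ)) 1 0
      = (g 1 0 * x 0 0 + g 1 1 * x 1 0) * g 1 1 - (g 1 0 * x 0 1 + g 1 1 * x 1 1) * g 1 0 := by
  rw [SL2_inv_expl]
  simp only [coe_mul, Matrix.mul_apply, Fin.sum_univ_two, Matrix.of_apply, Matrix.cons_val_zero,
    Matrix.cons_val_one, Matrix.cons_val', Matrix.cons_val_fin_one]
  ring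

theorem es1inf_conj_11 (g x : SL(2, ℤ)) :
    (g * x * g⁻¹ : SL(2, ℤ)) 1 1
      = -((g 1 0 * x 0 0 + g 1 1 * x 1 0) * g 0 1) + (g 1 0 * x 0 1 + g 1 1 * x 1 1) * g 0 0 := by
  rw [SL2_inv_expl]
  simp only [coe_mul, Matrix.mul_apply, Fin.sum_univ_two, Matrix.of_apply, Matrix.cons_val_zero,
    Matrix.cons_val_one, Matrix.cons_val', Matrix.cons_val_fin_one]
  ring

theorem es1inf_sl2_ext {x y : SL(2, ℤ)} (h00 : x 0 0 = y 0 0) (h01 : x 0 1 = y 0 1)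
    (h10 : x 1 0 = y 1 0) (h11 : x 1 1 = y 1 1) : x = y := by
  apply Subtype.ext
  ext i j
  fin_cases i <;> fin_cases j
  · exact h00
  · exact h01
  · exact h10
  · exact h11

/-! ## The matrices `σ` and `ρ'` -/

/-- `σ = (ℓ, b; L, d)` -/
def es1infSigma (L ℓ : ℕ) (b d : ℤ) (h : (ℓ : ℤ) * d - b * L = 1) : SL(2, ℤ) :=
  ⟨!![(ℓ : ℤ), b; (L : ℤ), d], by rw [Matrix.det_fin_two_of]; exact h⟩

/-- `ρ' = (1, b; L, ℓ d)` -/
def es1infRho (L ℓ : ℕ) (b d : ℤ) (h : (ℓ : ℤ) * d - b * L = 1) : SL(2, ℤ) :=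
  ⟨!![1, b; (L : ℤ), (ℓ : ℤ) * d], by rw [Matrix.det_fin_two_of]; linarith⟩

section Mat

variable {L ℓ : ℕ} {b d : ℤ} (h : (ℓ : ℤ) * d - b * L = 1)

@[simp] theorem es1infSigma_00 : es1infSigma L ℓ b d h 0 0 = ℓ := rfl
@[simp] theorem es1infSigma_01 : es1infSigma L ℓ b d h 0 1 = b := rfl
@[simp] theorem es1infSigma_10 : es1infSigma L ℓ b d h 1 0 = L := rfl
@[simp] theorem es1infSigma_11 : es1infSigma L ℓ b d h 1 1 = d := rfl
@[simp] theorem es1infRho_00 : es1infRho L ℓ b d h 0 0 = 1 := rfl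
@[simp] theorem es1infRho_01 : es1infRho L ℓ b d h 0 1 = b := rfl
@[simp] theorem es1infRho_10 : es1infRho L ℓ b d h 1 0 = L := rfl
@[simp] theorem es1infRho_11 : es1infRho L ℓ b d h 1 1 = ℓ * d := rfl

theorem es1infSigma_memL : es1infSigma L ℓ b d h ∈ Gamma0 L :=
  mem_gamma0_of_dvd (by rw [es1infSigma_10])

theorem es1infSigma_memM {M : ℕ} (hML : M ∣ L) : es1infSigma L ℓ b d h ∈ Gamma0 M :=
  mem_gamma0_of_dvd (by rw [es1infSigma_10]; exact Int.natCast_dvd_natCast.mpr hML)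

theorem es1infRho_memL : es1infRho L ℓ b d h ∈ Gamma0 L :=
  mem_gamma0_of_dvd (by rw [es1infRho_10])

theorem es1infRho_memM {M : ℕ} (hML : M ∣ L) : es1infRho L ℓ b d h ∈ Gamma0 M :=
  mem_gamma0_of_dvd (by rw [es1infRho_10]; exact Int.natCast_dvd_natCast.mpr hML)

theorem es1infRho_mem_gammaH {M : ℕ} (hML : M ∣ L) (H : Subgroup (ZMod M)ˣ) :
    es1infRho L ℓ b d h ∈ gammaH L M H := by
  refine ⟨es1infRho_memL h, es1infRho_memM h hML, ?_⟩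
  have h1 : diamHom M ⟨es1infRho L ℓ b d h, es1infRho_memM h hML⟩ = 1 := by
    ext
    rw [coe_diamHom]
    simp
  rw [h1]
  exact one_mem _

theorem es1infSigma_diam {M : ℕ} (hML : M ∣ L) :
    ((diamHom M ⟨es1infSigma L ℓ b d h, es1infSigma_memM h hML⟩ : (ZMod M)ˣ) : ZMod M)
      = (ℓ : ZMod M) := by
  rw [coe_diamHom]
  simp

end Mat

theorem es1inf_exists_bd {L ℓ : ℕ} (hc : Nat.Coprime ℓ L) :
    ∃ b d : ℤ, (ℓ : ℤ) * d - b * L = 1 := by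
  have h : IsCoprime (ℓ : ℤ) (L : ℤ) := Nat.isCoprime_iff_coprime.mpr hc
  obtain ⟨u, v, huv⟩ := h
  exact ⟨-v, u, by linarith⟩

end Fermat.Agent.ES1
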