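import Fermat.Agent.RT.K5.CommAbs
import Fermat.Agent.S41.Cores

/-!
# ES₁-inf (p-adic package for `J_H`), piece (P4), abstract part (helper38)

* `es1inf_transfer_eq_transferAlong` : Mathlib's `MonoidHom.transfer` from a finite-index subgroup
  `K ≤ G` is `S41.transferAlong` along any injective `f : H →* G` with range `K`;
* `es1inf_bridge_abs` : for two embeddings `c i : K →* G` (finite index ranges), a surjective
  endomorphism `κ` of `G` and `θ : K →* K` with `c ∘ θ = κ ∘ i` and `κ⁻¹ (range c) ⊆ range i`:
  `(transfer_c ψ) ∘ κ = transfer_i (ψ ∘ θ)`.  (Base change with one double coset.)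
-/

set_option autoImplicit false

noncomputable section

namespace Fermat.Agent.ES1

open Fermat.Agent

section Abs

variable {G H : Type*} [Group G] [Group H] {A : Type*} [AddCommGroup A]

/-- Mathlib's transfer from the subgroup `K` is the transfer along `f` if `f.range = K`. -/
theorem es1inf_transfer_eq_transferAlong (f : H →* G) (hf : Function.Injective f)
    [f.range.FiniteIndex] (K : Subgroup G) [K.FiniteIndex] (hK : f.range = K)
    (χ : K →* Multiplicative A) (ψ : Additive H →+ A)
    (hχ : ∀ (h : H) (hh : f h ∈ K), χ ⟨f h, hh⟩ = Multiplicative.ofAdd (ψ (Additive.ofMul h))) :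
    MonoidHom.toAdditiveLeft (MonoidHom.transfer χ) = S41.transferAlong A f hf ψ := by
  subst hK
  have e : χ = S41.rangeHom A f hf ψ := by
    refine MonoidHom.ext fun x => ?_
    obtain ⟨x, h, rfl⟩ := x
    rw [hχ h ⟨h, rfl⟩]
    show _ = Multiplicative.ofAdd (ψ (Additive.ofMul ((MonoidHom.ofInjective hf).symm ⟨f h, _⟩)))
    congr 3
    apply hf
    have := (MonoidHom.ofInjective hf).apply_symm_apply ⟨f h, ⟨h, rfl⟩⟩
    exact (congrArg Subtype.val this).symm
  rw [e]
  rfl

variable {K : Type*} [Group K]

/-- **The abstract bridge** between `cores_c ∘ res_i` and `cores_i ∘ res_c`. -/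
theorem es1inf_bridge_abs (c i : K →* G) (hc : Function.Injective c) (hi : Function.Injective i)
    [c.range.FiniteIndex] [i.range.FiniteIndex] (κ : G →* G) (hκ : Function.Surjective κ)
    (θ : K →* K) (hcomm : ∀ k, c (θ k) = κ (i k))
    (hcart : ∀ x : G, κ x ∈ c.range → x ∈ i.range) (ψ : Additive K →+ A) :
    (S41.transferAlong A c hc ψ).comp (MonoidHom.toAdditive κ)
      = S41.transferAlong A i hi (ψ.comp (MonoidHom.toAdditive θ)) := by
  refine RT.K5.k5c_transfer_basechange c hc κ i hi θ A hcomm hcart ?_ ψ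
  intro γ
  obtain ⟨x, rfl⟩ := hκ γ
  exact ⟨x, by rw [inv_mul_cancel]; exact one_mem _⟩

end Abs

end Fermat.Agent.ES1
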