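import Fermat.Agent.ES1.Inf.BridgeMain

/-!
# ES₁-inf, piece (P4): the bridge, final form (helper38)

* `es1inf_heckeGrp_eq_cores_res` : `heckeGrp ℓ φ = cores_i (φ ∘ c)` (`S41.transferAlong`);
* **`es1inf_diamGrp_tS`** : `diamGrp σ (K5.tS ℓ φ) = heckeGrp ℓ φ` for every
  `σ ∈ Γ₀(L) ∩ Γ₀(M)` with `σ₀₀ ≡ ℓ` mod `M` (`ℓ` prime to `L`).
-/

set_option autoImplicit false

noncomputable section

namespace Fermat.Agent.ES1

open CongruenceSubgroup Matrix Matrix.SpecialLinearGroup Fermat.Agent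
open scoped MatrixGroups

variable {L M : ℕ} [NeZero L] [NeZero M] (H : Subgroup (ZMod M)ˣ) {ℓ : ℕ} [NeZero ℓ]
  {A : Type*} [AddCommGroup A]

/-- `heckeGrp ℓ = cores_i ∘ res_c` -/
theorem es1inf_heckeGrp_eq_cores_res (hML : M ∣ L) [(RT.K5.inclH L M ℓ H).range.FiniteIndex]
    (φ : Additive (gammaH L M H) →+ A) :
    heckeGrp L M H ℓ hML φ
      = S41.transferAlong A (RT.K5.inclH L M ℓ H) (RT.K5.inclH_injective L M ℓ H)
          (φ.comp (MonoidHom.toAdditive (RT.K5.conjDH L M ℓ H hML))) := by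
  refine es1inf_transfer_eq_transferAlong (RT.K5.inclH L M ℓ H) (RT.K5.inclH_injective L M ℓ H)
    (subLevel L M H ℓ) (Subgroup.inclusion_range _) (heckeRes L M H ℓ hML φ) _ ?_
  intro k hk
  show Multiplicative.ofAdd (φ (Additive.ofMul (conjAlphaH H ℓ (NeZero.ne ℓ) hML
    (subLevelEquiv L M H ℓ ⟨RT.K5.inclH L M ℓ H k, hk⟩)))) = _
  have e : subLevelEquiv L M H ℓ ⟨RT.K5.inclH L M ℓ H k, hk⟩ = k := Subtype.ext rfl
  rw [e, ← es1inf_conjDH_eq H hML k]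
  rfl

theorem es1inf_conjH_surjective (σ : SL(2, ℤ)) (hσL : σ ∈ Gamma0 L) (hσM : σ ∈ Gamma0 M) :
    Function.Surjective (conjH L M H σ hσL hσM) := by
  intro y
  have hmem : σ⁻¹ * (y : SL(2, ℤ)) * σ ∈ gammaH L M H := by
    have := conj_mem_gammaH (inv_mem hσL) (inv_mem hσM) y.2
    rwa [inv_inv] at this
  refine ⟨⟨σ⁻¹ * (y : SL(2, ℤ)) * σ, hmem⟩, ?_⟩
  apply Subtype.ext
  show σ * (σ⁻¹ * (y : SL(2, ℤ)) * σ) * σ⁻¹ = y
  group

/-- the bridge for the special `σ = (ℓ, b; L, d)` -/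
theorem es1inf_diamGrp_tS_sigma [hML : Fact (M ∣ L)] {b d : ℤ} (h : (ℓ : ℤ) * d - b * L = 1)
    (φ : Additive (gammaH L M H) →+ A) :
    diamGrp L M H (es1infSigma L ℓ b d h) (es1infSigma_memL h) (es1infSigma_memM h hML.out)
        (RT.K5.tS L M ℓ H A φ)
      = heckeGrp L M H ℓ hML.out φ := by
  rw [es1inf_heckeGrp_eq_cores_res H hML.out φ]
  have hb := es1inf_bridge_abs (A := A) (RT.K5.conjDH L M ℓ H hML.out) (RT.K5.inclH L M ℓ H)
    (RT.K5.conjDH_injective L M ℓ H hML.out) (RT.K5.inclH_injective L M ℓ H)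
    (conjH L M H (es1infSigma L ℓ b d h) (es1infSigma_memL h) (es1infSigma_memM h hML.out))
    (es1inf_conjH_surjective H _ _ _) (es1infTheta H h hML.out) (es1inf_hcomm H h hML.out)
    (es1inf_hcart H h hML.out)
    (φ.comp (MonoidHom.toAdditive (RT.K5.inclH L M ℓ H)))
  have hθ : (φ.comp (MonoidHom.toAdditive (RT.K5.inclH L M ℓ H))).comp
      (MonoidHom.toAdditive (es1infTheta H h hML.out))
      = φ.comp (MonoidHom.toAdditive (RT.K5.conjDH L M ℓ H hML.out)) := by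
    refine AddMonoidHom.ext fun k => ?_
    obtain ⟨k, rfl⟩ : ∃ k' : gammaH (L * ℓ) M H, Additive.ofMul k' = k :=
      ⟨Additive.toMul k, rfl⟩
    show φ (Additive.ofMul (RT.K5.inclH L M ℓ H (es1infTheta H h hML.out k)))
      = φ (Additive.ofMul (RT.K5.conjDH L M ℓ H hML.out k))
    have e : RT.K5.inclH L M ℓ H (es1infTheta H h hML.out k)
        = (⟨es1infRho L ℓ b d h, es1infRho_mem_gammaH h hML.out H⟩ : gammaH L M H)
          * RT.K5.conjDH L M ℓ H hML.out k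
          * (⟨es1infRho L ℓ b d h, es1infRho_mem_gammaH h hML.out H⟩ : gammaH L M H)⁻¹ :=
      Subtype.ext rfl
    rw [e, ofMul_mul, ofMul_mul, ofMul_inv, map_add, map_add, map_neg]
    abel
  rw [hθ] at hb
  rw [← hb]
  rfl

/-- **The bridge** `diamGrp σ ∘ tS ℓ = heckeGrp ℓ`, `σ` of diamond class `ℓ`. -/
theorem es1inf_diamGrp_tS [hML : Fact (M ∣ L)] (hc : Nat.Coprime ℓ L) (σ : SL(2, ℤ))
    (hσL : σ ∈ Gamma0 L) (hσM : σ ∈ Gamma0 M)
    (hσ : ((diamHom M ⟨σ, hσM⟩ : (ZMod M)ˣ) : ZMod M) = (ℓ : ZMod M))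
    (φ : Additive (gammaH L M H) →+ A) :
    diamGrp L M H σ hσL hσM (RT.K5.tS L M ℓ H A φ) = heckeGrp L M H ℓ hML.out φ := by
  obtain ⟨b, d, h⟩ := es1inf_exists_bd hc
  rw [← es1inf_diamGrp_tS_sigma H h φ]
  refine diamGrp_congr L M H hσL hσM _ _ ?_ _
  ext
  rw [hσ, es1infSigma_diam h hML.out]

end Fermat.Agent.ES1
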