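import Fermat.Agent.ES1.Inf.Bridge
import Fermat.Agent.ES1.G1.HKbIndex

/-!
# ES₁-inf, piece (P4): the bridge, main theorem (helper38)

**`es1inf_diamGrp_tS`** : `diamGrp σ (K5.tS ℓ φ) = heckeGrp ℓ φ` for every `σ ∈ Γ₀(L) ∩ Γ₀(M)` of
diamond class `ℓ` (`ℓ` prime to `L`).  Also `K5.diamS g = diamGrp g⁻¹`.
-/

set_option autoImplicit false

noncomputable section

namespace Fermat.Agent.ES1

open CongruenceSubgroup Matrix Matrix.SpecialLinearGroup Fermat.Agent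
open scoped MatrixGroups

variable {L M : ℕ} (H : Subgroup (ZMod M)ˣ) {ℓ : ℕ} [NeZero ℓ]

/-- the two conjugations by `diag(ℓ, 1)` agree -/
theorem es1inf_conjDH_eq (hML : M ∣ L) (k : gammaH (L * ℓ) M H) :
    RT.K5.conjDH L M ℓ H hML k = conjAlphaH H ℓ (NeZero.ne ℓ) hML k := by
  apply Subtype.ext
  apply Subtype.ext
  rfl

theorem es1inf_conjDH_00 (hML : M ∣ L) (k : gammaH (L * ℓ) M H) :
    ((RT.K5.conjDH L M ℓ H hML k : gammaH L M H) : SL(2, ℤ)) 0 0 = (k : SL(2, ℤ)) 0 0 := rfl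

theorem es1inf_conjDH_01 (hML : M ∣ L) (k : gammaH (L * ℓ) M H) :
    ((RT.K5.conjDH L M ℓ H hML k : gammaH L M H) : SL(2, ℤ)) 0 1
      = (ℓ : ℤ) * (k : SL(2, ℤ)) 0 1 := rfl

theorem es1inf_conjDH_10 (hML : M ∣ L) (k : gammaH (L * ℓ) M H) :
    (ℓ : ℤ) * ((RT.K5.conjDH L M ℓ H hML k : gammaH L M H) : SL(2, ℤ)) 1 0
      = (k : SL(2, ℤ)) 1 0 := by
  show (ℓ : ℤ) * ((k : SL(2, ℤ)) 1 0 / (ℓ : ℤ)) = _
  exact Int.mul_ediv_cancel' (dvd_of_mem_gammaH_mul H ℓ k.2)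

theorem es1inf_conjDH_11 (hML : M ∣ L) (k : gammaH (L * ℓ) M H) :
    ((RT.K5.conjDH L M ℓ H hML k : gammaH L M H) : SL(2, ℤ)) 1 1 = (k : SL(2, ℤ)) 1 1 := rfl

section Theta

variable {b d : ℤ} (h : (ℓ : ℤ) * d - b * L = 1)

include h in
theorem es1inf_coprime : Nat.Coprime ℓ L := by
  rw [← Nat.isCoprime_iff_coprime]
  exact ⟨d, -b, by linarith⟩

theorem es1inf_theta_mem (hML : M ∣ L) (k : gammaH (L * ℓ) M H) :
    es1infRho L ℓ b d h * ((RT.K5.conjDH L M ℓ H hML k : gammaH L M H) : SL(2, ℤ))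
      * (es1infRho L ℓ b d h)⁻¹ ∈ gammaH (L * ℓ) M H := by
  have h1 : es1infRho L ℓ b d h * ((RT.K5.conjDH L M ℓ H hML k : gammaH L M H) : SL(2, ℤ))
      * (es1infRho L ℓ b d h)⁻¹ ∈ gammaH L M H :=
    conj_mem_gammaH (es1infRho_memL h) (es1infRho_memM h hML) (RT.K5.conjDH L M ℓ H hML k).2
  rw [es1g1hkb_mem_gammaH_mul_iff (es1inf_coprime h) h1, es1inf_conj_10]
  simp only [es1infRho_10, es1infRho_11, es1inf_conjDH_00, es1inf_conjDH_01, es1inf_conjDH_11]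
  refine ⟨((L : ℤ) * (k : SL(2, ℤ)) 0 0
      + (ℓ : ℤ) * d * ((RT.K5.conjDH L M ℓ H hML k : gammaH L M H) : SL(2, ℤ)) 1 0) * d
      - ((L : ℤ) * (k : SL(2, ℤ)) 0 1 + d * (k : SL(2, ℤ)) 1 1) * L, ?_⟩
  ring

/-- `θ : Γ' → Γ'`, `k ↦ ρ' · c(k) · ρ'⁻¹` -/
def es1infTheta (hML : M ∣ L) : gammaH (L * ℓ) M H →* gammaH (L * ℓ) M H where
  toFun k := ⟨es1infRho L ℓ b d h * ((RT.K5.conjDH L M ℓ H hML k : gammaH L M H) : SL(2, ℤ))
      * (es1infRho L ℓ b d h)⁻¹, es1inf_theta_mem H h hML k⟩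
  map_one' := by
    apply Subtype.ext
    show es1infRho L ℓ b d h * ((RT.K5.conjDH L M ℓ H hML 1 : gammaH L M H) : SL(2, ℤ))
      * (es1infRho L ℓ b d h)⁻¹ = 1
    rw [map_one]
    simp
  map_mul' x y := by
    apply Subtype.ext
    show es1infRho L ℓ b d h * ((RT.K5.conjDH L M ℓ H hML (x * y) : gammaH L M H) : SL(2, ℤ))
        * (es1infRho L ℓ b d h)⁻¹
      = (es1infRho L ℓ b d h * ((RT.K5.conjDH L M ℓ H hML x : gammaH L M H) : SL(2, ℤ))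
        * (es1infRho L ℓ b d h)⁻¹)
        * (es1infRho L ℓ b d h * ((RT.K5.conjDH L M ℓ H hML y : gammaH L M H) : SL(2, ℤ))
        * (es1infRho L ℓ b d h)⁻¹)
    rw [map_mul]
    simp only [Subgroup.coe_mul]
    group

theorem es1infTheta_coe (hML : M ∣ L) (k : gammaH (L * ℓ) M H) :
    ((es1infTheta H h hML k : gammaH (L * ℓ) M H) : SL(2, ℤ))
      = es1infRho L ℓ b d h * ((RT.K5.conjDH L M ℓ H hML k : gammaH L M H) : SL(2, ℤ))
        * (es1infRho L ℓ b d h)⁻¹ := rfl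

/-- `c ∘ θ = κ_σ ∘ i` -/
theorem es1inf_hcomm (hML : M ∣ L) (k : gammaH (L * ℓ) M H) :
    RT.K5.conjDH L M ℓ H hML (es1infTheta H h hML k)
      = conjH L M H (es1infSigma L ℓ b d h) (es1infSigma_memL h) (es1infSigma_memM h hML)
          (RT.K5.inclH L M ℓ H k) := by
  have hℓ0 : (ℓ : ℤ) ≠ 0 := by exact_mod_cast NeZero.ne ℓ
  apply Subtype.ext
  show ((RT.K5.conjDH L M ℓ H hML (es1infTheta H h hML k) : gammaH L M H) : SL(2, ℤ))
    = es1infSigma L ℓ b d h * (k : SL(2, ℤ)) * (es1infSigma L ℓ b d h)⁻¹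
  have h10 := es1inf_conjDH_10 H hML k
  set r : ℤ := ((RT.K5.conjDH L M ℓ H hML k : gammaH L M H) : SL(2, ℤ)) 1 0 with hr
  apply es1inf_sl2_ext
  · rw [es1inf_conjDH_00, es1infTheta_coe, es1inf_conj_00, es1inf_conj_00]
    simp only [es1infRho_00, es1infRho_01, es1infRho_10, es1infRho_11, es1infSigma_00,
      es1infSigma_01, es1infSigma_10, es1infSigma_11, es1inf_conjDH_00, es1inf_conjDH_01,
      es1inf_conjDH_11]
    rw [← hr, ← h10]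
    ring
  · rw [es1inf_conjDH_01, es1infTheta_coe, es1inf_conj_01, es1inf_conj_01]
    simp only [es1infRho_00, es1infRho_01, es1infRho_10, es1infRho_11, es1infSigma_00,
      es1infSigma_01, es1infSigma_10, es1infSigma_11, es1inf_conjDH_00, es1inf_conjDH_01,
      es1inf_conjDH_11]
    rw [← hr, ← h10]
    ring
  · apply mul_left_cancel₀ hℓ0
    rw [es1inf_conjDH_10, es1infTheta_coe, es1inf_conj_10, es1inf_conj_10]
    simp only [es1infRho_00, es1infRho_01, es1infRho_10, es1infRho_11, es1infSigma_00,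
      es1infSigma_01, es1infSigma_10, es1infSigma_11, es1inf_conjDH_00, es1inf_conjDH_01,
      es1inf_conjDH_11]
    rw [← hr, ← h10]
    ring
  · rw [es1inf_conjDH_11, es1infTheta_coe, es1inf_conj_11, es1inf_conj_11]
    simp only [es1infRho_00, es1infRho_01, es1infRho_10, es1infRho_11, es1infSigma_00,
      es1infSigma_01, es1infSigma_10, es1infSigma_11, es1inf_conjDH_00, es1inf_conjDH_01,
      es1inf_conjDH_11]
    rw [← hr, ← h10]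
    ring

/-- `κ_σ⁻¹ (range c) ⊆ range i` -/
theorem es1inf_hcart (hML : M ∣ L) (x : gammaH L M H)
    (hx : conjH L M H (es1infSigma L ℓ b d h) (es1infSigma_memL h) (es1infSigma_memM h hML) x
      ∈ (RT.K5.conjDH L M ℓ H hML).range) : x ∈ (RT.K5.inclH L M ℓ H).range := by
  obtain ⟨k, hk⟩ := hx
  have h01 : ((RT.K5.conjDH L M ℓ H hML k : gammaH L M H) : SL(2, ℤ)) 0 1
      = (es1infSigma L ℓ b d h * (x : SL(2, ℤ)) * (es1infSigma L ℓ b d h)⁻¹ : SL(2, ℤ)) 0 1 :=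
    congrArg (fun y : gammaH L M H => (y : SL(2, ℤ)) 0 1) hk
  rw [es1inf_conjDH_01] at h01
  have h01' : (ℓ : ℤ) * (k : SL(2, ℤ)) 0 1
      = (es1infSigma L ℓ b d h * (x : SL(2, ℤ)) * (es1infSigma L ℓ b d h)⁻¹ : SL(2, ℤ)) 0 1 :=
    h01
  rw [es1inf_conj_01] at h01'
  simp only [es1infSigma_00, es1infSigma_01] at h01'
  -- `ℓ ∣ b² x₁₀`
  have hdiv : (ℓ : ℤ) ∣ b * b * (x : SL(2, ℤ)) 1 0 := by
    refine ⟨-(k : SL(2, ℤ)) 0 1 - (x : SL(2, ℤ)) 0 0 * b + (ℓ : ℤ) * (x : SL(2, ℤ)) 0 1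
      + b * (x : SL(2, ℤ)) 1 1, ?_⟩
    linear_combination h01'
  have hcop : IsCoprime (ℓ : ℤ) b := ⟨d, -(L : ℤ), by linarith⟩
  have hdvd : (ℓ : ℤ) ∣ (x : SL(2, ℤ)) 1 0 :=
    (hcop.mul_right hcop).dvd_of_dvd_mul_left hdiv
  have hmem : (x : SL(2, ℤ)) ∈ gammaH (L * ℓ) M H :=
    (es1g1hkb_mem_gammaH_mul_iff (es1inf_coprime h) x.2).mpr hdvd
  exact ⟨⟨x, hmem⟩, Subtype.ext rfl⟩

end Theta

end Fermat.Agent.ES1
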