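import Fermat.Agent.ES1.Inf.BridgeFinal
import Fermat.Agent.RT.K5.CommT

/-!
# ES₁-inf: the operators `heckeGrp`, `diamGrp` on `Hom(Γ, A)` commute (helper38)

From the bridge `heckeGrp ℓ = diamGrp σ_ℓ ∘ K5.tS ℓ` and K5-C, K5-CC (`RT/K5/Comm.lean`,
`CommT.lean`):
* `es1inf_diamS_eq` : `K5.diamS g = diamGrp g⁻¹`;
* `es1inf_diamGrp_comm` : the diamonds commute;
* `es1inf_diamGrp_tS_comm` : `diamGrp σ ∘ tS ℓ = tS ℓ ∘ diamGrp σ`;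
* `es1inf_heckeGrp_diamGrp_comm`, `es1inf_heckeGrp_comm`.
-/

set_option autoImplicit false

noncomputable section

namespace Fermat.Agent.ES1

open CongruenceSubgroup Matrix Matrix.SpecialLinearGroup Fermat.Agent
open scoped MatrixGroups

variable {L M : ℕ} [NeZero L] [NeZero M] (H : Subgroup (ZMod M)ˣ)

/-- `K5.diamS g = diamGrp g⁻¹` -/
theorem es1inf_diamS_eq {A : Type*} [AddCommGroup A] (g : SL(2, ℤ)) (hgL : g ∈ Gamma0 L)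
    (hgM : g ∈ Gamma0 M) (φ : Additive (gammaH L M H) →+ A) :
    RT.K5.diamS H A g hgL hgM φ = diamGrp L M H g⁻¹ (inv_mem hgL) (inv_mem hgM) φ := by
  refine AddMonoidHom.ext fun γ => ?_
  obtain ⟨γ, rfl⟩ : ∃ γ' : gammaH L M H, Additive.ofMul γ' = γ := ⟨Additive.toMul γ, rfl⟩
  show φ (Additive.ofMul ⟨g⁻¹ * (γ : SL(2, ℤ)) * g, _⟩)
    = φ (Additive.ofMul ⟨g⁻¹ * (γ : SL(2, ℤ)) * g⁻¹⁻¹, _⟩)
  congr 2
  apply Subtype.ext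
  show g⁻¹ * (γ : SL(2, ℤ)) * g = g⁻¹ * (γ : SL(2, ℤ)) * g⁻¹⁻¹
  rw [inv_inv]

/-- `diamGrp σ = K5.diamS σ⁻¹` -/
theorem es1inf_diamGrp_eq_diamS {A : Type*} [AddCommGroup A] (σ : SL(2, ℤ)) (hσL : σ ∈ Gamma0 L)
    (hσM : σ ∈ Gamma0 M) (φ : Additive (gammaH L M H) →+ A) :
    diamGrp L M H σ hσL hσM φ = RT.K5.diamS H A σ⁻¹ (inv_mem hσL) (inv_mem hσM) φ := by
  rw [es1inf_diamS_eq]
  refine diamGrp_congr L M H hσL hσM _ _ ?_ φ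
  congr 1
  apply Subtype.ext
  show σ = σ⁻¹⁻¹
  rw [inv_inv]

/-- composition of diamonds -/
theorem es1inf_diamGrp_diamGrp {A : Type*} [AddCommGroup A] (σ τ : SL(2, ℤ))
    (hσL : σ ∈ Gamma0 L) (hσM : σ ∈ Gamma0 M) (hτL : τ ∈ Gamma0 L) (hτM : τ ∈ Gamma0 M)
    (φ : Additive (gammaH L M H) →+ A) :
    diamGrp L M H σ hσL hσM (diamGrp L M H τ hτL hτM φ)
      = diamGrp L M H (τ * σ) (mul_mem hτL hσL) (mul_mem hτM hσM) φ := by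
  refine AddMonoidHom.ext fun γ => ?_
  obtain ⟨γ, rfl⟩ : ∃ γ' : gammaH L M H, Additive.ofMul γ' = γ := ⟨Additive.toMul γ, rfl⟩
  rw [diamGrp_apply, diamGrp_apply, diamGrp_apply]
  congr 2
  apply Subtype.ext
  show τ * (σ * (γ : SL(2, ℤ)) * σ⁻¹) * τ⁻¹ = τ * σ * (γ : SL(2, ℤ)) * (τ * σ)⁻¹
  group

/-- the diamonds commute -/
theorem es1inf_diamGrp_comm {A : Type*} [AddCommGroup A] (σ τ : SL(2, ℤ))
    (hσL : σ ∈ Gamma0 L) (hσM : σ ∈ Gamma0 M) (hτL : τ ∈ Gamma0 L) (hτM : τ ∈ Gamma0 M)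
    (φ : Additive (gammaH L M H) →+ A) :
    diamGrp L M H σ hσL hσM (diamGrp L M H τ hτL hτM φ)
      = diamGrp L M H τ hτL hτM (diamGrp L M H σ hσL hσM φ) := by
  rw [es1inf_diamGrp_diamGrp, es1inf_diamGrp_diamGrp]
  refine diamGrp_congr L M H _ _ _ _ ?_ φ
  have h1 : (⟨τ * σ, mul_mem hτM hσM⟩ : Gamma0 M) = ⟨τ, hτM⟩ * ⟨σ, hσM⟩ := rfl
  have h2 : (⟨σ * τ, mul_mem hσM hτM⟩ : Gamma0 M) = ⟨σ, hσM⟩ * ⟨τ, hτM⟩ := rfl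
  rw [h1, h2, map_mul, map_mul, mul_comm]

variable {ℓ : ℕ} [NeZero ℓ]

/-- `diamGrp σ` commutes with `K5.tS ℓ` -/
theorem es1inf_diamGrp_tS_comm [Fact (M ∣ L)] {A : Type} [AddCommGroup A] (hℓ : ℓ.Prime)
    (hℓL : ¬ ℓ ∣ L) (σ : SL(2, ℤ)) (hσL : σ ∈ Gamma0 L) (hσM : σ ∈ Gamma0 M)
    (φ : Additive (gammaH L M H) →+ A) :
    diamGrp L M H σ hσL hσM (RT.K5.tS L M ℓ H A φ)
      = RT.K5.tS L M ℓ H A (diamGrp L M H σ hσL hσM φ) := by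
  rw [es1inf_diamGrp_eq_diamS, es1inf_diamGrp_eq_diamS]
  exact (RT.K5.stmtComm L M ℓ H H le_rfl A hℓ hℓL).2.2 σ⁻¹ (inv_mem hσL) (inv_mem hσM) φ

/-- `heckeGrp ℓ` commutes with the diamonds -/
theorem es1inf_heckeGrp_diamGrp_comm [hML : Fact (M ∣ L)] {A : Type} [AddCommGroup A]
    (hℓ : ℓ.Prime) (hℓL : ¬ ℓ ∣ L) (τ : SL(2, ℤ)) (hτL : τ ∈ Gamma0 L) (hτM : τ ∈ Gamma0 M)
    (φ : Additive (gammaH L M H) →+ A) :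
    heckeGrp L M H ℓ hML.out (diamGrp L M H τ hτL hτM φ)
      = diamGrp L M H τ hτL hτM (heckeGrp L M H ℓ hML.out φ) := by
  have hc : Nat.Coprime ℓ L := (Nat.Prime.coprime_iff_not_dvd hℓ).mpr hℓL
  obtain ⟨b, d, h⟩ := es1inf_exists_bd hc
  rw [← es1inf_diamGrp_tS_sigma H h, ← es1inf_diamGrp_tS_sigma H h,
    ← es1inf_diamGrp_tS_comm H hℓ hℓL τ hτL hτM φ, es1inf_diamGrp_comm]

/-- the operators `heckeGrp ℓ` commute -/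
theorem es1inf_heckeGrp_comm [hML : Fact (M ∣ L)] {A : Type} [AddCommGroup A] {ℓ' : ℕ}
    [NeZero ℓ'] (hℓ : ℓ.Prime) (hℓL : ¬ ℓ ∣ L) (hℓ' : ℓ'.Prime) (hℓ'L : ¬ ℓ' ∣ L)
    (φ : Additive (gammaH L M H) →+ A) :
    heckeGrp L M H ℓ hML.out (heckeGrp L M H ℓ' hML.out φ)
      = heckeGrp L M H ℓ' hML.out (heckeGrp L M H ℓ hML.out φ) := by
  have hc : Nat.Coprime ℓ L := (Nat.Prime.coprime_iff_not_dvd hℓ).mpr hℓL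
  have hc' : Nat.Coprime ℓ' L := (Nat.Prime.coprime_iff_not_dvd hℓ').mpr hℓ'L
  obtain ⟨b, d, h⟩ := es1inf_exists_bd hc
  obtain ⟨b', d', h'⟩ := es1inf_exists_bd hc'
  rw [← es1inf_diamGrp_tS_sigma H h' φ, es1inf_heckeGrp_diamGrp_comm H hℓ hℓL,
    ← es1inf_diamGrp_tS_sigma H h, ← es1inf_diamGrp_tS_sigma H h φ,
    es1inf_heckeGrp_diamGrp_comm H hℓ' hℓ'L, ← es1inf_diamGrp_tS_sigma H h',
    RT.K5.stmtCommT L M ℓ ℓ' H A hℓ hℓ' hℓL hℓ'L φ, es1inf_diamGrp_comm]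

end Fermat.Agent.ES1
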