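import Fermat.Agent.ES1.Inf.TwChi
import Fermat.Agent.RT.K5.Act

/-!
# The dictionary between `es1infHomEval` and the K5 operators (helper38)

`Γ = gammaH L M H`, `eval = es1infHomEval L M H hML p A : HDAlg M → End(Hom(Γ, A))`.

* `es1infev_dGen`    : `eval δ_c = diamU c⁻¹`;
* `es1infev_dGen_pow`: `eval (δ_c ^ e) = diamU (c⁻¹ ^ e)`;
* `es1infev_chiPoly` : `eval (δ_c ^ e + δ_{c⁻¹} ^ e) = diamU (c ^ e) + diamU (c ^ e)⁻¹`;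
* `es1infev_tGen_adj`: `eval T_ℓ = K5.tSadj ℓ` (`ℓ ∤ L p`);
* `es1infev_tGen`    : `eval T_ℓ = diamU ⟨ℓ⟩⁻¹ ∘ K5.tS ℓ`;
* `es1infev_twTr`    : `eval (Tr ℓ) = diamU (⟨ℓ⟩⁻¹ ^ e) ∘ K5.tS ℓ`, `Tr ℓ = es1inftwTr M e ℓ`, `1 ≤ e`.
-/

set_option autoImplicit false
set_option linter.unusedSectionVars false
set_option linter.style.haveILetI false

noncomputable section

namespace Fermat.Agent.ES1

open ModularCurve AlgebraicCurve CongruenceSubgroup ModularCurve.Period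
open Fermat.Agent.ES Fermat.Agent.S48 Fermat.Agent.RT.K5
open scoped MatrixGroups

variable {L M : ℕ} [NeZero L] [NeZero M] {H : Subgroup (ZMod M)ˣ} {p : ℕ}
  [hMLf : Fact (M ∣ L)] {A : Type} [AddCommGroup A]

/-- `diamGrp σ = diamU (class of σ)⁻¹` -/
theorem es1infev_diamGrp (σ : SL(2, ℤ)) (hσL : σ ∈ Gamma0 L) (hσM : σ ∈ Gamma0 M)
    (φ : HomS (gammaH L M H) A) :
    diamGrp L M H σ hσL hσM φ = diamU L M H A (diamHom M ⟨σ, hσM⟩)⁻¹ φ := by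
  rw [es1inf_diamGrp_eq_diamS,
    ← k5act_diamU_diamHom_apply L M H A σ⁻¹ (inv_mem hσL) (inv_mem hσM) φ,
    k5e_diam_inv σ hσM (inv_mem hσM)]

/-- `δ_c` acts as `diamU c⁻¹` -/
theorem es1infev_dGen (c : (ZMod M)ˣ) (φ : HomS (gammaH L M H) A) :
    es1infHomEval L M H hMLf.out p A (es1top_dGen M c) φ = diamU L M H A c⁻¹ φ := by
  obtain ⟨σ, hσL, hσM, hσ⟩ := es1g1op_exists_sigma hMLf.out c
  rw [es1infHomEval_dGen hMLf.out c φ σ hσL hσM hσ, es1infev_diamGrp, hσ]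

/-- `δ_c ^ e` acts as `diamU (c⁻¹ ^ e)` -/
theorem es1infev_dGen_pow (c : (ZMod M)ˣ) (e : ℕ) (φ : HomS (gammaH L M H) A) :
    es1infHomEval L M H hMLf.out p A (es1top_dGen M c ^ e) φ = diamU L M H A (c⁻¹ ^ e) φ := by
  induction e generalizing φ with
  | zero =>
      rw [pow_zero, pow_zero, map_one, map_one]
      rfl
  | succ e ih =>
      rw [pow_succ, pow_succ, map_mul, map_mul, Module.End.mul_apply, es1infev_dGen, ih,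
        AddMonoid.End.coe_mul, Function.comp_apply]

/-- `δ_c ^ e + δ_{c⁻¹} ^ e` acts as `diamU (c ^ e) + diamU (c ^ e)⁻¹` -/
theorem es1infev_chiPoly (e : ℕ) (c : (ZMod M)ˣ) (φ : HomS (gammaH L M H) A) :
    es1infHomEval L M H hMLf.out p A (es1inftwChiPoly M e c) φ
      = diamU L M H A (c ^ e) φ + diamU L M H A (c ^ e)⁻¹ φ := by
  rw [es1inftwChiPoly, map_add, LinearMap.add_apply, es1infev_dGen_pow, es1infev_dGen_pow,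
    inv_inv, inv_pow, add_comm]

/-- `T_ℓ` acts as `K5.tSadj ℓ = cores ∘ res_δ` (`ℓ ∤ L p`) -/
theorem es1infev_tGen_adj {ℓ : Nat.Primes} (h : ¬ (ℓ : ℕ) ∣ L * p)
    (φ : HomS (gammaH L M H) A) :
    es1infHomEval L M H hMLf.out p A (es1top_tGen M ℓ) φ
      = (haveI : NeZero (ℓ : ℕ) := ⟨ℓ.2.ne_zero⟩; tSadj L M ℓ H A φ) := by
  haveI : NeZero (ℓ : ℕ) := ⟨ℓ.2.ne_zero⟩
  rw [es1infHomEval_tGen hMLf.out h, es1inf_heckeGrp_eq_cores_res H hMLf.out φ]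
  rfl

/-- `T_ℓ` acts as `diamU ⟨ℓ⟩⁻¹ ∘ K5.tS ℓ` (`ℓ ∤ L p`) -/
theorem es1infev_tGen {ℓ : Nat.Primes} (h : ¬ (ℓ : ℕ) ∣ L * p) (hc : Nat.Coprime ℓ M)
    (φ : HomS (gammaH L M H) A) :
    es1infHomEval L M H hMLf.out p A (es1top_tGen M ℓ) φ
      = (haveI : NeZero (ℓ : ℕ) := ⟨ℓ.2.ne_zero⟩;
          diamU L M H A (ZMod.unitOfCoprime ℓ hc)⁻¹ (tS L M ℓ H A φ)) := by
  haveI : NeZero (ℓ : ℕ) := ⟨ℓ.2.ne_zero⟩
  have hℓL : ¬ (ℓ : ℕ) ∣ L := fun h' => h (h'.mul_right p)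
  have hcL : Nat.Coprime ℓ L := (Nat.Prime.coprime_iff_not_dvd ℓ.2).mpr hℓL
  obtain ⟨σ, hσL, hσM, hσ⟩ := es1g1op_exists_sigma hMLf.out (ZMod.unitOfCoprime ℓ hc)
  have hσ' : ((diamHom M ⟨σ, hσM⟩ : (ZMod M)ˣ) : ZMod M) = ((ℓ : ℕ) : ZMod M) := by
    rw [hσ, ZMod.coe_unitOfCoprime]
  rw [es1infHomEval_tGen hMLf.out h, ← es1inf_diamGrp_tS H hcL σ hσL hσM hσ' φ,
    es1infev_diamGrp, hσ]

/-- the twisted operator `Tr ℓ = δ_ℓ ^ (e − 1) T_ℓ` acts as `diamU (⟨ℓ⟩⁻¹ ^ e) ∘ K5.tS ℓ` -/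
theorem es1infev_twTr (e : ℕ) (he : 1 ≤ e) {ℓ : ℕ} (hℓ : ℓ.Prime) (h : ¬ ℓ ∣ L * p)
    (hc : Nat.Coprime ℓ M) (φ : HomS (gammaH L M H) A) :
    es1infHomEval L M H hMLf.out p A (es1inftwTr M e ℓ) φ
      = (haveI : NeZero ℓ := ⟨hℓ.ne_zero⟩;
          diamU L M H A ((ZMod.unitOfCoprime ℓ hc)⁻¹ ^ e) (tS L M ℓ H A φ)) := by
  haveI : NeZero ℓ := ⟨hℓ.ne_zero⟩
  have h1 : es1infHomEval L M H hMLf.out p A (es1top_tGen M ⟨ℓ, hℓ⟩) φ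
      = diamU L M H A (ZMod.unitOfCoprime ℓ hc)⁻¹ (tS L M ℓ H A φ) :=
    es1infev_tGen (H := H) (A := A) (ℓ := ⟨ℓ, hℓ⟩) h hc φ
  rw [es1inftwTr_eq M e hℓ hc, map_mul, Module.End.mul_apply, h1, es1infev_dGen_pow]
  obtain ⟨k, rfl⟩ : ∃ k, e = k + 1 := ⟨e - 1, by omega⟩
  rw [Nat.add_sub_cancel, pow_succ, map_mul, AddMonoid.End.coe_mul, Function.comp_apply]

end Fermat.Agent.ES1
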