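import Fermat.Agent.ES1.Inf.TwPkg
import Fermat.Agent.RT.K5.FreeOFinal
import Fermat.Agent.RT.K5.Plan6

/-!
# HK-FAITH — faithfulness for the K5 modules (helper38; spec helper59 23:44Z)

`Γ = gammaH L M H`, `J = es1inftwJ L M H p χ` (the twisted `p`-divisible torsion; the module
structure over `HDAlg M` is the untwisted one), `t ∈ HDAlg M` acting on `Hom(Γ, A)` by
`es1infHomEval` (`T_ℓ ↦ heckeGrp ℓ = K5.tSadj ℓ`, `δ_c ↦ diamGrp σ_c`).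

* `es1inffk_exists_sum_intHoms` : `Hom_par(Γ, A) = A · Hom_par(Γ, ℤ)` for torsion-free `A`
  (`Γ` finitely generated);
* `es1inffk_torsionFree` : `t` kills `J[pⁿ]` ⇒ `t · Hom_par(Γ, A) ⊆ pⁿ Hom_par(Γ, A)`, `A` torsion-free;
* `es1inffk_hom` : hence `t` kills `f ∘ v`, `v ∈ Hom_par(Γ, A)`, `f : A → B`, `pⁿ B = 0`;
* **`es1inffk_level`** : `t` kills `J[pⁿ]` ⇒ `t` kills the `Θ`-part
  `X_n = etaPart (thetaN 𝔲 ℓ₀ (𝒪 ⧸ 𝔪 ^ n) H)` of K5, provided the `Θ`-part over `𝒪` is parabolic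
  (`StmtParO`) and `X_n` is the reduction of `X_𝒪` (`stmtFreeO` / `k5fo_red_onto`);
* **`es1inffk_level_of_noTors`** : the same with the reduction clause discharged by K5;
* `es1inffk_theta_le_eta`, `es1inffk_par_of_parO` : the `Θ`-part is contained in the `η`-part when
  `𝔲` commutes with `η`, hence parabolic by `StmtParO`;
* **`es1inffk_adic`**, `es1inffk_adic_max` : the adic variant: `t` kills `J[pᵏ]` ⇒
  `t X_𝒪 ⊆ pᵏ X_𝒪 ⊆ 𝔪ᵏ X_𝒪` (`X_𝒪` parabolic and `t`-stable);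
* `es1inffk_eval_theta`, `es1inffk_eval_mem` : the polynomials commute with `Θ` and preserve the
  `Θ`-part, when the `K5.tS ℓ` (`ℓ ∤ L p`) commute with `𝔲`.
-/

set_option autoImplicit false
set_option linter.unusedSectionVars false
set_option linter.style.haveILetI false

noncomputable section

namespace Fermat.Agent.ES1

open ModularCurve AlgebraicCurve CongruenceSubgroup ModularCurve.Period
open Fermat.Agent.ES Fermat.Agent.S48 Fermat.Agent.RT.K5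
open scoped MatrixGroups

/-! ## `Hom_par(Γ, A) = A · Hom_par(Γ, ℤ)` -/

/-- every homomorphism `G → A` (`G` finitely generated, `A` torsion-free) vanishing on `P` is a
finite combination `∑ φ_m(·) • a_m` of integral homomorphisms vanishing on `P` -/
theorem es1inffk_exists_sum_intHoms {G : Type*} [Group G] [Group.FG G] (P : Set G)
    {A : Type*} [AddCommGroup A] [Module.IsTorsionFree ℤ A] (v : Additive G →+ A)
    (hv : ∀ g ∈ P, v (Additive.ofMul g) = 0) :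
    ∃ (r : ℕ) (a : Fin r → A) (φ : Fin r → (Additive G →+ ℤ)),
      (∀ m, φ m ∈ intHoms G P) ∧ ∀ g, v g = ∑ m, φ m g • a m := by
  classical
  have hfg : AddGroup.FG (Additive G) := AddGroup.fg_of_group_fg
  let Λ : Submodule ℤ A := AddSubgroup.toIntSubmodule v.range
  have hΛfg : AddGroup.FG v.range := AddGroup.fg_range v
  have : Module.Finite ℤ Λ := Module.Finite.iff_addGroup_fg.mpr hΛfg
  have : Module.Free ℤ Λ := Module.free_of_finite_type_torsion_free'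
  let ν := Module.finBasis ℤ Λ
  let v' : Additive G →+ Λ :=
    { toFun := fun g => ⟨v g, ⟨g, rfl⟩⟩
      map_zero' := Subtype.ext (map_zero v)
      map_add' := fun a b => Subtype.ext (map_add v a b) }
  refine ⟨Module.finrank ℤ Λ, fun m => ((ν m : Λ) : A),
    fun m => (ν.coord m).toAddMonoidHom.comp v', ?_, ?_⟩
  · intro m g hg
    have h0 : v' (Additive.ofMul g) = 0 := Subtype.ext (hv g hg)
    show ν.coord m (v' (Additive.ofMul g)) = 0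
    rw [h0, map_zero]
  · intro g
    have h1 := ν.sum_repr (v' g)
    have h2 := congrArg (Subtype.val) h1
    rw [Submodule.coe_sum] at h2
    have h3 : (v g : A) = ((v' g : Λ) : A) := rfl
    rw [h3, ← h2]
    refine Finset.sum_congr rfl (fun m _ => ?_)
    rw [Submodule.coe_smul]
    rfl

variable {L M : ℕ} [NeZero L] [NeZero M] {H : Subgroup (ZMod M)ˣ} {p : ℕ}

/-! ## Torsion-free coefficients -/

/-- **(1) + (2)**: a polynomial killing `J[pⁿ]` maps `Hom_par(Γ, A)` into `pⁿ Hom_par(Γ, A)`, for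
every torsion-free coefficient group `A` -/
theorem es1inffk_torsionFree (hML : M ∣ L) {J : Type} [AddCommGroup J] [Module (HDAlg M) J]
    (h : ES1FaithInf L M H hML p J) (hp : p ≠ 0) (A : Type) [AddCommGroup A]
    [Module.IsTorsionFree ℤ A] (n : ℕ) (t : HDAlg M)
    (ht : ∀ x : J, p ^ n • x = 0 → t • x = 0)
    (φ : Additive (gammaH L M H) →+ A) (hφ : IsParabolicHom (gammaH L M H) φ) :
    ∃ ψ : Additive (gammaH L M H) →+ A, IsParabolicHom (gammaH L M H) ψ ∧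
      es1infHomEval L M H hML p A t φ = p ^ n • ψ := by
  haveI : Group.FG (gammaH L M H) := es1g1op_fg L M H
  obtain ⟨r, a, φm, hφm, hsum⟩ :=
    es1inffk_exists_sum_intHoms (es1g1opPar L M H) φ (fun γ hγ => hφ γ hγ)
  have hint : ∀ m, ∃ ψ : Additive (gammaH L M H) →+ ℤ, IsParabolicHom (gammaH L M H) ψ ∧
      es1infHomEval L M H hML p ℤ t (φm m) = p ^ n • ψ :=
    fun m => h.int hp n t ht (φm m) (fun γ hγ => hφm m γ hγ)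
  choose ψm hψm hψeq using hint
  let f : Fin r → (ℤ →+ A) := fun m => zmultiplesHom A (a m)
  have hf : ∀ m (k : ℤ), f m k = k • a m := fun m k => rfl
  have hφeq : φ = ∑ m, (f m).comp (φm m) := by
    refine DFunLike.ext _ _ fun γ => ?_
    rw [hsum γ, AddMonoidHom.finsetSum_apply]
    rfl
  refine ⟨∑ m, (f m).comp (ψm m), ?_, ?_⟩
  · intro γ hγ
    rw [AddMonoidHom.finsetSum_apply]
    refine Finset.sum_eq_zero fun m _ => ?_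
    rw [AddMonoidHom.comp_apply, hψm m γ hγ, map_zero]
  · rw [hφeq, map_sum, Finset.smul_sum]
    refine Finset.sum_congr rfl fun m _ => ?_
    rw [es1infHomEval_comp hML, hψeq m]
    refine DFunLike.ext _ _ fun γ => ?_
    rw [AddMonoidHom.comp_apply, AddMonoidHom.smul_apply, AddMonoidHom.smul_apply,
      AddMonoidHom.comp_apply, map_nsmul]

/-- **(1) + (2) + reduction**: a polynomial killing `J[pⁿ]` kills `f ∘ v` for every parabolic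
`v : Γ → A`, `A` torsion-free, and every `f : A → B` with `pⁿ B = 0` -/
theorem es1inffk_hom (hML : M ∣ L) {J : Type} [AddCommGroup J] [Module (HDAlg M) J]
    (h : ES1FaithInf L M H hML p J) (hp : p ≠ 0) (A : Type) [AddCommGroup A]
    [Module.IsTorsionFree ℤ A] (B : Type) [AddCommGroup B] (f : A →+ B) (n : ℕ)
    (hB : ∀ b : B, p ^ n • b = 0) (t : HDAlg M) (ht : ∀ x : J, p ^ n • x = 0 → t • x = 0)
    (v : Additive (gammaH L M H) →+ A) (hv : IsParabolicHom (gammaH L M H) v) :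
    es1infHomEval L M H hML p B t (f.comp v) = 0 := by
  obtain ⟨ψ, -, hψ⟩ := es1inffk_torsionFree hML h hp A n t ht v hv
  rw [es1infHomEval_comp hML, hψ]
  refine DFunLike.ext _ _ fun γ => ?_
  rw [AddMonoidHom.comp_apply, AddMonoidHom.smul_apply, map_nsmul, hB]
  rfl

/-! ## The `Θ`-part and the `η`-part -/

section theta

variable [hMLf : Fact (M ∣ L)] {𝒪 : Type} [CommRing 𝒪]

/-- if `𝔲` commutes with `η = T_ℓ₀ − ℓ₀ − 1` then the `Θ`-part (`Θ = 𝔲 ∘ η`) is contained in the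
`η`-part -/
theorem es1inffk_theta_le_eta (𝔲 : NatFam 𝒪 L M) (ℓ₀ : ℕ) [NeZero ℓ₀] (A : Type)
    [AddCommGroup A] [Module 𝒪 A] (K : Subgroup (ZMod M)ˣ)
    (hcomm : ∀ φ : HomS (gammaH L M K) A,
      (𝔲.fam A).op K (etaS L M ℓ₀ K A φ) = etaS L M ℓ₀ K A ((𝔲.fam A).op K φ)) :
    etaPart (thetaN 𝔲 ℓ₀ A K) ≤ etaPart (etaS L M ℓ₀ K A) := by
  have hΘ : ∀ φ : HomS (gammaH L M K) A,
      thetaN 𝔲 ℓ₀ A K φ = etaS L M ℓ₀ K A ((𝔲.fam A).op K φ) := fun φ => hcomm φ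
  have hpow : ∀ (n : ℕ) (φ : HomS (gammaH L M K) A),
      k5s_pow (thetaN 𝔲 ℓ₀ A K) n φ
        = k5s_pow (etaS L M ℓ₀ K A) n (k5s_pow ((𝔲.fam A).op K) n φ) := by
    intro n
    induction n with
    | zero => intro φ; rfl
    | succ n ih =>
        intro φ
        rw [k5s_pow_succ, ih, hΘ,
          ← k5s_intertwine_pow ((𝔲.fam A).op K) ((𝔲.fam A).op K) (etaS L M ℓ₀ K A)
            (fun x => (hcomm x).symm) n, ← k5s_pow_succ, ← k5s_pow_succ]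
  intro φ hφ
  rw [k5s_mem_etaPart] at hφ ⊢
  intro n
  obtain ⟨ψ, hψ⟩ := hφ n
  exact ⟨_, (hpow n ψ).symm.trans hψ⟩

/-- the `Θ`-part over `A` is parabolic, from `StmtParO` and the commutation of `𝔲` with `η` -/
theorem es1inffk_par_of_parO (hParO : StmtParO) [Fact p.Prime] (𝔲 : NatFam 𝒪 L M) (ℓ₀ : ℕ)
    [NeZero ℓ₀] (A : Type) [AddCommGroup A] [Module 𝒪 A] (k : ℕ) (hL : Squarefree L)
    (hℓ₀ : ℓ₀.Prime) (hℓ₀L : ¬ ℓ₀ ∣ L) (hp2 : p ≠ 2) (hℓ₀p : ℓ₀ ≠ p)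
    (hsep : ∀ a : A, (∀ n : ℕ, ∃ b : A, a = p ^ n • b) → a = 0)
    (hH : ∀ u : (ZMod M)ˣ, u ^ (p ^ k) ∈ pmH H)
    (hcomm : ∀ φ : HomS (gammaH L M H) A,
      (𝔲.fam A).op H (etaS L M ℓ₀ H A φ) = etaS L M ℓ₀ H A ((𝔲.fam A).op H φ)) :
    ∀ φ ∈ etaPart (thetaN 𝔲 ℓ₀ A H), IsParabolicHom (gammaH L M H) φ :=
  fun φ hφ => hParO p L M ℓ₀ H A k hL hℓ₀ hℓ₀L hp2 hℓ₀p hsep hH φ
    (es1inffk_theta_le_eta 𝔲 ℓ₀ A H hcomm hφ)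

end theta

/-! ## The K5 modules -/

section level

variable [hMLf : Fact (M ∣ L)] [hpf : Fact p.Prime] {𝒪 : Type} [CommRing 𝒪] [IsDomain 𝒪]
  [CharZero 𝒪] [IsLocalRing 𝒪]

/-- `pⁿ` kills `𝒪 ⧸ 𝔪ⁿ` -/
theorem es1inffk_pow_smul_quot (hp𝔪 : (p : 𝒪) ∈ IsLocalRing.maximalIdeal 𝒪) (n : ℕ)
    (b : 𝒪 ⧸ IsLocalRing.maximalIdeal 𝒪 ^ n) : p ^ n • b = 0 := by
  obtain ⟨a, rfl⟩ := Ideal.Quotient.mk_surjective b
  rw [← map_nsmul, Ideal.Quotient.eq_zero_iff_mem, nsmul_eq_mul]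
  refine Ideal.mul_mem_right _ _ ?_
  rw [Nat.cast_pow]
  exact Ideal.pow_mem_pow hp𝔪 n

/-- **HK-FAITH** (hypothesis form): a polynomial killing `J[pⁿ]` kills the `Θ`-part `X_n` of
`Hom(Γ, 𝒪 ⧸ 𝔪ⁿ)`, if the `Θ`-part over `𝒪` is parabolic and reduces onto `X_n`. -/
theorem es1inffk_level (χ : GalQ →* (ZMod M)ˣ)
    (hp𝔪 : (p : 𝒪) ∈ IsLocalRing.maximalIdeal 𝒪) (𝔲 : NatFam 𝒪 L M) (ℓ₀ : ℕ) [NeZero ℓ₀]
    (hPar : ∀ v ∈ etaPart (thetaN 𝔲 ℓ₀ 𝒪 H), IsParabolicHom (gammaH L M H) v) (n : ℕ)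
    (hRed : ∀ w ∈ etaPart (thetaN 𝔲 ℓ₀ (𝒪 ⧸ IsLocalRing.maximalIdeal 𝒪 ^ n) H),
      ∃ v ∈ etaPart (thetaN 𝔲 ℓ₀ 𝒪 H),
        mapS (Submodule.mkQ (IsLocalRing.maximalIdeal 𝒪 ^ n)).toAddMonoidHom v = w)
    (t : HDAlg M) (ht : ∀ x : es1inftwJ L M H p χ, p ^ n • x = 0 → t • x = 0) :
    ∀ ψ ∈ etaPart (thetaN 𝔲 ℓ₀ (𝒪 ⧸ IsLocalRing.maximalIdeal 𝒪 ^ n) H),
      es1infHomEval L M H hMLf.out p (𝒪 ⧸ IsLocalRing.maximalIdeal 𝒪 ^ n) t ψ = 0 := by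
  intro ψ hψ
  obtain ⟨v, hv, rfl⟩ := hRed ψ hψ
  exact es1inffk_hom hMLf.out (es1inftw_faith (H := H) χ) hpf.out.ne_zero 𝒪 _ _ n
    (es1inffk_pow_smul_quot hp𝔪 n) t ht v (hPar v hv)

end level

section dvr

variable [hMLf : Fact (M ∣ L)] [hpf : Fact p.Prime] {𝒪 : Type} [CommRing 𝒪] [IsDomain 𝒪]
  [CharZero 𝒪] [IsDiscreteValuationRing 𝒪] [IsAdicComplete (IsLocalRing.maximalIdeal 𝒪) 𝒪]
  [Finite (IsLocalRing.ResidueField 𝒪)]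

/-- **HK-FAITH** with the reduction clause discharged by K5 (`k5fo_red_onto`): `𝒪` a complete
discrete valuation ring with finite residue field. -/
theorem es1inffk_level_of_noTors
    (χ : GalQ →* (ZMod M)ˣ) (hp𝔪 : (p : 𝒪) ∈ IsLocalRing.maximalIdeal 𝒪) (𝔲 : NatFam 𝒪 L M)
    (ℓ₀ : ℕ) [NeZero ℓ₀]
    (hPar : ∀ v ∈ etaPart (thetaN 𝔲 ℓ₀ 𝒪 H), IsParabolicHom (gammaH L M H) v) (n : ℕ)
    (hNT : NoTors (gammaH L M H) (𝒪 ⧸ IsLocalRing.maximalIdeal 𝒪 ^ n))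
    (t : HDAlg M) (ht : ∀ x : es1inftwJ L M H p χ, p ^ n • x = 0 → t • x = 0) :
    ∀ ψ ∈ etaPart (thetaN 𝔲 ℓ₀ (𝒪 ⧸ IsLocalRing.maximalIdeal 𝒪 ^ n) H),
      es1infHomEval L M H hMLf.out p (𝒪 ⧸ IsLocalRing.maximalIdeal 𝒪 ^ n) t ψ = 0 :=
  es1inffk_level χ hp𝔪 𝔲 ℓ₀ hPar n (fun _ hw => k5fo_red_onto 𝔲 ℓ₀ n H hNT hw) t ht

/-- **HK-FAITH, adic variant** (`p`-form): a polynomial `t` killing `J[pᵏ]` maps `v ∈ X_𝒪` into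
`pᵏ X_𝒪`, provided `t v ∈ X_𝒪` (see `es1inffk_eval_mem` for the stability) and `X_𝒪` is parabolic. -/
theorem es1inffk_adic (χ : GalQ →* (ZMod M)ˣ) (𝔲 : NatFam 𝒪 L M) (ℓ₀ : ℕ) [NeZero ℓ₀]
    (hPar : ∀ v ∈ etaPart (thetaN 𝔲 ℓ₀ 𝒪 H), IsParabolicHom (gammaH L M H) v) (k : ℕ)
    (t : HDAlg M) (ht : ∀ x : es1inftwJ L M H p χ, p ^ k • x = 0 → t • x = 0)
    (v : HomS (gammaH L M H) 𝒪) (hv : v ∈ etaPart (thetaN 𝔲 ℓ₀ 𝒪 H))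
    (hstab : es1infHomEval L M H hMLf.out p 𝒪 t v ∈ etaPart (thetaN 𝔲 ℓ₀ 𝒪 H)) :
    ∃ v' ∈ etaPart (thetaN 𝔲 ℓ₀ 𝒪 H), es1infHomEval L M H hMLf.out p 𝒪 t v = p ^ k • v' := by
  haveI := k5fo_finite (gammaH L M H) 𝒪
  haveI := k5fo_free (gammaH L M H) 𝒪
  obtain ⟨⟨e, -, h1, h2, -⟩, -, -, -⟩ :=
    stmtFitO 𝒪 (HomS (gammaH L M H) 𝒪) (k5foTheta 𝔲 ℓ₀ 𝒪 H)
  rw [k5fo_theta_toAdd] at h1 h2
  obtain ⟨ψ, -, hψ⟩ := es1inffk_torsionFree hMLf.out (es1inftw_faith (H := H) χ)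
    hpf.out.ne_zero 𝒪 k t ht v (hPar v hv)
  refine ⟨e ψ, h1 ψ, ?_⟩
  rw [← map_nsmul, ← hψ, h2 _ hstab]

/-- **HK-FAITH, adic variant** (`𝔪`-form): `t X_𝒪 ⊆ 𝔪ᵏ X_𝒪`. -/
theorem es1inffk_adic_max (χ : GalQ →* (ZMod M)ˣ)
    (hp𝔪 : (p : 𝒪) ∈ IsLocalRing.maximalIdeal 𝒪) (𝔲 : NatFam 𝒪 L M) (ℓ₀ : ℕ) [NeZero ℓ₀]
    (hPar : ∀ v ∈ etaPart (thetaN 𝔲 ℓ₀ 𝒪 H), IsParabolicHom (gammaH L M H) v) (k : ℕ)
    (t : HDAlg M) (ht : ∀ x : es1inftwJ L M H p χ, p ^ k • x = 0 → t • x = 0)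
    (v : HomS (gammaH L M H) 𝒪) (hv : v ∈ etaPart (thetaN 𝔲 ℓ₀ 𝒪 H))
    (hstab : es1infHomEval L M H hMLf.out p 𝒪 t v ∈ etaPart (thetaN 𝔲 ℓ₀ 𝒪 H)) :
    ∃ c ∈ IsLocalRing.maximalIdeal 𝒪 ^ k, ∃ v' ∈ etaPart (thetaN 𝔲 ℓ₀ 𝒪 H),
      es1infHomEval L M H hMLf.out p 𝒪 t v = c • v' := by
  obtain ⟨v', hv', h⟩ := es1inffk_adic χ 𝔲 ℓ₀ hPar k t ht v hv hstab
  refine ⟨((p ^ k : ℕ) : 𝒪), ?_, v', hv', ?_⟩
  · rw [Nat.cast_pow]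
    exact Ideal.pow_mem_pow hp𝔪 k
  · rw [h, Nat.cast_smul_eq_nsmul]

end dvr

/-! ## Stability of the `Θ`-part under the Hecke–diamond polynomials -/

section stab

variable [hMLf : Fact (M ∣ L)] {𝒪 : Type} [CommRing 𝒪]

/-- `K5.tS ℓ` commutes with `Θ = 𝔲 ∘ (T_ℓ₀ − ℓ₀ − 1)` when it commutes with `𝔲` -/
theorem es1inffk_tS_theta (𝔲 : NatFam 𝒪 L M) (ℓ₀ : ℕ) [NeZero ℓ₀] (hℓ₀ : ℓ₀.Prime)
    (hℓ₀L : ¬ ℓ₀ ∣ L) (A : Type) [AddCommGroup A] [Module 𝒪 A] (K : Subgroup (ZMod M)ˣ)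
    (ℓ : ℕ) [NeZero ℓ] (hℓ : ℓ.Prime) (hℓL : ¬ ℓ ∣ L)
    (h𝔲 : ∀ φ : HomS (gammaH L M K) A,
      (𝔲.fam A).op K (tS L M ℓ K A φ) = tS L M ℓ K A ((𝔲.fam A).op K φ))
    (φ : HomS (gammaH L M K) A) :
    tS L M ℓ K A (thetaN 𝔲 ℓ₀ A K φ) = thetaN 𝔲 ℓ₀ A K (tS L M ℓ K A φ) := by
  show tS L M ℓ K A ((𝔲.fam A).op K (tS L M ℓ₀ K A φ - (ℓ₀ + 1) • φ))
    = (𝔲.fam A).op K (tS L M ℓ₀ K A (tS L M ℓ K A φ) - (ℓ₀ + 1) • tS L M ℓ K A φ)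
  rw [← h𝔲, map_sub, map_nsmul, stmtCommT L M ℓ ℓ₀ K A hℓ hℓ₀ hℓL hℓ₀L]

/-- `diamGrp σ` commutes with `Θ` -/
theorem es1inffk_diamGrp_theta (𝔲 : NatFam 𝒪 L M) (ℓ₀ : ℕ) [NeZero ℓ₀]
    (A : Type) [AddCommGroup A] [Module 𝒪 A] (K : Subgroup (ZMod M)ˣ) (σ : SL(2, ℤ))
    (hσL : σ ∈ Gamma0 L) (hσM : σ ∈ Gamma0 M) (φ : HomS (gammaH L M K) A) :
    diamGrp L M K σ hσL hσM (thetaN 𝔲 ℓ₀ A K φ)
      = thetaN 𝔲 ℓ₀ A K (diamGrp L M K σ hσL hσM φ) := by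
  rw [es1inf_diamGrp_eq_diamS, es1inf_diamGrp_eq_diamS]
  exact k5n_theta_diam 𝔲 ℓ₀ K σ⁻¹ (inv_mem hσL) (inv_mem hσM) φ

/-- `heckeGrp ℓ` commutes with `Θ` when `K5.tS ℓ` commutes with `𝔲` -/
theorem es1inffk_heckeGrp_theta (𝔲 : NatFam 𝒪 L M) (ℓ₀ : ℕ) [NeZero ℓ₀] (hℓ₀ : ℓ₀.Prime)
    (hℓ₀L : ¬ ℓ₀ ∣ L) (A : Type) [AddCommGroup A] [Module 𝒪 A] (K : Subgroup (ZMod M)ˣ)
    (ℓ : ℕ) [NeZero ℓ] (hℓ : ℓ.Prime) (hℓL : ¬ ℓ ∣ L)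
    (h𝔲 : ∀ φ : HomS (gammaH L M K) A,
      (𝔲.fam A).op K (tS L M ℓ K A φ) = tS L M ℓ K A ((𝔲.fam A).op K φ))
    (φ : HomS (gammaH L M K) A) :
    heckeGrp L M K ℓ hMLf.out (thetaN 𝔲 ℓ₀ A K φ)
      = thetaN 𝔲 ℓ₀ A K (heckeGrp L M K ℓ hMLf.out φ) := by
  have hc : Nat.Coprime ℓ L := (Nat.Prime.coprime_iff_not_dvd hℓ).mpr hℓL
  obtain ⟨b, d, h⟩ := es1inf_exists_bd hc
  rw [← es1inf_diamGrp_tS_sigma K h, ← es1inf_diamGrp_tS_sigma K h,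
    es1inffk_tS_theta 𝔲 ℓ₀ hℓ₀ hℓ₀L A K ℓ hℓ hℓL h𝔲, es1inffk_diamGrp_theta]

/-- the Hecke–diamond polynomials commute with `Θ`, when the `K5.tS ℓ` (`ℓ ∤ L p` prime) commute
with `𝔲` -/
theorem es1inffk_eval_theta (𝔲 : NatFam 𝒪 L M) (ℓ₀ : ℕ) [NeZero ℓ₀] (hℓ₀ : ℓ₀.Prime)
    (hℓ₀L : ¬ ℓ₀ ∣ L) (A : Type) [AddCommGroup A] [Module 𝒪 A] (K : Subgroup (ZMod M)ˣ)
    (h𝔲 : ∀ (ℓ : ℕ) [NeZero ℓ], ℓ.Prime → ¬ ℓ ∣ L * p → ∀ φ : HomS (gammaH L M K) A,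
      (𝔲.fam A).op K (tS L M ℓ K A φ) = tS L M ℓ K A ((𝔲.fam A).op K φ))
    (t : HDAlg M) (φ : HomS (gammaH L M K) A) :
    es1infHomEval L M K hMLf.out p A t (thetaN 𝔲 ℓ₀ A K φ)
      = thetaN 𝔲 ℓ₀ A K (es1infHomEval L M K hMLf.out p A t φ) := by
  induction t using MvPolynomial.induction_on generalizing φ with
  | C a => rw [es1infHomEval_C, es1infHomEval_C, map_zsmul]
  | add s t hs ht => rw [map_add, LinearMap.add_apply, LinearMap.add_apply, hs, ht, map_add]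
  | mul_X s i hs =>
      rw [map_mul, Module.End.mul_apply, Module.End.mul_apply, es1infHomEval_X, ← hs]
      congr 1
      by_cases hi : i ∈ es1inf_goodVars L M p
      · rcases i with ℓ | c
        · haveI : NeZero (ℓ : ℕ) := ⟨ℓ.2.ne_zero⟩
          have hℓ : ¬ (ℓ : ℕ) ∣ L * p := es1inf_inl_mem_goodVars.mp hi
          rw [es1infHomOp_inl hMLf.out hℓ, es1infHomOp_inl hMLf.out hℓ]
          exact es1inffk_heckeGrp_theta 𝔲 ℓ₀ hℓ₀ hℓ₀L A K ℓ ℓ.2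
            (fun h => hℓ (h.mul_right p)) (h𝔲 ℓ ℓ.2 hℓ) φ
        · obtain ⟨σ, hσL, hσM, hσ⟩ := es1g1op_exists_sigma hMLf.out c
          rw [es1infHomOp_inr hMLf.out c _ σ hσL hσM hσ,
            es1infHomOp_inr hMLf.out c _ σ hσL hσM hσ]
          exact es1inffk_diamGrp_theta 𝔲 ℓ₀ A K σ hσL hσM φ
      · rw [es1infHomOp_bad (A := A) hMLf.out hi, LinearMap.zero_apply, LinearMap.zero_apply,
          map_zero]

/-- **stability**: the `Θ`-part is stable under the Hecke–diamond polynomials -/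
theorem es1inffk_eval_mem (𝔲 : NatFam 𝒪 L M) (ℓ₀ : ℕ) [NeZero ℓ₀] (hℓ₀ : ℓ₀.Prime)
    (hℓ₀L : ¬ ℓ₀ ∣ L) (A : Type) [AddCommGroup A] [Module 𝒪 A] (K : Subgroup (ZMod M)ˣ)
    (h𝔲 : ∀ (ℓ : ℕ) [NeZero ℓ], ℓ.Prime → ¬ ℓ ∣ L * p → ∀ φ : HomS (gammaH L M K) A,
      (𝔲.fam A).op K (tS L M ℓ K A φ) = tS L M ℓ K A ((𝔲.fam A).op K φ))
    (t : HDAlg M) {v : HomS (gammaH L M K) A} (hv : v ∈ etaPart (thetaN 𝔲 ℓ₀ A K)) :
    es1infHomEval L M K hMLf.out p A t v ∈ etaPart (thetaN 𝔲 ℓ₀ A K) :=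
  k5s_intertwine_mem (thetaN 𝔲 ℓ₀ A K) (thetaN 𝔲 ℓ₀ A K)
    ((es1infHomEval L M K hMLf.out p A t).toAddMonoidHom)
    (fun x => es1inffk_eval_theta 𝔲 ℓ₀ hℓ₀ hℓ₀L A K h𝔲 t x) hv

end stab

end Fermat.Agent.ES1
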