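import Fermat.Agent.ES1.Inf.FaithK5
import Fermat.Agent.RT.K5.ParH
import Fermat.Agent.RT.K5.HExpr

/-!
# HK-FAITH for Hecke polynomial expressions (helper38)

`E : RT.K5.HExpr 𝒪` with `E.IsPrimes`, `𝔲 = E.eval L M`, `X_A = etaPart (thetaN 𝔲 ℓ₀ A H)`.
With helper7's `stmtParO` (the `η`-part is parabolic) and helper88's `k5hx_comm_tS`,
`k5hx_comm_etaS` all the hypotheses of `ES1/Inf/FaithK5.lean` are discharged: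

* `es1inffk_sep` : `𝒪` is `p`-adically separated;
* `es1inffk_expr_par` : `X_𝒪` is parabolic;
* `es1inffk_expr_mem` : `X_A` is stable under the Hecke–diamond polynomials;
* **`es1inffk_expr_level`** : `t` kills `J[pⁿ]` ⇒ `t` kills `X_{𝒪 ⧸ 𝔪ⁿ}`;
* **`es1inffk_expr_faith`** : the `faith` field of HK-CONC: `∃ n₀, ∀ t, t kills J[p^n₀] ⇒ t = 0` on
  `X_{𝒪 ⧸ 𝔪ⁿ}`;
* **`es1inffk_expr_adic`**, `es1inffk_expr_adic_max` : `t` kills `J[pᵏ]` ⇒ `t X_𝒪 ⊆ pᵏ X_𝒪 ⊆ 𝔪ᵏ X_𝒪`.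
-/

set_option autoImplicit false
set_option linter.unusedSectionVars false
set_option linter.style.haveILetI false

noncomputable section

namespace Fermat.Agent.ES1

open ModularCurve AlgebraicCurve CongruenceSubgroup ModularCurve.Period
open Fermat.Agent.ES Fermat.Agent.S48 Fermat.Agent.RT.K5
open scoped MatrixGroups

/-- a Noetherian local ring with `p ∈ 𝔪` is `p`-adically separated -/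
theorem es1inffk_sep {𝒪 : Type} [CommRing 𝒪] [IsLocalRing 𝒪] [IsNoetherianRing 𝒪] {p : ℕ}
    (hp𝔪 : (p : 𝒪) ∈ IsLocalRing.maximalIdeal 𝒪) (a : 𝒪)
    (h : ∀ n : ℕ, ∃ b : 𝒪, a = p ^ n • b) : a = 0 := by
  have hmem : a ∈ ⨅ n : ℕ, IsLocalRing.maximalIdeal 𝒪 ^ n := by
    rw [Ideal.mem_iInf]
    intro n
    obtain ⟨b, rfl⟩ := h n
    rw [nsmul_eq_mul, Nat.cast_pow]
    exact Ideal.mul_mem_right _ _ (Ideal.pow_mem_pow hp𝔪 n)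
  rw [Ideal.iInf_pow_eq_bot_of_isLocalRing _ (IsLocalRing.maximalIdeal.isMaximal 𝒪).ne_top] at hmem
  exact hmem

variable {L M : ℕ} [NeZero L] [NeZero M] {H : Subgroup (ZMod M)ˣ} {p : ℕ}

section expr

variable [hMLf : Fact (M ∣ L)] [hpf : Fact p.Prime] {𝒪 : Type} [CommRing 𝒪] [IsDomain 𝒪]
  [CharZero 𝒪] [IsDiscreteValuationRing 𝒪] [IsAdicComplete (IsLocalRing.maximalIdeal 𝒪) 𝒪]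
  [Finite (IsLocalRing.ResidueField 𝒪)]

omit [CharZero 𝒪] [IsAdicComplete (IsLocalRing.maximalIdeal 𝒪) 𝒪]
  [Finite (IsLocalRing.ResidueField 𝒪)] in
/-- the `Θ`-part over `𝒪` of a Hecke expression is parabolic (`stmtParO`) -/
theorem es1inffk_expr_par (hp𝔪 : (p : 𝒪) ∈ IsLocalRing.maximalIdeal 𝒪) (E : HExpr 𝒪)
    (hE : E.IsPrimes) (ℓ₀ : ℕ) [NeZero ℓ₀] (hℓ₀ : ℓ₀.Prime) (hℓ₀L : ¬ ℓ₀ ∣ L)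
    (hL : Squarefree L) (hp2 : p ≠ 2) (hℓ₀p : ℓ₀ ≠ p) (k : ℕ)
    (hH : ∀ u : (ZMod M)ˣ, u ^ (p ^ k) ∈ pmH H) :
    ∀ v ∈ etaPart (thetaN (E.eval L M) ℓ₀ 𝒪 H), IsParabolicHom (gammaH L M H) v :=
  es1inffk_par_of_parO stmtParO (E.eval L M) ℓ₀ 𝒪 k hL hℓ₀ hℓ₀L hp2 hℓ₀p
    (es1inffk_sep hp𝔪) hH (fun φ => (k5hx_comm_etaS L M 𝒪 H E hE ℓ₀ hℓ₀ φ).symm)

omit hpf [IsDomain 𝒪] [CharZero 𝒪] [IsDiscreteValuationRing 𝒪]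
  [IsAdicComplete (IsLocalRing.maximalIdeal 𝒪) 𝒪] [Finite (IsLocalRing.ResidueField 𝒪)] in
/-- the `Θ`-part of a Hecke expression is stable under the Hecke–diamond polynomials -/
theorem es1inffk_expr_mem (E : HExpr 𝒪) (hE : E.IsPrimes) (ℓ₀ : ℕ) [NeZero ℓ₀]
    (hℓ₀ : ℓ₀.Prime) (hℓ₀L : ¬ ℓ₀ ∣ L) (A : Type) [AddCommGroup A] [Module 𝒪 A]
    (K : Subgroup (ZMod M)ˣ) (t : HDAlg M) {v : HomS (gammaH L M K) A}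
    (hv : v ∈ etaPart (thetaN (E.eval L M) ℓ₀ A K)) :
    es1infHomEval L M K hMLf.out p A t v ∈ etaPart (thetaN (E.eval L M) ℓ₀ A K) :=
  es1inffk_eval_mem (E.eval L M) ℓ₀ hℓ₀ hℓ₀L A K
    (fun ℓ _ hℓ _ φ => (k5hx_comm_tS L M A K E hE ℓ hℓ φ).symm) t hv

/-- **HK-FAITH for a Hecke expression**: a polynomial killing `J[pⁿ]` kills the `Θ`-part of
`Hom(Γ_H(L), 𝒪 ⧸ 𝔪ⁿ)`. -/
theorem es1inffk_expr_level (χ : GalQ →* (ZMod M)ˣ)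
    (hp𝔪 : (p : 𝒪) ∈ IsLocalRing.maximalIdeal 𝒪) (E : HExpr 𝒪) (hE : E.IsPrimes) (ℓ₀ : ℕ)
    [NeZero ℓ₀] (hℓ₀ : ℓ₀.Prime) (hℓ₀L : ¬ ℓ₀ ∣ L) (hL : Squarefree L) (hp2 : p ≠ 2)
    (hℓ₀p : ℓ₀ ≠ p) (k : ℕ) (hH : ∀ u : (ZMod M)ˣ, u ^ (p ^ k) ∈ pmH H) (n : ℕ)
    (hNT : NoTors (gammaH L M H) (𝒪 ⧸ IsLocalRing.maximalIdeal 𝒪 ^ n))
    (t : HDAlg M) (ht : ∀ x : es1inftwJ L M H p χ, p ^ n • x = 0 → t • x = 0) :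
    ∀ ψ ∈ etaPart (thetaN (E.eval L M) ℓ₀ (𝒪 ⧸ IsLocalRing.maximalIdeal 𝒪 ^ n) H),
      es1infHomEval L M H hMLf.out p (𝒪 ⧸ IsLocalRing.maximalIdeal 𝒪 ^ n) t ψ = 0 :=
  es1inffk_level_of_noTors χ hp𝔪 (E.eval L M) ℓ₀
    (es1inffk_expr_par hp𝔪 E hE ℓ₀ hℓ₀ hℓ₀L hL hp2 hℓ₀p k hH) n hNT t ht

/-- **the `faith` field of HK-CONC** (act-level): there is `n₀` (`= n`) such that every polynomial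
killing `J[p^n₀]` is zero on the `Θ`-part of `Hom(Γ_H(L), 𝒪 ⧸ 𝔪ⁿ)`. -/
theorem es1inffk_expr_faith (χ : GalQ →* (ZMod M)ˣ)
    (hp𝔪 : (p : 𝒪) ∈ IsLocalRing.maximalIdeal 𝒪) (E : HExpr 𝒪) (hE : E.IsPrimes) (ℓ₀ : ℕ)
    [NeZero ℓ₀] (hℓ₀ : ℓ₀.Prime) (hℓ₀L : ¬ ℓ₀ ∣ L) (hL : Squarefree L) (hp2 : p ≠ 2)
    (hℓ₀p : ℓ₀ ≠ p) (k : ℕ) (hH : ∀ u : (ZMod M)ˣ, u ^ (p ^ k) ∈ pmH H) (n : ℕ)
    (hNT : NoTors (gammaH L M H) (𝒪 ⧸ IsLocalRing.maximalIdeal 𝒪 ^ n)) :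
    ∃ n₀ : ℕ, ∀ t : HDAlg M, (∀ x : es1inftwJ L M H p χ, p ^ n₀ • x = 0 → t • x = 0) →
      ∀ ψ ∈ etaPart (thetaN (E.eval L M) ℓ₀ (𝒪 ⧸ IsLocalRing.maximalIdeal 𝒪 ^ n) H),
        es1infHomEval L M H hMLf.out p (𝒪 ⧸ IsLocalRing.maximalIdeal 𝒪 ^ n) t ψ = 0 :=
  ⟨n, fun t ht => es1inffk_expr_level χ hp𝔪 E hE ℓ₀ hℓ₀ hℓ₀L hL hp2 hℓ₀p k hH n hNT t ht⟩

/-- **HK-FAITH, adic variant, for a Hecke expression** (`p`-form): `t` kills `J[pᵏ]` ⇒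
`t X_𝒪 ⊆ pᵏ X_𝒪`. -/
theorem es1inffk_expr_adic (χ : GalQ →* (ZMod M)ˣ)
    (hp𝔪 : (p : 𝒪) ∈ IsLocalRing.maximalIdeal 𝒪) (E : HExpr 𝒪) (hE : E.IsPrimes) (ℓ₀ : ℕ)
    [NeZero ℓ₀] (hℓ₀ : ℓ₀.Prime) (hℓ₀L : ¬ ℓ₀ ∣ L) (hL : Squarefree L) (hp2 : p ≠ 2)
    (hℓ₀p : ℓ₀ ≠ p) (k : ℕ) (hH : ∀ u : (ZMod M)ˣ, u ^ (p ^ k) ∈ pmH H) (k' : ℕ)
    (t : HDAlg M) (ht : ∀ x : es1inftwJ L M H p χ, p ^ k' • x = 0 → t • x = 0)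
    (v : HomS (gammaH L M H) 𝒪) (hv : v ∈ etaPart (thetaN (E.eval L M) ℓ₀ 𝒪 H)) :
    ∃ v' ∈ etaPart (thetaN (E.eval L M) ℓ₀ 𝒪 H),
      es1infHomEval L M H hMLf.out p 𝒪 t v = p ^ k' • v' :=
  es1inffk_adic χ (E.eval L M) ℓ₀
    (es1inffk_expr_par hp𝔪 E hE ℓ₀ hℓ₀ hℓ₀L hL hp2 hℓ₀p k hH) k' t ht v hv
    (es1inffk_expr_mem E hE ℓ₀ hℓ₀ hℓ₀L 𝒪 H t hv)

/-- **HK-FAITH, adic variant, for a Hecke expression** (`𝔪`-form): `t X_𝒪 ⊆ 𝔪ᵏ X_𝒪`. -/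
theorem es1inffk_expr_adic_max (χ : GalQ →* (ZMod M)ˣ)
    (hp𝔪 : (p : 𝒪) ∈ IsLocalRing.maximalIdeal 𝒪) (E : HExpr 𝒪) (hE : E.IsPrimes) (ℓ₀ : ℕ)
    [NeZero ℓ₀] (hℓ₀ : ℓ₀.Prime) (hℓ₀L : ¬ ℓ₀ ∣ L) (hL : Squarefree L) (hp2 : p ≠ 2)
    (hℓ₀p : ℓ₀ ≠ p) (k : ℕ) (hH : ∀ u : (ZMod M)ˣ, u ^ (p ^ k) ∈ pmH H) (k' : ℕ)
    (t : HDAlg M) (ht : ∀ x : es1inftwJ L M H p χ, p ^ k' • x = 0 → t • x = 0)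
    (v : HomS (gammaH L M H) 𝒪) (hv : v ∈ etaPart (thetaN (E.eval L M) ℓ₀ 𝒪 H)) :
    ∃ c ∈ IsLocalRing.maximalIdeal 𝒪 ^ k', ∃ v' ∈ etaPart (thetaN (E.eval L M) ℓ₀ 𝒪 H),
      es1infHomEval L M H hMLf.out p 𝒪 t v = c • v' :=
  es1inffk_adic_max χ hp𝔪 (E.eval L M) ℓ₀
    (es1inffk_expr_par hp𝔪 E hE ℓ₀ hℓ₀ hℓ₀L hL hp2 hℓ₀p k hH) k' t ht v hv
    (es1inffk_expr_mem E hE ℓ₀ hℓ₀ hℓ₀L 𝒪 H t hv)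

end expr

end Fermat.Agent.ES1
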