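import Fermat.Agent.ES1.Inf.PkgMu
import Fermat.Agent.ES1.G2.SwapH

/-!
# ES₁-inf — the `p`-adic Eichler–Shimura data on `J = es1infJ L M H p` (helper38)

* `es1inf_finite` : `J[pⁿ]` is finite;
* **`es1inf_dataInf`** : `ES1DataInf L M p (es1infJ L M H p)` for every level `L`, every `M ∣ L`,
  every `H ≤ (ℤ/M)ˣ` and every `p > 0`, for the module structure `es1infModule` and the Galois
  action `es1infGalois`.  UNCONDITIONAL.
-/

set_option autoImplicit false
set_option linter.unusedSectionVars false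
set_option linter.style.haveILetI false

noncomputable section

namespace Fermat.Agent.ES1

open ModularCurve AlgebraicCurve CongruenceSubgroup ModularCurve.Period
open Fermat.Agent.ES Fermat.Agent.S48
open scoped MatrixGroups

/-- the homomorphisms of a finitely generated group to `A` killed by `k` are finitely many, if
`A[k]` is finite -/
theorem es1inf_finite_hom {Γ : Type*} [Group Γ] (hfg : Group.FG Γ) {A : Type*} [AddCommGroup A]
    (k : ℕ) (hA : {a : A | k • a = 0}.Finite) :
    {χ : Additive Γ →+ A | ∀ γ, k • χ γ = 0}.Finite := by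
  obtain ⟨S, hS⟩ := Group.fg_def.mp hfg
  let ev : (Additive Γ →+ A) → (S → A) := fun χ s => χ (Additive.ofMul (s : Γ))
  have hinj : Function.Injective ev := by
    intro χ χ' h
    have h1 : AddMonoidHom.toMultiplicative χ = AddMonoidHom.toMultiplicative χ' := by
      refine MonoidHom.eq_of_eqOn_dense hS ?_
      intro s hs
      exact congrFun h ⟨s, hs⟩
    exact AddMonoidHom.toMultiplicative.injective h1
  have hfin : {f : S → A | ∀ s : S, f s ∈ {a : A | k • a = 0}}.Finite :=
    Set.Finite.pi' (fun _ => hA)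
  refine Set.Finite.of_finite_image (f := ev) (hfin.subset ?_) hinj.injOn
  rintro _ ⟨χ, hχ, rfl⟩ s
  exact hχ _

variable {L M : ℕ} [NeZero L] [NeZero M] {H : Subgroup (ZMod M)ˣ} {p : ℕ}

/-- `J[pⁿ]` is finite -/
theorem es1inf_finite (hML : M ∣ L) (hp : 0 < p) (n : ℕ) :
    {x : es1infJ L M H p | p ^ n • x = 0}.Finite := by
  have hfin := es1inf_finite_hom (es1g1op_fg L M H) (A := Additive ℂˣ) (p ^ n)
    (finite_torsion_additive_units (p ^ n) (pow_ne_zero n hp.ne'))
  refine Set.Finite.of_finite_image (f := es1infMu hML hp) (hfin.subset ?_)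
    (es1infMu_injective hML hp).injOn
  rintro _ ⟨x, hx, rfl⟩ γ
  have h1 : es1infMu hML hp (p ^ n • x) = 0 := by
    rw [show p ^ n • x = 0 from hx, map_zero]
  rw [map_nsmul] at h1
  have h2 := DFunLike.congr_fun h1 γ
  rwa [AddMonoidHom.nsmul_apply] at h2

theorem es1inf_not_dvd_pow {L p ℓ : ℕ} (hℓ : ℓ.Prime) (h : ¬ ℓ ∣ L * p) (a : ℕ) :
    ¬ ℓ ∣ L * p ^ a := by
  intro h'
  rcases (Nat.Prime.dvd_mul hℓ).mp h' with h1 | h1
  · exact h (h1.mul_right p)
  · exact h ((hℓ.dvd_of_dvd_pow h1).mul_left L)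

/-- **The `p`-adic Eichler–Shimura data on `es1infJ L M H p`**, for every level `L`, `M ∣ L`,
`H ≤ (ℤ/M)ˣ`, `p > 0`. -/
theorem es1inf_dataInf (hML : M ∣ L) (hp : 0 < p) :
    letI := es1infModule L M H p hML hp
    letI := es1infGalois L M H p
    ES1DataInf L M p (es1infJ L M H p) := by
  letI := es1infModule L M H p hML hp
  letI := es1infGalois L M H p
  refine
    { finite := es1inf_finite hML hp
      divisible := fun x _ => ?_
      smul_comm := es1inf_smul_comm hML hp
      finite_level := ?_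
      diamond_one := ?_
      diamond_mul := ?_
      bad_zero := fun ℓ hℓ x => es1infModule_tGen_smul_bad hML hp hℓ x
      frob := ?_
      unram := ?_ }
  · obtain ⟨y, hy⟩ := es1inf_divisible x
    exact ⟨y, es1inf_isPPowerTorsion y, hy⟩
  · intro x _
    obtain ⟨a, ha⟩ := x.2.1
    obtain ⟨E, hE, h⟩ := G2.es1g2_final_finite_level (pow_ne_zero a hp.ne') (x : JH L M H) ha
    exact ⟨E, hE, fun σ hσ => Subtype.ext (h σ hσ)⟩
  · intro x _
    apply Subtype.ext
    rw [es1infModule_dGen_smul]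
    exact G2.es1g2_final_diamond_one _
  · intro c d x _
    apply Subtype.ext
    rw [es1infModule_dGen_smul, es1infModule_dGen_smul, es1infModule_dGen_smul]
    exact G2.es1g2_final_diamond_mul (NeZero.ne L) hML c d _
  · intro ℓ hℓ hgood c hc A hA τ hτ x _
    obtain ⟨a, ha⟩ := x.2.1
    have h1 := G2.es1g2_final_frob G2.stmtSwapH (NeZero.ne L) hML (p ^ a) ℓ hℓ
      (es1inf_not_dvd_pow hℓ hgood a) c hc A hA τ hτ (x : JH L M H) ha
    apply Subtype.ext
    rw [AddSubgroup.coe_add, AddSubgroup.coe_sub, es1inf_coe_nsmul, es1infModule_dGen_smul,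
      es1infModule_tGen_smul hML hp (ℓ := ⟨ℓ, hℓ⟩) hgood]
    exact h1
  · intro ℓ hℓ hgood A hA σ hσ x _
    obtain ⟨a, ha⟩ := x.2.1
    exact Subtype.ext (G2.es1g2_final_unram (NeZero.ne L) hML (p ^ a) ℓ hℓ
      (es1inf_not_dvd_pow hℓ hgood a) A hA σ hσ (x : JH L M H) ha)

end Fermat.Agent.ES1
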