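import Fermat.Agent.ES1.Package
import Fermat.Agent.ES.PackageInf

/-!
# ES₁-inf — the `p`-adic Eichler–Shimura package for `J_H(L; M)`: the contract (helper38)

`L` the level, `M ∣ L` the modulus of the diamonds, `H ≤ (ℤ/M)ˣ`, `Γ = gammaH L M H`
(`= {γ ∈ Γ₀(L) : a(γ) mod M ∈ H}`), `p` a prime not dividing `L`.
`HDAlg M = ℤ[T_ℓ (ℓ prime), δ_c (c ∈ (ℤ/M)ˣ)]`.

* `es1inf_goodVars L M p` : the good variables — `T_ℓ` with `ℓ ∤ L p`, and all `δ_c`;
* `ES1DataInf L M p J` : the clauses of `ES.ESDataInf` with diamonds (fork of `ES1Data` for all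
  the `pⁿ`-torsion at once): `finite`, `divisible`, `smul_comm`, `finite_level`, `diamond_one`,
  `diamond_mul`, `frob` (`δ_c τ² x − T_ℓ τ x + ℓ x = 0`, `c ≡ ℓ` mod `M`), `unram`, and
  `bad_zero` (the bad `T_ℓ` act by `0`: normalisation only).

The producer is `ES1/Inf/PkgData.lean` (`J = es1infJ L M H p`, the `p`-divisible torsion of
`JH L M H`); the faithfulness clauses are in `ES1/Inf/PkgFaith.lean`.
-/

set_option autoImplicit false

namespace Fermat.Agent.ES1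

open Fermat.Agent.S48 Fermat.Agent.ES

/-- the good variables at level `L` (diamonds mod `M`) and residue characteristic `p`: the
`T_ℓ` with `ℓ ∤ L p` and all the `δ_c` -/
def es1inf_goodVars (L M p : ℕ) : Set (HDVar M) :=
  {x | ∀ ℓ : Nat.Primes, x = Sum.inl ℓ → ¬ (ℓ : ℕ) ∣ L * p}

theorem es1inf_inr_mem_goodVars (L M p : ℕ) (c : (ZMod M)ˣ) :
    (Sum.inr c : HDVar M) ∈ es1inf_goodVars L M p := by
  intro ℓ h
  exact absurd h (by simp)

theorem es1inf_inl_mem_goodVars {L M p : ℕ} {ℓ : Nat.Primes} :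
    (Sum.inl ℓ : HDVar M) ∈ es1inf_goodVars L M p ↔ ¬ (ℓ : ℕ) ∣ L * p := by
  constructor
  · intro h
    exact h ℓ rfl
  · intro h ℓ' h'
    have : ℓ = ℓ' := Sum.inl.inj h'
    subst this
    exact h

theorem es1inf_tGen_mem_supported {L M p : ℕ} {ℓ : Nat.Primes} (h : ¬ (ℓ : ℕ) ∣ L * p) :
    es1top_tGen M ℓ ∈ MvPolynomial.supported ℤ (es1inf_goodVars L M p) :=
  MvPolynomial.X_mem_supported.mpr (es1inf_inl_mem_goodVars.mpr h)

theorem es1inf_dGen_mem_supported (L M p : ℕ) (c : (ZMod M)ˣ) :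
    es1top_dGen M c ∈ MvPolynomial.supported ℤ (es1inf_goodVars L M p) :=
  MvPolynomial.X_mem_supported.mpr (es1inf_inr_mem_goodVars L M p c)

/-- **The Eichler–Shimura data of level `Γ_H(L; M)`, `p`-adic form**, on a
`G_ℚ × ℤ[T_ℓ, δ_c]`-module `J`; all the clauses are about the `p`-power torsion of `J`. -/
structure ES1DataInf (L M p : ℕ) (J : Type) [AddCommGroup J] [Module (HDAlg M) J]
    [DistribMulAction GalQ J] : Prop where
  /-- `J[pⁿ]` is finite -/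
  finite : ∀ n : ℕ, {x : J | p ^ n • x = 0}.Finite
  /-- the `p`-power torsion is `p`-divisible -/
  divisible : ∀ x : J, IsPPowerTorsion p x → ∃ y : J, IsPPowerTorsion p y ∧ p • y = x
  /-- Galois commutes with the Hecke operators and the diamonds -/
  smul_comm : ∀ (σ : GalQ) (t : HDAlg M) (x : J), σ • t • x = t • σ • x
  /-- every `p`-power torsion element is fixed by an open subgroup -/
  finite_level : ∀ x : J, IsPPowerTorsion p x →
    ∃ E : IntermediateField ℚ (AlgebraicClosure ℚ),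
      FiniteDimensional ℚ E ∧ ∀ σ : GalQ, (∀ a ∈ E, σ a = a) → σ • x = x
  /-- `δ_1 = 1` -/
  diamond_one : ∀ x : J, IsPPowerTorsion p x → es1top_dGen M 1 • x = x
  /-- `δ_{cd} = δ_c δ_d` -/
  diamond_mul : ∀ (c d : (ZMod M)ˣ) (x : J), IsPPowerTorsion p x →
    es1top_dGen M (c * d) • x = es1top_dGen M c • es1top_dGen M d • x
  /-- the bad Hecke variables act by `0` (normalisation) -/
  bad_zero : ∀ ℓ : Nat.Primes, (ℓ : ℕ) ∣ L * p → ∀ x : J, es1top_tGen M ℓ • x = 0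
  /-- the Eichler–Shimura relation `δ_ℓ τ² − T_ℓ τ + ℓ = 0` -/
  frob : ∀ ℓ : ℕ, (hℓ : ℓ.Prime) → ¬ ℓ ∣ L * p →
    ∀ c : (ZMod M)ˣ, (c : ZMod M) = (ℓ : ZMod M) →
    ∀ A : ValuationSubring (AlgebraicClosure ℚ), A.LiesOverPrime ℓ →
      ∀ τ : GalQ, A.IsFrobeniusAt τ ℓ →
        ∀ x : J, IsPPowerTorsion p x →
          es1top_dGen M c • (τ • τ • x) - es1top_tGen M ⟨ℓ, hℓ⟩ • (τ • x) + ℓ • x = 0
  /-- unramified outside `L p` -/
  unram : ∀ ℓ : ℕ, ℓ.Prime → ¬ ℓ ∣ L * p →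
    ∀ A : ValuationSubring (AlgebraicClosure ℚ), A.LiesOverPrime ℓ →
      ∀ σ ∈ A.inertiaSubgroupIn ℚ, ∀ x : J, IsPPowerTorsion p x → σ • x = x

end Fermat.Agent.ES1
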