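import Fermat.Agent.ES1.Inf.PkgData

/-!
# ES₁-inf — faithfulness, and the `p`-adic Eichler–Shimura package for `J_H(L; M)` (helper38)

`Γ = gammaH L M H`, `J = es1infJ L M H p`, `Λ = Hom_par(Γ, ℤ)` (integral homomorphisms vanishing
on the elements of trace `±2`).

* `ES1FaithInf L M H hML p J` : the faithfulness contract — for every `n` and every `φ ∈ Λ` there
  is `x ∈ J[pⁿ]` such that every polynomial `t` with `t • x = 0` kills `φ mod pⁿ ∈ Hom(Γ, ℤ/pⁿ)`
  (`t` acting by `es1infHomEval`, i.e. `T_ℓ ↦ heckeGrp ℓ`, `δ_c ↦ diamGrp σ_c`);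
* `ES1FaithInf.int` : hence a polynomial killing `J[pⁿ]` maps `Λ` into `pⁿ Λ`;
* `es1inf_faith : ES1FaithInf L M H hML p (es1infJ L M H p)`;
* `ES1PkgInf L M H hML p` and **`es1inf_pkg`** : the package (data + faithfulness) exists, for every
  level `L`, every `M ∣ L`, every `H ≤ (ℤ/M)ˣ`, every `p > 0`.  UNCONDITIONAL.
-/

set_option autoImplicit false
set_option linter.unusedSectionVars false
set_option linter.style.haveILetI false

noncomputable section

namespace Fermat.Agent.ES1

open ModularCurve AlgebraicCurve CongruenceSubgroup ModularCurve.Period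
open Fermat.Agent.ES Fermat.Agent.S48
open scoped MatrixGroups

variable (L M : ℕ) [NeZero L] [NeZero M] (H : Subgroup (ZMod M)ˣ) (hML : M ∣ L) (p : ℕ)

/-- **The faithfulness contract** (multiplier form, coefficients `ℤ/pⁿ`). -/
def ES1FaithInf (J : Type) [AddCommGroup J] [Module (HDAlg M) J] : Prop :=
  ∀ n : ℕ, ∀ φ : Additive (gammaH L M H) →+ ℤ, IsParabolicHom (gammaH L M H) φ →
    ∃ x : J, p ^ n • x = 0 ∧ ∀ t : HDAlg M, t • x = 0 →
      es1infHomEval L M H hML p (ZMod (p ^ n)) t ((Int.castAddHom (ZMod (p ^ n))).comp φ) = 0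

/-- **The `p`-adic Eichler–Shimura package** of level `Γ_H(L; M)`: data and faithfulness. -/
def ES1PkgInf : Prop :=
  ∃ (J : Type) (_ : AddCommGroup J) (_ : Module (HDAlg M) J) (_ : DistribMulAction GalQ J),
    ES1DataInf L M p J ∧ ES1FaithInf L M H hML p J

variable {L M H hML p}

/-- a polynomial killing `J[pⁿ]` maps the lattice `Λ` of the integral parabolic homomorphisms
into `pⁿ Λ` -/
theorem ES1FaithInf.int {J : Type} [AddCommGroup J] [Module (HDAlg M) J]
    (h : ES1FaithInf L M H hML p J) (hp : p ≠ 0) (n : ℕ) (t : HDAlg M)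
    (ht : ∀ x : J, p ^ n • x = 0 → t • x = 0) (φ : Additive (gammaH L M H) →+ ℤ)
    (hφ : IsParabolicHom (gammaH L M H) φ) :
    ∃ ψ : Additive (gammaH L M H) →+ ℤ, IsParabolicHom (gammaH L M H) ψ ∧
      es1infHomEval L M H hML p ℤ t φ = p ^ n • ψ := by
  obtain ⟨x, hx, hxt⟩ := h n φ hφ
  have h1 := hxt t (ht x hx)
  rw [es1infHomEval_comp hML] at h1
  have hpar : es1infHomEval L M H hML p ℤ t φ ∈ intHoms (gammaH L M H) (es1g1opPar L M H) :=
    es1infHomEval_par hML t hφ
  obtain ⟨ψ, hψ, hψeq⟩ := exists_eq_nsmul_of_castHom_eq_zero (p ^ n) (pow_ne_zero n hp) _ hpar h1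
  exact ⟨ψ, hψ, hψeq⟩

/-- **faithfulness on `es1infJ L M H p`** -/
theorem es1inf_faith (hML : M ∣ L) (hp : 0 < p) :
    letI := es1infModule L M H p hML hp
    ES1FaithInf L M H hML p (es1infJ L M H p) := by
  letI := es1infModule L M H p hML hp
  intro n φ hφ
  obtain ⟨x, hx, hμx⟩ := es1infMu_surj hML hp φ hφ n
  refine ⟨x, hx, fun t htx => ?_⟩
  have h1 := es1infMu_smul hML hp t x
  rw [htx, map_zero, hμx, ← es1g1_expZMod_comp, es1infHomEval_comp hML] at h1
  refine DFunLike.ext _ _ fun γ => ?_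
  have h2 := DFunLike.congr_fun h1 γ
  rw [AddMonoidHom.comp_apply] at h2
  exact expZMod_injective (pow_ne_zero n hp.ne') (h2.symm.trans (map_zero _).symm)

/-- the multiplier form with coefficients `ℂˣ`: the multiplier map is injective, equivariant for
all the Hecke–diamond polynomials and its image contains the classes `e(φ/pⁿ)`, `φ ∈ Λ` -/
theorem es1inf_multiplier (hML : M ∣ L) (hp : 0 < p) :
    letI := es1infModule L M H p hML hp
    ∃ μ : es1infJ L M H p →+ (Additive (gammaH L M H) →+ Additive ℂˣ),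
      Function.Injective μ ∧
      (∀ (t : HDAlg M) (x : es1infJ L M H p),
        μ (t • x) = es1infHomEval L M H hML p (Additive ℂˣ) t (μ x)) ∧
      ∀ (n : ℕ) (φ : Additive (gammaH L M H) →+ ℤ), IsParabolicHom (gammaH L M H) φ →
        ∃ x : es1infJ L M H p, p ^ n • x = 0 ∧ μ x = (expHom (p ^ n)).comp φ :=
  ⟨es1infMu hML hp, es1infMu_injective hML hp, es1infMu_smul hML hp,
    fun n φ hφ => es1infMu_surj hML hp φ hφ n⟩

/-- **The `p`-adic Eichler–Shimura package exists** at every level `Γ_H(L; M)`. -/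
theorem es1inf_pkg (hML : M ∣ L) (hp : 0 < p) : ES1PkgInf L M H hML p :=
  ⟨es1infJ L M H p, inferInstance, es1infModule L M H p hML hp, es1infGalois L M H p,
    es1inf_dataInf hML hp, es1inf_faith hML hp⟩

end Fermat.Agent.ES1
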