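import Fermat.Agent.ES1.Inf.PkgOp
import Fermat.Agent.ES1.G1Done
import Fermat.Agent.ES1.G2.Final
import Fermat.Agent.ES1.TopB

/-!
# ES₁-inf — `J = es1infJ L M H p`, its Hecke–diamond module structure and the multiplier map
(helper38)

`J := es1infJ L M H p = pDivTors p (JH L M H)`, the `p`-divisible part of the `p`-power torsion of
`J_H(L; M)(ℚ̄)`, for a GENERAL level `L` with `M ∣ L`.

* `es1infGalois L M H p : DistribMulAction GalQ J` (restriction);
* `es1infJOp L M H p i : End J` — `T_ℓ ↦ es1hHecke ℓ` (`ℓ ∤ L p`), `δ_c ↦ es1Diamond c`, `0` at the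
  bad `T_ℓ`;
* `es1infMu hML hp : J →+ Hom(Γ, ℂˣ)` — the multiplier map (restriction of `muMapH`),
  `es1infMu_injective`, `es1infMu_op` (equivariance for every variable);
* `es1infJOp_comm` : the operators commute on `J`;
* `es1infModule hML hp : Module (HDAlg M) J`, `es1infMu_smul` :
  `μ (t • x) = es1infHomEval t (μ x)` for EVERY polynomial `t`;
* `es1infMu_surj` : every `e(φ/pⁿ)`, `φ : Γ → ℤ` parabolic, is `μ x` with `x ∈ J[pⁿ]`.
-/

set_option autoImplicit false
set_option linter.unusedSectionVars false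
set_option linter.style.haveILetI false

noncomputable section

namespace Fermat.Agent.ES1

open ModularCurve AlgebraicCurve CongruenceSubgroup ModularCurve.Period
open Fermat.Agent.ES Fermat.Agent.S48
open scoped MatrixGroups

variable (L M : ℕ) [NeZero L] [NeZero M] (H : Subgroup (ZMod M)ˣ) (p : ℕ)

/-- the `p`-divisible part of the `p`-power torsion of `J_H(L; M)(ℚ̄)` -/
abbrev es1infJ : Type := ↥(pDivTors p (JH L M H))

/-- the Galois action on `es1infJ` -/
@[reducible] def es1infGalois : DistribMulAction GalQ (es1infJ L M H p) where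
  smul σ x := ⟨σ • (x : JH L M H),
    map_mem_pDivTors (DistribSMul.toAddMonoidHom (JH L M H) σ) x.2⟩
  one_smul x := Subtype.ext (one_smul GalQ (x : JH L M H))
  mul_smul σ τ x := Subtype.ext (mul_smul σ τ (x : JH L M H))
  smul_zero σ := Subtype.ext (smul_zero σ)
  smul_add σ x y := Subtype.ext (smul_add σ (x : JH L M H) (y : JH L M H))

theorem es1infGalois_coe (σ : GalQ) (x : es1infJ L M H p) :
    ((letI := es1infGalois L M H p; σ • x : es1infJ L M H p) : JH L M H)
      = σ • (x : JH L M H) := rfl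

/-- restriction of an additive endomorphism of `JH L M H` to `es1infJ` -/
def es1infRestrict (f : JH L M H →+ JH L M H) : Module.End ℤ (es1infJ L M H p) :=
  AddMonoidHom.toIntLinearMap
    { toFun := fun x => (⟨f x, map_mem_pDivTors f x.2⟩ : es1infJ L M H p)
      map_zero' := Subtype.ext (map_zero f)
      map_add' := fun _ _ => Subtype.ext (map_add f _ _) }

theorem es1infRestrict_coe (f : JH L M H →+ JH L M H) (x : es1infJ L M H p) :
    (es1infRestrict L M H p f x : JH L M H) = f x := rfl

open Classical in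
/-- the operator of a variable on `es1infJ`; `0` at the bad variables -/
def es1infJOp (i : HDVar M) : Module.End ℤ (es1infJ L M H p) :=
  if i ∈ es1inf_goodVars L M p then
    es1infRestrict L M H p (es1b_op (G2.es1g2T L M H) (G2.es1Diamond L M H) i)
  else 0

variable {L M H p}

theorem es1infJOp_bad {i : HDVar M} (h : i ∉ es1inf_goodVars L M p) :
    es1infJOp L M H p i = 0 := by
  classical
  rw [es1infJOp, if_neg h]

theorem es1infJOp_inl {ℓ : Nat.Primes} (h : ¬ (ℓ : ℕ) ∣ L * p) (x : es1infJ L M H p) :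
    (es1infJOp L M H p (Sum.inl ℓ) x : JH L M H) = G2.es1g2T L M H ℓ (x : JH L M H) := by
  classical
  rw [es1infJOp, if_pos (es1inf_inl_mem_goodVars.mpr h)]
  rfl

theorem es1infJOp_inr (c : (ZMod M)ˣ) (x : es1infJ L M H p) :
    (es1infJOp L M H p (Sum.inr c) x : JH L M H) = G2.es1Diamond L M H c (x : JH L M H) := by
  classical
  rw [es1infJOp, if_pos (es1inf_inr_mem_goodVars L M p c)]
  rfl

theorem es1inf_coe_nsmul (k : ℕ) (x : es1infJ L M H p) :
    ((k • x : es1infJ L M H p) : JH L M H) = k • (x : JH L M H) :=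
  AddSubgroup.coe_nsmul _ _ _

theorem es1inf_smul_eq_zero_iff (k : ℕ) (x : es1infJ L M H p) :
    k • x = 0 ↔ k • (x : JH L M H) = 0 := by
  rw [← es1inf_coe_nsmul, ← AddSubgroup.coe_zero (pDivTors p (JH L M H))]
  exact Subtype.ext_iff

theorem es1inf_isPPowerTorsion_coe (x : es1infJ L M H p) :
    IsPPowerTorsion p (x : JH L M H) := x.2.1

/-- every element of `es1infJ` is `p`-power torsion -/
theorem es1inf_isPPowerTorsion (x : es1infJ L M H p) : IsPPowerTorsion p x := by
  obtain ⟨a, ha⟩ := x.2.1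
  exact ⟨a, (es1inf_smul_eq_zero_iff _ _).mpr ha⟩

/-- `es1infJ` is `p`-divisible -/
theorem es1inf_divisible (x : es1infJ L M H p) : ∃ y : es1infJ L M H p, p • y = x := by
  obtain ⟨y, hy, hyx⟩ := exists_mem_pDivTors_smul_eq x.2
  exact ⟨⟨y, hy⟩, Subtype.ext (by rw [es1inf_coe_nsmul]; exact hyx)⟩

/-- Galois commutes with the operators on `es1infJ` -/
theorem es1infJOp_galois (hML : M ∣ L) (σ : GalQ) (i : HDVar M) (x : es1infJ L M H p) :
    (letI := es1infGalois L M H p; σ • es1infJOp L M H p i x)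
      = es1infJOp L M H p i (letI := es1infGalois L M H p; σ • x) := by
  letI := es1infGalois L M H p
  by_cases hi : i ∈ es1inf_goodVars L M p
  · apply Subtype.ext
    rcases i with ℓ | c
    · have hℓ : ¬ (ℓ : ℕ) ∣ L * p := es1inf_inl_mem_goodVars.mp hi
      rw [es1infGalois_coe, es1infJOp_inl hℓ, es1infJOp_inl hℓ, es1infGalois_coe]
      exact G2.es1g2_final_galois_hecke σ ℓ (x : JH L M H)
    · rw [es1infGalois_coe, es1infJOp_inr, es1infJOp_inr, es1infGalois_coe]
      exact G2.es1g2_final_galois_diamond (NeZero.ne L) hML σ c (x : JH L M H)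
  · rw [es1infJOp_bad hi, LinearMap.zero_apply, LinearMap.zero_apply, smul_zero]

/-! ## The multiplier map -/

theorem es1inf_muE (hML : M ∣ L) : MuExistsH L M H := es1g1e_muExistsH hML H
theorem es1inf_muU (hML : M ∣ L) : MuUniqueH L M H := es1g1u_muUniqueH hML
theorem es1inf_muA : MuAddH L M H := es1g1u_muAddH
theorem es1inf_muI (hML : M ∣ L) : MuInjH L M H := es1g1i_muInjH hML H
theorem es1inf_muS (hML : M ∣ L) : MuSurjH L M H := es1g1s_muSurjH hML
theorem es1inf_muH (hML : M ∣ L) : MuHeckeH L M H hML := es1g1hkb_muHeckeH H hML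
theorem es1inf_muD (hML : M ∣ L) : MuDiamH L M H := muDiamH H (NeZero.ne L) hML

theorem es1inf_exists_pow (hp : 0 < p) (x : es1infJ L M H p) :
    ∃ n : ℕ, 0 < n ∧ n • (x : JH L M H) = 0 := by
  obtain ⟨a, ha⟩ := x.2.1
  exact ⟨p ^ a, pow_pos hp a, ha⟩

theorem es1inf_exists_pow₂ (hp : 0 < p) (x y : es1infJ L M H p) :
    ∃ n : ℕ, 0 < n ∧ n • (x : JH L M H) = 0 ∧ n • (y : JH L M H) = 0 := by
  obtain ⟨a, ha⟩ := x.2.1
  obtain ⟨b, hb⟩ := y.2.1
  refine ⟨p ^ (a + b), pow_pos hp _, ?_, ?_⟩
  · rw [pow_add, mul_comm, mul_smul, ha, smul_zero]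
  · rw [pow_add, mul_smul, hb, smul_zero]

/-- **the multiplier map** on `es1infJ` -/
def es1infMu (hML : M ∣ L) (hp : 0 < p) : es1infJ L M H p →+ CharGrpH L M H where
  toFun x := muMapH L M H (x : JH L M H)
  map_zero' := es1g1_muMapH_zero (es1inf_muE hML) (es1inf_muU hML) es1inf_muA
  map_add' x y := by
    obtain ⟨n, hn, hx, hy⟩ := es1inf_exists_pow₂ hp x y
    exact muMapH_add (es1inf_muE hML) (es1inf_muU hML) es1inf_muA hn hx hy

@[simp] theorem es1infMu_apply (hML : M ∣ L) (hp : 0 < p) (x : es1infJ L M H p) :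
    es1infMu hML hp x = muMapH L M H (x : JH L M H) := rfl

/-- the multiplier map is injective -/
theorem es1infMu_injective (hML : M ∣ L) (hp : 0 < p) :
    Function.Injective (es1infMu (H := H) hML hp) := by
  rw [injective_iff_map_eq_zero]
  intro x hx
  obtain ⟨n, hn, hnx⟩ := es1inf_exists_pow hp x
  exact Subtype.ext (muMapH_eq_zero (es1inf_muE hML) (es1inf_muU hML) (es1inf_muI hML) hn hnx hx)

/-- **equivariance** of the multiplier map, for every variable -/
theorem es1infMu_op (hML : M ∣ L) (hp : 0 < p) (i : HDVar M) (x : es1infJ L M H p) :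
    es1infMu hML hp (es1infJOp L M H p i x)
      = es1infHomOp L M H hML p (Additive ℂˣ) i (es1infMu hML hp x) := by
  obtain ⟨n, hn, hnx⟩ := es1inf_exists_pow hp x
  by_cases hi : i ∈ es1inf_goodVars L M p
  · rcases i with ℓ | c
    · have hℓ : ¬ (ℓ : ℕ) ∣ L * p := es1inf_inl_mem_goodVars.mp hi
      have hℓL : ¬ (ℓ : ℕ) ∣ L := fun h => hℓ (h.mul_right p)
      haveI : NeZero (ℓ : ℕ) := ⟨ℓ.2.ne_zero⟩
      rw [es1infMu_apply, es1infJOp_inl hℓ, es1infHomOp_inl hML hℓ, es1infMu_apply]
      exact muMapH_hecke hML (es1inf_muE hML) (es1inf_muU hML) (es1inf_muH hML) ℓ.2 hℓL hn hnx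
    · rw [es1infMu_apply, es1infJOp_inr, es1infHomOp_inr' hML c, es1infMu_apply]
      exact muMapH_diam (es1inf_muE hML) (es1inf_muU hML) (es1inf_muD hML)
        (es1g1opSigma_memL hML c) (es1g1opSigma_memM hML c) (es1g1opSigma_diam hML c) hn hnx
  · rw [es1infJOp_bad hi, es1infHomOp_bad hML hi, LinearMap.zero_apply, LinearMap.zero_apply,
      map_zero]

/-- the operators commute on `es1infJ` -/
theorem es1infJOp_comm (hML : M ∣ L) (hp : 0 < p) (i j : HDVar M) :
    es1infJOp L M H p i * es1infJOp L M H p j = es1infJOp L M H p j * es1infJOp L M H p i := by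
  refine LinearMap.ext fun x => es1infMu_injective hML hp ?_
  rw [Module.End.mul_apply, Module.End.mul_apply, es1infMu_op, es1infMu_op, es1infMu_op,
    es1infMu_op]
  have h := es1infHomOp_comm (H := H) (p := p) hML (Additive ℂˣ) i j
  have h2 := LinearMap.congr_fun h (es1infMu hML hp x)
  rwa [Module.End.mul_apply, Module.End.mul_apply] at h2

variable (L M H p)

/-- evaluation of the Hecke–diamond polynomials on `es1infJ` -/
def es1infJEval (hML : M ∣ L) (hp : 0 < p) : HDAlg M →ₐ[ℤ] Module.End ℤ (es1infJ L M H p) :=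
  es1b_familyEval (es1infJOp L M H p) (es1infJOp_comm hML hp)

/-- **the Hecke–diamond module structure on `es1infJ`** -/
@[reducible] def es1infModule (hML : M ∣ L) (hp : 0 < p) :
    Module (HDAlg M) (es1infJ L M H p) :=
  es1b_familyModule (es1infJOp L M H p) (es1infJOp_comm hML hp)

variable {L M H p}

theorem es1infModule_smul_def (hML : M ∣ L) (hp : 0 < p) (t : HDAlg M)
    (x : es1infJ L M H p) :
    (letI := es1infModule L M H p hML hp; t • x) = es1infJEval L M H p hML hp t x := rfl

theorem es1infJEval_X (hML : M ∣ L) (hp : 0 < p) (i : HDVar M) :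
    es1infJEval L M H p hML hp (MvPolynomial.X i) = es1infJOp L M H p i :=
  es1b_familyEval_X _ _ i

theorem es1infJEval_C (hML : M ∣ L) (hp : 0 < p) (a : ℤ) (x : es1infJ L M H p) :
    es1infJEval L M H p hML hp (MvPolynomial.C a) x = a • x := by
  rw [← MvPolynomial.algebraMap_eq, AlgHom.commutes, Module.algebraMap_end_apply]

theorem es1infModule_X_smul (hML : M ∣ L) (hp : 0 < p) (i : HDVar M)
    (x : es1infJ L M H p) :
    (letI := es1infModule L M H p hML hp; (MvPolynomial.X i : HDAlg M) • x)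
      = es1infJOp L M H p i x := by
  rw [es1infModule_smul_def, es1infJEval_X]

/-- `T_ℓ` acts on `es1infJ` as `es1hHecke ℓ` for the good primes -/
theorem es1infModule_tGen_smul (hML : M ∣ L) (hp : 0 < p) {ℓ : Nat.Primes}
    (h : ¬ (ℓ : ℕ) ∣ L * p) (x : es1infJ L M H p) :
    ((letI := es1infModule L M H p hML hp; es1top_tGen M ℓ • x : es1infJ L M H p) : JH L M H)
      = G2.es1g2T L M H ℓ (x : JH L M H) := by
  rw [es1top_tGen, es1infModule_X_smul, es1infJOp_inl h]

/-- the bad `T_ℓ` act by `0` -/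
theorem es1infModule_tGen_smul_bad (hML : M ∣ L) (hp : 0 < p) {ℓ : Nat.Primes}
    (h : (ℓ : ℕ) ∣ L * p) (x : es1infJ L M H p) :
    (letI := es1infModule L M H p hML hp; es1top_tGen M ℓ • x) = 0 := by
  rw [es1top_tGen, es1infModule_X_smul,
    es1infJOp_bad (fun hg => es1inf_inl_mem_goodVars.mp hg h)]
  rfl

/-- `δ_c` acts on `es1infJ` as `es1Diamond c` -/
theorem es1infModule_dGen_smul (hML : M ∣ L) (hp : 0 < p) (c : (ZMod M)ˣ)
    (x : es1infJ L M H p) :
    ((letI := es1infModule L M H p hML hp; es1top_dGen M c • x : es1infJ L M H p) : JH L M H)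
      = G2.es1Diamond L M H c (x : JH L M H) := by
  rw [es1top_dGen, es1infModule_X_smul, es1infJOp_inr]

/-- **equivariance of the multiplier map for every Hecke–diamond polynomial** -/
theorem es1infMu_eval (hML : M ∣ L) (hp : 0 < p) (t : HDAlg M) (x : es1infJ L M H p) :
    es1infMu hML hp (es1infJEval L M H p hML hp t x)
      = es1infHomEval L M H hML p (Additive ℂˣ) t (es1infMu hML hp x) := by
  induction t using MvPolynomial.induction_on generalizing x with
  | C a =>
      rw [es1infJEval_C, es1infHomEval_C, map_zsmul]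
  | add s t hs ht =>
      rw [map_add, map_add, LinearMap.add_apply, LinearMap.add_apply, map_add, hs, ht]
  | mul_X s i hs =>
      rw [map_mul, map_mul, Module.End.mul_apply, Module.End.mul_apply, hs, es1infJEval_X,
        es1infHomEval_X, es1infMu_op]

theorem es1infMu_smul (hML : M ∣ L) (hp : 0 < p) (t : HDAlg M) (x : es1infJ L M H p) :
    es1infMu hML hp (letI := es1infModule L M H p hML hp; t • x)
      = es1infHomEval L M H hML p (Additive ℂˣ) t (es1infMu hML hp x) :=
  es1infMu_eval hML hp t x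

/-- Galois commutes with the Hecke–diamond polynomials on `es1infJ` -/
theorem es1inf_smul_comm (hML : M ∣ L) (hp : 0 < p) (σ : GalQ) (t : HDAlg M)
    (x : es1infJ L M H p) :
    (letI := es1infModule L M H p hML hp; letI := es1infGalois L M H p; σ • t • x)
      = (letI := es1infModule L M H p hML hp; letI := es1infGalois L M H p; t • σ • x) := by
  letI := es1infGalois L M H p
  show σ • es1infJEval L M H p hML hp t x = es1infJEval L M H p hML hp t (σ • x)
  induction t using MvPolynomial.induction_on generalizing x with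
  | C a =>
      rw [es1infJEval_C, es1infJEval_C]
      exact map_zsmul (DistribSMul.toAddMonoidHom (es1infJ L M H p) σ) a x
  | add s t hs ht =>
      rw [map_add, LinearMap.add_apply, LinearMap.add_apply, smul_add, hs, ht]
  | mul_X s i hs =>
      rw [map_mul, Module.End.mul_apply, Module.End.mul_apply, hs, es1infJEval_X,
        es1infJOp_galois hML]

/-! ## Surjectivity onto the classes `e(φ/pⁿ)` -/

/-- **every `e(φ/pⁿ)`, `φ` integral parabolic, is the multiplier of some `x ∈ J[pⁿ]`** -/
theorem es1infMu_surj (hML : M ∣ L) (hp : 0 < p) (φ : Additive (gammaH L M H) →+ ℤ)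
    (hφ : IsParabolicHom (gammaH L M H) φ) (n : ℕ) :
    ∃ x : es1infJ L M H p, p ^ n • x = 0 ∧ es1infMu hML hp x = expCharH L M H (p ^ n) φ := by
  have hU := es1inf_muU (H := H) hML
  have hE := es1inf_muE (H := H) hML
  have hex : ∀ k : ℕ, ∃ x : JH L M H, p ^ k • x = 0 ∧
      muMapH L M H x = expCharH L M H (p ^ k) φ :=
    fun k => muMapH_surj hU (es1inf_muS hML) φ hφ (pow_pos hp k)
  choose x hx hμx using hex
  have hstep : ∀ k, p • x (k + 1) = x k := by
    intro k
    have hpk : 0 < p ^ (k + 1) := pow_pos hp _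
    have h3 : p ^ (k + 1) • x k = 0 := by
      rw [pow_succ, mul_comm, mul_smul, hx k, smul_zero]
    have hXY : p • (⟨x (k + 1), hx (k + 1)⟩ : es1b_torsPart (p ^ (k + 1)) (JH L M H))
        = (⟨x k, h3⟩ : es1b_torsPart (p ^ (k + 1)) (JH L M H)) := by
      apply es1g1_muP_injective hE hU es1inf_muA (es1inf_muI hML) (p ^ (k + 1)) hpk
      rw [map_nsmul]
      refine DFunLike.ext _ _ fun γ => ?_
      rw [AddMonoidHom.nsmul_apply, es1g1_muP_apply, es1g1_muP_apply]
      show p • muMapH L M H (x (k + 1)) γ = muMapH L M H (x k) γ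
      rw [hμx, hμx, expCharH_apply, expCharH_apply, pow_succ', nsmul_expHom p (p ^ k) hp.ne']
    exact congrArg (fun z : es1b_torsPart (p ^ (k + 1)) (JH L M H) => (z : JH L M H)) hXY
  refine ⟨⟨x n, ⟨⟨n, hx n⟩, fun j => x (n + j), rfl, fun j => hstep (n + j)⟩⟩, ?_, hμx n⟩
  exact (es1inf_smul_eq_zero_iff _ _).mpr (hx n)

end Fermat.Agent.ES1
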