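import Fermat.Agent.ES1.Inf.Comm
import Fermat.Agent.ES1.Inf.PkgDefs
import Fermat.Agent.ES1.G1Op
import Fermat.Agent.ES1.TopBWords

/-!
# ES₁-inf — the Hecke–diamond polynomials acting on `Hom(Γ, A)`, `Γ = gammaH L M H` (helper38)

* `es1infHomOp L M H hML p A i` : the operator of the variable `i` on `Hom(Γ, A)`:
  `T_ℓ ↦ heckeGrp ℓ` (`ℓ ∤ L p`), `δ_c ↦ diamGrp σ_c`, and `0` at the bad `T_ℓ`;
* `es1infHomOp_comm` : they commute (from `ES1/Inf/Comm.lean`, i.e. from K5);
* `es1infHomEval L M H hML p A : HDAlg M →ₐ[ℤ] End(Hom(Γ, A))`;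
* `es1infHomEval_comp` : naturality in the coefficient group `A`;
* `es1infHomEval_par` : the homomorphisms vanishing on the elements of trace `±2` are stable.
-/

set_option autoImplicit false
set_option linter.unusedSectionVars false

noncomputable section

namespace Fermat.Agent.ES1

open CongruenceSubgroup Matrix Matrix.SpecialLinearGroup Fermat.Agent Fermat.Agent.S48
open scoped MatrixGroups

variable (L M : ℕ) [NeZero L] [NeZero M] (H : Subgroup (ZMod M)ˣ) (hML : M ∣ L) (p : ℕ)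

open Classical in
/-- the operator of a variable on `Hom(Γ, A)`; `0` at the bad variables -/
def es1infHomOp (A : Type) [AddCommGroup A] (i : HDVar M) :
    Module.End ℤ (Additive (gammaH L M H) →+ A) :=
  if i ∈ es1inf_goodVars L M p then (es1g1OpVar L M H hML A i).toIntLinearMap else 0

variable {L M H p}

theorem es1infHomOp_bad {A : Type} [AddCommGroup A] {i : HDVar M}
    (h : i ∉ es1inf_goodVars L M p) : es1infHomOp L M H hML p A i = 0 := by
  classical
  rw [es1infHomOp, if_neg h]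

theorem es1infHomOp_good {A : Type} [AddCommGroup A] {i : HDVar M}
    (h : i ∈ es1inf_goodVars L M p) (φ : Additive (gammaH L M H) →+ A) :
    es1infHomOp L M H hML p A i φ = es1g1OpVar L M H hML A i φ := by
  classical
  rw [es1infHomOp, if_pos h]
  rfl

theorem es1infHomOp_inl {A : Type} [AddCommGroup A] {ℓ : Nat.Primes}
    (h : ¬ (ℓ : ℕ) ∣ L * p) (φ : Additive (gammaH L M H) →+ A) :
    es1infHomOp L M H hML p A (Sum.inl ℓ) φ =
      (haveI : NeZero (ℓ : ℕ) := ⟨ℓ.2.ne_zero⟩; heckeGrp L M H ℓ hML φ) := by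
  rw [es1infHomOp_good hML (es1inf_inl_mem_goodVars.mpr h)]
  rfl

theorem es1infHomOp_inr {A : Type} [AddCommGroup A] (c : (ZMod M)ˣ)
    (φ : Additive (gammaH L M H) →+ A) (σ : SL(2, ℤ)) (hσL : σ ∈ Gamma0 L)
    (hσM : σ ∈ Gamma0 M) (hσ : diamHom M ⟨σ, hσM⟩ = c) :
    es1infHomOp L M H hML p A (Sum.inr c) φ = diamGrp L M H σ hσL hσM φ := by
  rw [es1infHomOp_good hML (es1inf_inr_mem_goodVars L M p c)]
  exact diamGrp_congr L M H _ _ hσL hσM ((es1g1opSigma_diam hML c).trans hσ.symm) φ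

theorem es1infHomOp_inr' {A : Type} [AddCommGroup A] (c : (ZMod M)ˣ)
    (φ : Additive (gammaH L M H) →+ A) :
    es1infHomOp L M H hML p A (Sum.inr c) φ =
      diamGrp L M H (es1g1opSigma hML c) (es1g1opSigma_memL hML c)
        (es1g1opSigma_memM hML c) φ := by
  rw [es1infHomOp_good hML (es1inf_inr_mem_goodVars L M p c)]
  rfl

/-- the operators commute -/
theorem es1infHomOp_comm (A : Type) [AddCommGroup A] (i j : HDVar M) :
    es1infHomOp L M H hML p A i * es1infHomOp L M H hML p A j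
      = es1infHomOp L M H hML p A j * es1infHomOp L M H hML p A i := by
  haveI : Fact (M ∣ L) := ⟨hML⟩
  by_cases hi : i ∈ es1inf_goodVars L M p
  swap
  · rw [es1infHomOp_bad hML hi, zero_mul, mul_zero]
  by_cases hj : j ∈ es1inf_goodVars L M p
  swap
  · rw [es1infHomOp_bad hML hj, zero_mul, mul_zero]
  refine LinearMap.ext fun φ => ?_
  rw [Module.End.mul_apply, Module.End.mul_apply]
  rcases i with ℓ | c
  · have hℓ : ¬ (ℓ : ℕ) ∣ L * p := es1inf_inl_mem_goodVars.mp hi
    have hℓL : ¬ (ℓ : ℕ) ∣ L := fun h => hℓ (h.mul_right p)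
    haveI : NeZero (ℓ : ℕ) := ⟨ℓ.2.ne_zero⟩
    rcases j with ℓ' | c'
    · have hℓ' : ¬ (ℓ' : ℕ) ∣ L * p := es1inf_inl_mem_goodVars.mp hj
      have hℓ'L : ¬ (ℓ' : ℕ) ∣ L := fun h => hℓ' (h.mul_right p)
      haveI : NeZero (ℓ' : ℕ) := ⟨ℓ'.2.ne_zero⟩
      rw [es1infHomOp_inl hML hℓ, es1infHomOp_inl hML hℓ', es1infHomOp_inl hML hℓ',
        es1infHomOp_inl hML hℓ]
      exact es1inf_heckeGrp_comm H ℓ.2 hℓL ℓ'.2 hℓ'L φ
    · rw [es1infHomOp_inl hML hℓ, es1infHomOp_inr' hML c', es1infHomOp_inr' hML c',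
        es1infHomOp_inl hML hℓ]
      exact es1inf_heckeGrp_diamGrp_comm H ℓ.2 hℓL _ _ _ φ
  · rcases j with ℓ' | c'
    · have hℓ' : ¬ (ℓ' : ℕ) ∣ L * p := es1inf_inl_mem_goodVars.mp hj
      have hℓ'L : ¬ (ℓ' : ℕ) ∣ L := fun h => hℓ' (h.mul_right p)
      haveI : NeZero (ℓ' : ℕ) := ⟨ℓ'.2.ne_zero⟩
      rw [es1infHomOp_inl hML hℓ', es1infHomOp_inr' hML c, es1infHomOp_inr' hML c,
        es1infHomOp_inl hML hℓ']
      exact (es1inf_heckeGrp_diamGrp_comm H ℓ'.2 hℓ'L _ _ _ φ).symm
    · rw [es1infHomOp_inr' hML c, es1infHomOp_inr' hML c', es1infHomOp_inr' hML c',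
        es1infHomOp_inr' hML c]
      exact es1inf_diamGrp_comm H _ _ _ _ _ _ φ

variable (L M H p)

/-- **the action of the Hecke–diamond polynomials on `Hom(Γ, A)`** -/
def es1infHomEval (A : Type) [AddCommGroup A] :
    HDAlg M →ₐ[ℤ] Module.End ℤ (Additive (gammaH L M H) →+ A) :=
  es1b_familyEval (es1infHomOp L M H hML p A) (es1infHomOp_comm hML A)

variable {L M H p}

theorem es1infHomEval_X (A : Type) [AddCommGroup A] (i : HDVar M) :
    es1infHomEval L M H hML p A (MvPolynomial.X i) = es1infHomOp L M H hML p A i :=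
  es1b_familyEval_X _ _ i

theorem es1infHomEval_C (A : Type) [AddCommGroup A] (a : ℤ)
    (φ : Additive (gammaH L M H) →+ A) :
    es1infHomEval L M H hML p A (MvPolynomial.C a) φ = a • φ := by
  rw [← MvPolynomial.algebraMap_eq, AlgHom.commutes, Module.algebraMap_end_apply]

theorem es1infHomEval_tGen {A : Type} [AddCommGroup A] {ℓ : Nat.Primes}
    (h : ¬ (ℓ : ℕ) ∣ L * p) (φ : Additive (gammaH L M H) →+ A) :
    es1infHomEval L M H hML p A (es1top_tGen M ℓ) φ =
      (haveI : NeZero (ℓ : ℕ) := ⟨ℓ.2.ne_zero⟩; heckeGrp L M H ℓ hML φ) := by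
  rw [es1top_tGen, es1infHomEval_X, es1infHomOp_inl hML h]

theorem es1infHomEval_dGen {A : Type} [AddCommGroup A] (c : (ZMod M)ˣ)
    (φ : Additive (gammaH L M H) →+ A) (σ : SL(2, ℤ)) (hσL : σ ∈ Gamma0 L)
    (hσM : σ ∈ Gamma0 M) (hσ : diamHom M ⟨σ, hσM⟩ = c) :
    es1infHomEval L M H hML p A (es1top_dGen M c) φ = diamGrp L M H σ hσL hσM φ := by
  rw [es1top_dGen, es1infHomEval_X, es1infHomOp_inr hML c φ σ hσL hσM hσ]

/-- naturality of the operators in the coefficient group -/
theorem es1infHomOp_comp {A B : Type} [AddCommGroup A] [AddCommGroup B] (f : A →+ B)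
    (i : HDVar M) (φ : Additive (gammaH L M H) →+ A) :
    es1infHomOp L M H hML p B i (f.comp φ) = f.comp (es1infHomOp L M H hML p A i φ) := by
  by_cases hi : i ∈ es1inf_goodVars L M p
  · rw [es1infHomOp_good hML hi, es1infHomOp_good hML hi]
    rcases i with ℓ | c
    · haveI : NeZero (ℓ : ℕ) := ⟨ℓ.2.ne_zero⟩
      exact heckeGrp_comp L M H ℓ hML f φ
    · exact diamGrp_comp L M H _ _ _ f φ
  · rw [es1infHomOp_bad (A := B) hML hi, es1infHomOp_bad (A := A) hML hi,
      LinearMap.zero_apply, LinearMap.zero_apply]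
    exact (AddMonoidHom.comp_zero f).symm

/-- **naturality** of the action of the polynomials in the coefficient group -/
theorem es1infHomEval_comp {A B : Type} [AddCommGroup A] [AddCommGroup B] (f : A →+ B)
    (t : HDAlg M) (φ : Additive (gammaH L M H) →+ A) :
    es1infHomEval L M H hML p B t (f.comp φ) = f.comp (es1infHomEval L M H hML p A t φ) := by
  induction t using MvPolynomial.induction_on generalizing φ with
  | C a =>
      rw [es1infHomEval_C, es1infHomEval_C]
      refine DFunLike.ext _ _ fun γ => ?_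
      simp only [AddMonoidHom.comp_apply, AddMonoidHom.coe_smul, Pi.smul_apply, map_zsmul]
  | add s t hs ht =>
      rw [map_add, map_add, LinearMap.add_apply, LinearMap.add_apply, hs, ht]
      refine DFunLike.ext _ _ fun γ => ?_
      simp only [AddMonoidHom.comp_apply, AddMonoidHom.add_apply, map_add]
  | mul_X s i hs =>
      rw [map_mul, map_mul, Module.End.mul_apply, Module.End.mul_apply, es1infHomEval_X,
        es1infHomEval_X, es1infHomOp_comp hML f, hs]

/-- the operators preserve the homomorphisms vanishing on the elements of trace `±2` -/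
theorem es1infHomOp_par {A : Type} [AddCommGroup A] (i : HDVar M)
    {φ : Additive (gammaH L M H) →+ A}
    (hφ : ∀ γ ∈ es1g1opPar L M H, φ (Additive.ofMul γ) = 0) :
    ∀ γ ∈ es1g1opPar L M H, es1infHomOp L M H hML p A i φ (Additive.ofMul γ) = 0 := by
  by_cases hi : i ∈ es1inf_goodVars L M p
  · rw [es1infHomOp_good hML hi]
    rcases i with ℓ | c
    · haveI : NeZero (ℓ : ℕ) := ⟨ℓ.2.ne_zero⟩
      exact heckeGrp_par L M H ℓ hML hφ
    · exact diamGrp_par L M H _ _ _ hφ
  · intro γ _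
    rw [es1infHomOp_bad hML hi]
    rfl

/-- the polynomials preserve the homomorphisms vanishing on the elements of trace `±2` -/
theorem es1infHomEval_par {A : Type} [AddCommGroup A] (t : HDAlg M)
    {φ : Additive (gammaH L M H) →+ A}
    (hφ : ∀ γ ∈ es1g1opPar L M H, φ (Additive.ofMul γ) = 0) :
    ∀ γ ∈ es1g1opPar L M H, es1infHomEval L M H hML p A t φ (Additive.ofMul γ) = 0 := by
  induction t using MvPolynomial.induction_on generalizing φ with
  | C a =>
      intro γ hγ
      rw [es1infHomEval_C, AddMonoidHom.coe_smul, Pi.smul_apply, hφ γ hγ, smul_zero]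
  | add s t hs ht =>
      intro γ hγ
      rw [map_add, LinearMap.add_apply, AddMonoidHom.add_apply, hs hφ γ hγ, ht hφ γ hγ,
        add_zero]
  | mul_X s i hs =>
      rw [map_mul, Module.End.mul_apply, es1infHomEval_X]
      exact hs (es1infHomOp_par hML i hφ)

end Fermat.Agent.ES1
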