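import Fermat.Agent.ES1.Inf.TwPkg
import Fermat.Agent.RT.K6.FPlan

/-!
# K7-TW (TW4) — K6/F in twisted form (helper38)

`r ∣ M` prime, `r² ∤ L`, `σ` in an inertia group at `r`, `c = c_M(σ)`, `δ = δ_c`.
From K6/F, `(σ − 1)(δ σ − 1) = 0` on the divisible torsion (`RT.K6.StmtChiJDiv`), and
`δ ^ (2e − 1) = 1`:

* `es1inf_isDivJ` : the elements of `es1infJ` are divisible in `JH L M H`;
* `es1inftw_isCycAt` : `RT.K6.IsCycAt M r σ (c_M σ)` for `σ` in an inertia group at `r`;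
* `es1inftwChiPoly M e c = δ_c ^ e + δ_{c⁻¹} ^ e`;
* **`es1inftw_chi_rel`** : `σ ∗ σ ∗ x − (δ ^ e + δ ^ (−e)) • σ ∗ x + x = 0` on `es1inftwJ`;
* **`es1inftw_chi_approx`** : `Rtk7bApprox p Jtw (cycE p) n σ (δ ^ e + δ ^ (−e))` for all `n`.
-/

set_option autoImplicit false
set_option linter.unusedSectionVars false
set_option linter.style.haveILetI false

noncomputable section

namespace Fermat.Agent.ES1

open ModularCurve AlgebraicCurve
open Fermat.Agent.ES Fermat.Agent.S48 Fermat.Agent.RT.K6 Fermat.Agent.ES1.G2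

/-! ## Divisibility -/

/-- the elements of the `p`-divisible part of the `p`-power torsion are divisible by every
`e ≠ 0` -/
theorem es1inf_divisible_of_mem_pDivTors {J : Type*} [AddCommGroup J] {p : ℕ} (hp : p.Prime)
    {x : J} (hx : x ∈ pDivTors p J) (e : ℕ) (he : e ≠ 0) : ∃ y : J, e • y = x := by
  obtain ⟨k, e', he', rfl⟩ := Nat.exists_eq_pow_mul_and_not_dvd he p hp.ne_one
  -- the tower
  have htower : ∀ k : ℕ, ∃ y ∈ pDivTors p J, p ^ k • y = x := by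
    intro k
    induction k with
    | zero => exact ⟨x, hx, by rw [pow_zero, one_smul]⟩
    | succ k ih =>
        obtain ⟨y, hy, hyx⟩ := ih
        obtain ⟨z, hz, hzy⟩ := exists_mem_pDivTors_smul_eq hy
        exact ⟨z, hz, by rw [pow_succ, mul_smul, hzy, hyx]⟩
  obtain ⟨y, hy, hyx⟩ := htower k
  obtain ⟨b, hb⟩ := hy.1
  have hcop : IsCoprime (e' : ℤ) ((p ^ b : ℕ) : ℤ) := by
    rw [Nat.isCoprime_iff_coprime]
    exact Nat.Coprime.pow_right b ((Nat.Prime.coprime_iff_not_dvd hp).mpr he').symm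
  obtain ⟨u, v, huv⟩ := hcop
  refine ⟨u • y, ?_⟩
  have h1 : (e' : ℤ) • (u • y) = y := by
    have h2 : ((p ^ b : ℕ) : ℤ) • y = 0 := by rw [natCast_zsmul]; exact hb
    calc (e' : ℤ) • (u • y) = (u * e') • y := by rw [mul_smul, smul_comm]
      _ = (u * e' + v * ((p ^ b : ℕ) : ℤ)) • y := by rw [add_smul, mul_smul v, h2, smul_zero,
          add_zero]
      _ = y := by rw [huv, one_smul]
  rw [mul_smul, ← natCast_zsmul (u • y) e', h1, hyx]

variable {L M : ℕ} [NeZero L] [NeZero M] {H : Subgroup (ZMod M)ˣ} {p : ℕ}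

/-- the elements of `es1infJ` are divisible in `JH L M H` -/
theorem es1inf_isDivJ (hp : p.Prime) (x : es1infJ L M H p) : IsDivJ (x : JH L M H) :=
  fun e he => es1inf_divisible_of_mem_pDivTors hp x.2 e he

/-! ## The cyclotomic image of an inertia element -/

/-- `σ ζ = ζ ^ c_M(σ)` for every `M`-th root of unity -/
theorem es1inftw_cyclo_spec (M : ℕ) [NeZero M] (σ : GalQ) {ζ : AlgebraicClosure ℚ}
    (hζ : ζ ^ M = 1) :
    σ ζ = ζ ^ ((Fermat.Agent.S42.cycloChar M σ : (ZMod M)ˣ) : ZMod M).val := by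
  have : NeZero (M : AlgebraicClosure ℚ) := ⟨Nat.cast_ne_zero.mpr (NeZero.ne M)⟩
  obtain ⟨ζM, hζM⟩ := HasEnoughRootsOfUnity.exists_primitiveRoot (AlgebraicClosure ℚ) M
  obtain ⟨j, -, rfl⟩ := hζM.eq_pow_of_pow_eq_one hζ
  rw [map_pow, Fermat.Agent.S42.cycloChar_spec M σ hζM, ← pow_mul, ← pow_mul, mul_comm]

/-- reduction of the cyclotomic character: `c_M(σ) mod d = c_d(σ)` for `d ∣ M` -/
theorem es1inftw_cyclo_cast (M d : ℕ) [NeZero M] [NeZero d] (hd : d ∣ M) (σ : GalQ) :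
    ((((Fermat.Agent.S42.cycloChar M σ : (ZMod M)ˣ) : ZMod M).val : ℕ) : ZMod d)
      = ((Fermat.Agent.S42.cycloChar d σ : (ZMod d)ˣ) : ZMod d) := by
  have : NeZero (d : AlgebraicClosure ℚ) := ⟨Nat.cast_ne_zero.mpr (NeZero.ne d)⟩
  obtain ⟨ζ, hζ⟩ := HasEnoughRootsOfUnity.exists_primitiveRoot (AlgebraicClosure ℚ) d
  have hζM : ζ ^ M = 1 := by
    obtain ⟨k, rfl⟩ := hd
    rw [pow_mul, hζ.pow_eq_one, one_pow]
  have h1 := es1inftw_cyclo_spec M σ hζM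
  have h2 := Fermat.Agent.S42.cycloChar_spec d σ hζ
  have h3 : ζ ^ ((Fermat.Agent.S42.cycloChar M σ : (ZMod M)ˣ) : ZMod M).val
      = ζ ^ ((Fermat.Agent.S42.cycloChar d σ : (ZMod d)ˣ) : ZMod d).val := h1.symm.trans h2
  have hfo : IsOfFinOrder ζ :=
    isOfFinOrder_iff_pow_eq_one.mpr ⟨d, Nat.pos_of_ne_zero (NeZero.ne d), hζ.pow_eq_one⟩
  have hmod : ((Fermat.Agent.S42.cycloChar M σ : (ZMod M)ˣ) : ZMod M).val
      ≡ ((Fermat.Agent.S42.cycloChar d σ : (ZMod d)ˣ) : ZMod d).val [MOD d] := by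
    have := hfo.pow_eq_pow_iff_modEq
      (n := ((Fermat.Agent.S42.cycloChar M σ : (ZMod M)ˣ) : ZMod M).val)
      (m := ((Fermat.Agent.S42.cycloChar d σ : (ZMod d)ˣ) : ZMod d).val)
    rw [← hζ.eq_orderOf] at this
    exact this.mp h3
  have h4 := (ZMod.natCast_eq_natCast_iff _ _ _).mpr hmod
  rw [h4, ZMod.natCast_zmod_val]

/-- the cyclotomic image at `r` of an element of an inertia group at `r` is `c_M(σ)`
(`r ∥ M`) -/
theorem es1inftw_isCycAt (M : ℕ) [NeZero M] {r : ℕ} (hr : r.Prime) (hrM : r ∣ M)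
    (hr2 : ¬ r ^ 2 ∣ M) (A : ValuationSubring (AlgebraicClosure ℚ)) (hA : A.LiesOverPrime r)
    (σ : GalQ) (hσ : σ ∈ A.inertiaSubgroupIn ℚ) :
    IsCycAt M r σ (Fermat.Agent.S42.cycloChar M σ) := by
  refine ⟨fun ζ hζ => ?_, ?_⟩
  · apply es1inftw_cyclo_spec M σ
    obtain ⟨k, rfl⟩ := hrM
    rw [pow_mul, hζ, one_pow]
  · have hd0 : M / r ≠ 0 := by
      intro h
      rcases (Nat.div_eq_zero_iff).mp h with h0 | h0
      · exact hr.ne_zero h0
      · exact absurd (Nat.le_of_dvd (Nat.pos_of_ne_zero (NeZero.ne M)) hrM) (not_le.mpr h0)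
    haveI : NeZero (M / r) := ⟨hd0⟩
    have hrd : ¬ r ∣ M / r := by
      intro h
      apply hr2
      obtain ⟨k, hk⟩ := h
      refine ⟨k, ?_⟩
      have := Nat.div_mul_cancel hrM
      rw [hk] at this
      rw [← this]
      ring
    show ((((Fermat.Agent.S42.cycloChar M σ : (ZMod M)ˣ) : ZMod M).val : ℕ) : ZMod (M / r)) = 1
    rw [es1inftw_cyclo_cast M (M / r) (Nat.div_dvd_of_dvd hrM) σ,
      es1top_cycloChar_inertia (M / r) r hr hrd A hA σ hσ, Units.val_one]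

/-! ## The relation -/

/-- `δ_c ^ e + δ_{c⁻¹} ^ e` -/
def es1inftwChiPoly (M e : ℕ) (c : (ZMod M)ˣ) : HDAlg M :=
  es1top_dGen M c ^ e + es1top_dGen M c⁻¹ ^ e

/-- the relation of K6/F on `es1infJ`: `(σ − 1)(δ_c σ − 1) = 0` -/
theorem es1inftw_chiJ (hChi : StmtChiJDiv) (hML : M ∣ L) (hp : p.Prime) {r : ℕ} (hr : r.Prime)
    (hrM : r ∣ M) (hr2 : ¬ r ^ 2 ∣ L) (hrp : r ≠ p) (hstar : IsStarStable M r H)
    (htame : IsTameAt L M r H) (A : ValuationSubring (AlgebraicClosure ℚ))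
    (hA : A.LiesOverPrime r) (σ : GalQ) (hσ : σ ∈ A.inertiaSubgroupIn ℚ)
    (x : es1infJ L M H p) :
    letI := es1infModule L M H p hML hp.pos
    letI := es1infGalois L M H p
    es1top_dGen M (Fermat.Agent.S42.cycloChar M σ) • (σ • σ • x) - σ • x
      - es1top_dGen M (Fermat.Agent.S42.cycloChar M σ) • (σ • x) + x = 0 := by
  letI := es1infModule L M H p hML hp.pos
  letI := es1infGalois L M H p
  set c := Fermat.Agent.S42.cycloChar M σ with hc
  have hr2M : ¬ r ^ 2 ∣ M := fun h => hr2 (h.trans hML)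
  have hcyc : IsCycAt M r σ c := es1inftw_isCycAt M hr hrM hr2M A hA σ hσ
  obtain ⟨δ, hδ⟩ := stmtDiamondBarH_of_diamond stmtDiamondH L M H (NeZero.ne L) hML c
  obtain ⟨a, ha⟩ := x.2.1
  have hra : ¬ r ∣ p ^ a := fun h =>
    hrp ((Nat.prime_dvd_prime_iff_eq hr hp).mp (hr.dvd_of_dvd_pow h))
  have key := hChi L M H r (NeZero.ne L) hML hr hrM hr2 hstar htame A hA (p ^ a) hra σ hσ c
    hcyc δ hδ (x : JH L M H) ha (es1inf_isDivJ hp x)
  rw [← es1Diamond_eq hδ] at key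
  apply Subtype.ext
  rw [AddSubgroup.coe_add, AddSubgroup.coe_sub, AddSubgroup.coe_sub, es1infModule_dGen_smul,
    es1infModule_dGen_smul, AddSubgroup.coe_zero]
  have hcomm : σ • es1Diamond L M H c (σ • (x : JH L M H))
      = es1Diamond L M H c (σ • σ • (x : JH L M H)) :=
    es1g2_final_galois_diamond (NeZero.ne L) hML σ c _
  rw [hcomm] at key
  exact key

/-- **(TW4), on `es1infJ`**: `σ ∗ σ ∗ x − (δ ^ e + δ ^ (−e)) • σ ∗ x + x = 0` -/
theorem es1inftw_chi_rel_aux (hChi : StmtChiJDiv) (hML : M ∣ L) (hp : p.Prime) (e : ℕ)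
    (he : 1 ≤ e) (hE : ∀ c : (ZMod M)ˣ, c ^ (2 * e - 1) ∈ pmH H) (χ : GalQ →* (ZMod M)ˣ)
    {r : ℕ} (hr : r.Prime) (hrM : r ∣ M) (hr2 : ¬ r ^ 2 ∣ L) (hrp : r ≠ p)
    (hstar : IsStarStable M r H) (htame : IsTameAt L M r H)
    (A : ValuationSubring (AlgebraicClosure ℚ)) (hA : A.LiesOverPrime r) (σ : GalQ)
    (hσ : σ ∈ A.inertiaSubgroupIn ℚ) (hχσ : χ σ = Fermat.Agent.S42.cycloChar M σ ^ e)
    (x : es1infJ L M H p) :
    es1inftwSmul hML hp.pos χ σ (es1inftwSmul hML hp.pos χ σ x)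
      - (letI := es1infModule L M H p hML hp.pos;
          es1inftwChiPoly M e (Fermat.Agent.S42.cycloChar M σ) • es1inftwSmul hML hp.pos χ σ x)
      + x = 0 := by
  letI := es1infModule L M H p hML hp.pos
  letI := es1infGalois L M H p
  have hrel := es1inftw_chiJ hChi hML hp hr hrM hr2 hrp hstar htame A hA σ hσ x
  set c := Fermat.Agent.S42.cycloChar M σ with hc
  set D : HDAlg M := es1top_dGen M c with hD
  set D' : HDAlg M := es1top_dGen M c⁻¹ with hD'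
  have hP : ∀ y : es1infJ L M H p, (D ^ (2 * e - 1)) • y = y := by
    intro y
    rw [hD, ← es1inf_dGen_pow_smul hML hp.pos]
    exact es1inf_dGen_smul_of_mem hML hp.pos (hE c) y
  have hDD' : ∀ y : es1infJ L M H p, (D' * D) • y = y := by
    intro y
    rw [mul_smul, hD, hD', ← es1inf_dGen_mul_smul hML hp.pos, inv_mul_cancel,
      es1inf_dGen_one_smul hML hp.pos]
  have hDD'e : ∀ y : es1infJ L M H p, (D' ^ e * D ^ e) • y = y := by
    intro y
    rw [← mul_pow]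
    generalize e = k
    induction k generalizing y with
    | zero => rw [pow_zero, one_smul]
    | succ k ih => rw [pow_succ, mul_smul, hDD', ih]
  have hsm : ∀ y : es1infJ L M H p, es1inftwSmul hML hp.pos χ σ y = (D ^ e) • (σ • y) := by
    intro y
    rw [es1inftwSmul_def, hχσ, es1inf_dGen_pow_smul hML hp.pos]
  have e1 : D ^ e * D ^ e = D ^ (2 * e - 1) * D := by
    rw [← pow_add, ← pow_succ]
    congr 1
    omega
  have a1 : (D ^ e) • (σ • ((D ^ e) • (σ • x))) = D • (σ • σ • x) :=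
    calc (D ^ e) • (σ • ((D ^ e) • (σ • x)))
        = (D ^ e) • ((D ^ e) • (σ • σ • x)) := by
          rw [es1inf_galois_smul hML hp.pos σ (D ^ e) (σ • x)]
      _ = (D ^ e * D ^ e) • (σ • σ • x) := (mul_smul _ _ _).symm
      _ = (D ^ (2 * e - 1)) • (D • (σ • σ • x)) := by rw [e1, mul_smul]
      _ = D • (σ • σ • x) := hP _
  have a2 : es1inftwChiPoly M e c • ((D ^ e) • (σ • x)) = D • (σ • x) + σ • x :=
    calc es1inftwChiPoly M e c • ((D ^ e) • (σ • x))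
        = (D ^ e * D ^ e) • (σ • x) + (D' ^ e * D ^ e) • (σ • x) := by
          rw [es1inftwChiPoly, ← hD, ← hD', add_smul, mul_smul, mul_smul]
      _ = (D ^ (2 * e - 1)) • (D • (σ • x)) + σ • x := by rw [e1, mul_smul, hDD'e]
      _ = D • (σ • x) + σ • x := by rw [hP]
  rw [hsm, hsm, a1, a2, ← hrel]
  abel

variable [hML : Fact (M ∣ L)] [hp : Fact p.Prime]

/-- **(TW4)** the relation of K6/F in twisted form, on `es1inftwJ`:
`σ ∗ σ ∗ x − (δ ^ e + δ ^ (−e)) • σ ∗ x + x = 0`, `δ = δ_{c_M(σ)}`, for `σ` in an inertia group at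
a prime `r ∣ M`, `r² ∤ L`, `r ≠ p`. -/
theorem es1inftw_chi_rel (hChi : StmtChiJDiv) (e : ℕ) (he : 1 ≤ e)
    (hE : ∀ c : (ZMod M)ˣ, c ^ (2 * e - 1) ∈ pmH H) (χ : GalQ →* (ZMod M)ˣ)
    {r : ℕ} (hr : r.Prime) (hrM : r ∣ M) (hr2 : ¬ r ^ 2 ∣ L) (hrp : r ≠ p)
    (hstar : IsStarStable M r H) (htame : IsTameAt L M r H)
    (A : ValuationSubring (AlgebraicClosure ℚ)) (hA : A.LiesOverPrime r) (σ : GalQ)
    (hσ : σ ∈ A.inertiaSubgroupIn ℚ) (hχσ : χ σ = Fermat.Agent.S42.cycloChar M σ ^ e)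
    (x : es1inftwJ L M H p χ) :
    σ • σ • x - es1inftwChiPoly M e (Fermat.Agent.S42.cycloChar M σ) • (σ • x) + x = 0 :=
  es1inftw_chi_rel_aux hChi hML.out hp.out e he hE χ hr hrM hr2 hrp hstar htame A hA σ hσ hχσ
    (es1inftwOf L M H p χ x)

/-- **(TW4), `Approx` form**: `δ ^ e + δ ^ (−e)` represents `σ + χ_cyc(σ) σ⁻¹` on every
`J[pⁿ]`, for the twisted action. -/
theorem es1inftw_chi_approx (hChi : StmtChiJDiv) (e : ℕ) (he : 1 ≤ e)
    (hE : ∀ c : (ZMod M)ˣ, c ^ (2 * e - 1) ∈ pmH H) (χ : GalQ →* (ZMod M)ˣ)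
    {r : ℕ} (hr : r.Prime) (hrM : r ∣ M) (hr2 : ¬ r ^ 2 ∣ L) (hrp : r ≠ p)
    (hstar : IsStarStable M r H) (htame : IsTameAt L M r H)
    (A : ValuationSubring (AlgebraicClosure ℚ)) (hA : A.LiesOverPrime r) (σ : GalQ)
    (hσ : σ ∈ A.inertiaSubgroupIn ℚ) (hχσ : χ σ = Fermat.Agent.S42.cycloChar M σ ^ e)
    (n : ℕ) :
    Fermat.Agent.RT.Rtk7bApprox p (es1inftwJ L M H p χ)
      (fun n g => ((Fermat.Agent.S30.cycE p n g : ℕ) : HDAlg M)) n σ
      (es1inftwChiPoly M e (Fermat.Agent.S42.cycloChar M σ)) := by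
  intro x hx
  have hx' : p ^ n • (σ⁻¹ • x) = 0 := Fermat.Agent.RT.rtk7b_tors_gal n σ⁻¹ hx
  have hcyc : Fermat.Agent.S30.cycE p n σ ≡ 1 [MOD p ^ n] :=
    Fermat.Agent.S30.cycE_of_eq_one p n σ
      (Fermat.Agent.S30.padicCyclo_inertia p r hr hrp A hA σ hσ)
  have h1 : ((Fermat.Agent.S30.cycE p n σ : ℕ) : HDAlg M) • (σ⁻¹ • x) = σ⁻¹ • x := by
    rw [Nat.cast_smul_eq_nsmul, Fermat.Agent.S31.nsmul_eq_of_modEq hcyc hx', one_smul]
  have hrel := es1inftw_chi_rel hChi e he hE χ hr hrM hr2 hrp hstar htame A hA σ hσ hχσ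
    (σ⁻¹ • x)
  rw [smul_inv_smul] at hrel
  show σ • x + ((Fermat.Agent.S30.cycE p n σ : ℕ) : HDAlg M) • (σ⁻¹ • x) = _
  rw [h1]
  have h2 : σ • x + σ⁻¹ • x
      = (σ • x - es1inftwChiPoly M e (Fermat.Agent.S42.cycloChar M σ) • x + σ⁻¹ • x)
        + es1inftwChiPoly M e (Fermat.Agent.S42.cycloChar M σ) • x := by abel
  rw [h2, hrel, zero_add]

end Fermat.Agent.ES1
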