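import Fermat.Agent.ES1.Inf.TwChi
import Fermat.Agent.RT.K6.FAux

/-!
# K7-TW (TW4) from `StmtChiJDiv5` (helper43)

K6 delivers `RT.K6.StmtChiJDiv5` (K6/F + AUX, `RT/K6/FAux.lean`): (χ-J) on the divisible classes
at the tame levels for `5 ≤ r` and the exponents prime to `6`.  `ES1/Inf/TwChi.lean` consumes
`RT.K6.StmtChiJDiv` (all `r`, all exponents prime to `r`).  In the K-machine `r` is a trivial
prime or a Taylor–Wiles prime (`r ≡ 1` mod `p`, so `r ≥ 11`) and `p ≥ 5`, so the restricted form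
is enough.  This file is the bridge:

* `Es1inftwChiAt L M H r p` : what `es1inftw_chiJ` uses of K6, at ONE level, ONE prime `r` and the
  exponents `p ^ a`;
* `es1inftw_chiAt_of`  : `StmtChiJDiv → Es1inftwChiAt`;
* `es1inftw_chiAt_of5` : `StmtChiJDiv5 → 5 ≤ r → 5 ≤ p → Es1inftwChiAt`;
* `es1inftw_chiJ_at`, `es1inftw_chi_rel_aux_at`, `es1inftw_chi_rel_at`,
  **`es1inftw_chi_approx_at`** : the theorems of `TwChi.lean` from `Es1inftwChiAt`;
* **`es1inftw_chi_rel5`**, **`es1inftw_chi_approx5`** : the theorems of `TwChi.lean` from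
  `StmtChiJDiv5`, with the extra hypotheses `5 ≤ r`, `5 ≤ p`.
-/

set_option autoImplicit false
set_option linter.unusedSectionVars false
set_option linter.style.haveILetI false

noncomputable section

namespace Fermat.Agent.ES1

open ModularCurve AlgebraicCurve
open Fermat.Agent.ES Fermat.Agent.S48 Fermat.Agent.RT.K6 Fermat.Agent.ES1.G2

/-- what `es1inftw_chiJ` uses of K6/F: (χ-J) on the divisible classes killed by a power of `p`,
at the level `(L, M, H)` and the prime `r`. -/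
def Es1inftwChiAt (L M : ℕ) (H : Subgroup (ZMod M)ˣ) (r p : ℕ) : Prop :=
  ∀ A : ValuationSubring QbH, A.LiesOverPrime r → ∀ a : ℕ,
    ∀ σ ∈ A.inertiaSubgroupIn ℚ, ∀ c : (ZMod M)ˣ, IsCycAt M r σ c →
    ∀ δ : fieldBar L M H ≃ₐ[QbH] fieldBar L M H, IsDiamondH L M H c δ →
      ∀ x : JH L M H, p ^ a • x = 0 → IsDivJ x →
        σ • diamondJ δ (σ • x) - σ • x - diamondJ δ (σ • x) + x = 0

/-- from the unrestricted form -/
theorem es1inftw_chiAt_of (hChi : StmtChiJDiv) {L M : ℕ} {H : Subgroup (ZMod M)ˣ} {r p : ℕ}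
    (hL : L ≠ 0) (hML : M ∣ L) (hp : p.Prime) (hr : r.Prime) (hrM : r ∣ M) (hr2 : ¬ r ^ 2 ∣ L)
    (hrp : r ≠ p) (hstar : IsStarStable M r H) (htame : IsTameAt L M r H) :
    Es1inftwChiAt L M H r p := by
  intro A hA a σ hσ c hc δ hδ x hx hdiv
  have hra : ¬ r ∣ p ^ a := fun h =>
    hrp ((Nat.prime_dvd_prime_iff_eq hr hp).mp (hr.dvd_of_dvd_pow h))
  exact hChi L M H r hL hML hr hrM hr2 hstar htame A hA (p ^ a) hra σ hσ c hc δ hδ x hx hdiv

/-- from the form which K6 delivers: `5 ≤ r`, exponents prime to `6` -/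
theorem es1inftw_chiAt_of5 (hChi : StmtChiJDiv5) {L M : ℕ} {H : Subgroup (ZMod M)ˣ} {r p : ℕ}
    (hL : L ≠ 0) (hML : M ∣ L) (hp : p.Prime) (hp5 : 5 ≤ p) (hr : r.Prime) (hr5 : 5 ≤ r)
    (hrM : r ∣ M) (hr2 : ¬ r ^ 2 ∣ L) (hrp : r ≠ p) (hstar : IsStarStable M r H)
    (htame : IsTameAt L M r H) :
    Es1inftwChiAt L M H r p := by
  intro A hA a σ hσ c hc δ hδ x hx hdiv
  have hra : ¬ r ∣ p ^ a := fun h =>
    hrp ((Nat.prime_dvd_prime_iff_eq hr hp).mp (hr.dvd_of_dvd_pow h))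
  have hp2 : Nat.Coprime p 2 :=
    (Nat.coprime_primes hp Nat.prime_two).mpr (by omega)
  have hp3 : Nat.Coprime p 3 :=
    (Nat.coprime_primes hp Nat.prime_three).mpr (by omega)
  have hp6 : Nat.Coprime p 6 := by
    have h23 : (6 : ℕ) = 2 * 3 := by norm_num
    rw [h23]
    exact Nat.Coprime.mul_right hp2 hp3
  have hm6 : Nat.Coprime (p ^ a) 6 := Nat.Coprime.pow_left a hp6
  exact hChi L M H r hL hML hr hrM hr2 hstar htame hr5 A hA (p ^ a) hra hm6 σ hσ c hc δ hδ x hx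
    hdiv

variable {L M : ℕ} [NeZero L] [NeZero M] {H : Subgroup (ZMod M)ˣ} {p : ℕ}

/-- the relation of K6/F on `es1infJ`: `(σ − 1)(δ_c σ − 1) = 0` -/
theorem es1inftw_chiJ_at {r : ℕ} (hAt : Es1inftwChiAt L M H r p) (hML : M ∣ L) (hp : p.Prime)
    (hr : r.Prime) (hrM : r ∣ M) (hr2 : ¬ r ^ 2 ∣ L)
    (A : ValuationSubring (AlgebraicClosure ℚ))
    (hA : A.LiesOverPrime r) (σ : GalQ) (hσ : σ ∈ A.inertiaSubgroupIn ℚ)
    (x : es1infJ L M H p) :
    letI := es1infModule L M H p hML hp.pos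
    letI := es1infGalois L M H p
    es1top_dGen M (Fermat.Agent.S42.cycloChar M σ) • (σ • σ • x) - σ • x
      - es1top_dGen M (Fermat.Agent.S42.cycloChar M σ) • (σ • x) + x = 0 := by
  letI := es1infModule L M H p hML hp.pos
  letI := es1infGalois L M H p
  set c := Fermat.Agent.S42.cycloChar M σ with hc
  have hr2M : ¬ r ^ 2 ∣ M := fun h => hr2 (h.trans hML)
  have hcyc : IsCycAt M r σ c := es1inftw_isCycAt M hr hrM hr2M A hA σ hσ
  obtain ⟨δ, hδ⟩ := stmtDiamondBarH_of_diamond stmtDiamondH L M H (NeZero.ne L) hML c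
  obtain ⟨a, ha⟩ := x.2.1
  have key := hAt A hA a σ hσ c hcyc δ hδ (x : JH L M H) ha (es1inf_isDivJ hp x)
  rw [← es1Diamond_eq hδ] at key
  apply Subtype.ext
  rw [AddSubgroup.coe_add, AddSubgroup.coe_sub, AddSubgroup.coe_sub, es1infModule_dGen_smul,
    es1infModule_dGen_smul, AddSubgroup.coe_zero]
  have hcomm : σ • es1Diamond L M H c (σ • (x : JH L M H))
      = es1Diamond L M H c (σ • σ • (x : JH L M H)) :=
    es1g2_final_galois_diamond (NeZero.ne L) hML σ c _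
  rw [hcomm] at key
  exact key

/-- **(TW4), on `es1infJ`**: `σ ∗ σ ∗ x − (δ ^ e + δ ^ (−e)) • σ ∗ x + x = 0` -/
theorem es1inftw_chi_rel_aux_at {r : ℕ} (hAt : Es1inftwChiAt L M H r p) (hML : M ∣ L)
    (hp : p.Prime) (e : ℕ)
    (he : 1 ≤ e) (hE : ∀ c : (ZMod M)ˣ, c ^ (2 * e - 1) ∈ pmH H) (χ : GalQ →* (ZMod M)ˣ)
    (hr : r.Prime) (hrM : r ∣ M) (hr2 : ¬ r ^ 2 ∣ L)
    (A : ValuationSubring (AlgebraicClosure ℚ)) (hA : A.LiesOverPrime r) (σ : GalQ)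
    (hσ : σ ∈ A.inertiaSubgroupIn ℚ) (hχσ : χ σ = Fermat.Agent.S42.cycloChar M σ ^ e)
    (x : es1infJ L M H p) :
    es1inftwSmul hML hp.pos χ σ (es1inftwSmul hML hp.pos χ σ x)
      - (letI := es1infModule L M H p hML hp.pos;
          es1inftwChiPoly M e (Fermat.Agent.S42.cycloChar M σ) • es1inftwSmul hML hp.pos χ σ x)
      + x = 0 := by
  letI := es1infModule L M H p hML hp.pos
  letI := es1infGalois L M H p
  have hrel := es1inftw_chiJ_at hAt hML hp hr hrM hr2 A hA σ hσ x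
  set c := Fermat.Agent.S42.cycloChar M σ with hc
  set D : HDAlg M := es1top_dGen M c with hD
  set D' : HDAlg M := es1top_dGen M c⁻¹ with hD'
  have hP : ∀ y : es1infJ L M H p, (D ^ (2 * e - 1)) • y = y := by
    intro y
    rw [hD, ← es1inf_dGen_pow_smul hML hp.pos]
    exact es1inf_dGen_smul_of_mem hML hp.pos (hE c) y
  have hDD' : ∀ y : es1infJ L M H p, (D' * D) • y = y := by
    intro y
    rw [mul_smul, hD, hD', ← es1inf_dGen_mul_smul hML hp.pos, inv_mul_cancel,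
      es1inf_dGen_one_smul hML hp.pos]
  have hDD'e : ∀ y : es1infJ L M H p, (D' ^ e * D ^ e) • y = y := by
    intro y
    rw [← mul_pow]
    generalize e = k
    induction k generalizing y with
    | zero => rw [pow_zero, one_smul]
    | succ k ih => rw [pow_succ, mul_smul, hDD', ih]
  have hsm : ∀ y : es1infJ L M H p, es1inftwSmul hML hp.pos χ σ y = (D ^ e) • (σ • y) := by
    intro y
    rw [es1inftwSmul_def, hχσ, es1inf_dGen_pow_smul hML hp.pos]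
  have e1 : D ^ e * D ^ e = D ^ (2 * e - 1) * D := by
    rw [← pow_add, ← pow_succ]
    congr 1
    omega
  have a1 : (D ^ e) • (σ • ((D ^ e) • (σ • x))) = D • (σ • σ • x) :=
    calc (D ^ e) • (σ • ((D ^ e) • (σ • x)))
        = (D ^ e) • ((D ^ e) • (σ • σ • x)) := by
          rw [es1inf_galois_smul hML hp.pos σ (D ^ e) (σ • x)]
      _ = (D ^ e * D ^ e) • (σ • σ • x) := (mul_smul _ _ _).symm
      _ = (D ^ (2 * e - 1)) • (D • (σ • σ • x)) := by rw [e1, mul_smul]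
      _ = D • (σ • σ • x) := hP _
  have a2 : es1inftwChiPoly M e c • ((D ^ e) • (σ • x)) = D • (σ • x) + σ • x :=
    calc es1inftwChiPoly M e c • ((D ^ e) • (σ • x))
        = (D ^ e * D ^ e) • (σ • x) + (D' ^ e * D ^ e) • (σ • x) := by
          rw [es1inftwChiPoly, ← hD, ← hD', add_smul, mul_smul, mul_smul]
      _ = (D ^ (2 * e - 1)) • (D • (σ • x)) + σ • x := by rw [e1, mul_smul, hDD'e]
      _ = D • (σ • x) + σ • x := by rw [hP]
  rw [hsm, hsm, a1, a2, ← hrel]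
  abel

variable [hML : Fact (M ∣ L)] [hp : Fact p.Prime]

/-- **(TW4)** the relation of K6/F in twisted form, on `es1inftwJ`, from `Es1inftwChiAt`. -/
theorem es1inftw_chi_rel_at {r : ℕ} (hAt : Es1inftwChiAt L M H r p) (e : ℕ) (he : 1 ≤ e)
    (hE : ∀ c : (ZMod M)ˣ, c ^ (2 * e - 1) ∈ pmH H) (χ : GalQ →* (ZMod M)ˣ)
    (hr : r.Prime) (hrM : r ∣ M) (hr2 : ¬ r ^ 2 ∣ L)
    (A : ValuationSubring (AlgebraicClosure ℚ)) (hA : A.LiesOverPrime r) (σ : GalQ)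
    (hσ : σ ∈ A.inertiaSubgroupIn ℚ) (hχσ : χ σ = Fermat.Agent.S42.cycloChar M σ ^ e)
    (x : es1inftwJ L M H p χ) :
    σ • σ • x - es1inftwChiPoly M e (Fermat.Agent.S42.cycloChar M σ) • (σ • x) + x = 0 :=
  es1inftw_chi_rel_aux_at hAt hML.out hp.out e he hE χ hr hrM hr2 A hA σ hσ hχσ
    (es1inftwOf L M H p χ x)

/-- **(TW4), `Approx` form**, from `Es1inftwChiAt`: `δ ^ e + δ ^ (−e)` represents
`σ + χ_cyc(σ) σ⁻¹` on every `J[pⁿ]`, for the twisted action. -/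
theorem es1inftw_chi_approx_at {r : ℕ} (hAt : Es1inftwChiAt L M H r p) (e : ℕ) (he : 1 ≤ e)
    (hE : ∀ c : (ZMod M)ˣ, c ^ (2 * e - 1) ∈ pmH H) (χ : GalQ →* (ZMod M)ˣ)
    (hr : r.Prime) (hrM : r ∣ M) (hr2 : ¬ r ^ 2 ∣ L) (hrp : r ≠ p)
    (A : ValuationSubring (AlgebraicClosure ℚ)) (hA : A.LiesOverPrime r) (σ : GalQ)
    (hσ : σ ∈ A.inertiaSubgroupIn ℚ) (hχσ : χ σ = Fermat.Agent.S42.cycloChar M σ ^ e)
    (n : ℕ) :
    Fermat.Agent.RT.Rtk7bApprox p (es1inftwJ L M H p χ)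
      (fun n g => ((Fermat.Agent.S30.cycE p n g : ℕ) : HDAlg M)) n σ
      (es1inftwChiPoly M e (Fermat.Agent.S42.cycloChar M σ)) := by
  intro x hx
  have hx' : p ^ n • (σ⁻¹ • x) = 0 := Fermat.Agent.RT.rtk7b_tors_gal n σ⁻¹ hx
  have hcyc : Fermat.Agent.S30.cycE p n σ ≡ 1 [MOD p ^ n] :=
    Fermat.Agent.S30.cycE_of_eq_one p n σ
      (Fermat.Agent.S30.padicCyclo_inertia p r hr hrp A hA σ hσ)
  have h1 : ((Fermat.Agent.S30.cycE p n σ : ℕ) : HDAlg M) • (σ⁻¹ • x) = σ⁻¹ • x := by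
    rw [Nat.cast_smul_eq_nsmul, Fermat.Agent.S31.nsmul_eq_of_modEq hcyc hx', one_smul]
  have hrel := es1inftw_chi_rel_at hAt e he hE χ hr hrM hr2 A hA σ hσ hχσ (σ⁻¹ • x)
  rw [smul_inv_smul] at hrel
  show σ • x + ((Fermat.Agent.S30.cycE p n σ : ℕ) : HDAlg M) • (σ⁻¹ • x) = _
  rw [h1]
  have h2 : σ • x + σ⁻¹ • x
      = (σ • x - es1inftwChiPoly M e (Fermat.Agent.S42.cycloChar M σ) • x + σ⁻¹ • x)
        + es1inftwChiPoly M e (Fermat.Agent.S42.cycloChar M σ) • x := by abel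
  rw [h2, hrel, zero_add]

/-- **(TW4)** from `StmtChiJDiv5` (the form which K6 delivers), `5 ≤ r`, `5 ≤ p`. -/
theorem es1inftw_chi_rel5 (hChi : StmtChiJDiv5) (hp5 : 5 ≤ p) (e : ℕ) (he : 1 ≤ e)
    (hE : ∀ c : (ZMod M)ˣ, c ^ (2 * e - 1) ∈ pmH H) (χ : GalQ →* (ZMod M)ˣ)
    {r : ℕ} (hr : r.Prime) (hr5 : 5 ≤ r) (hrM : r ∣ M) (hr2 : ¬ r ^ 2 ∣ L) (hrp : r ≠ p)
    (hstar : IsStarStable M r H) (htame : IsTameAt L M r H)
    (A : ValuationSubring (AlgebraicClosure ℚ)) (hA : A.LiesOverPrime r) (σ : GalQ)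
    (hσ : σ ∈ A.inertiaSubgroupIn ℚ) (hχσ : χ σ = Fermat.Agent.S42.cycloChar M σ ^ e)
    (x : es1inftwJ L M H p χ) :
    σ • σ • x - es1inftwChiPoly M e (Fermat.Agent.S42.cycloChar M σ) • (σ • x) + x = 0 :=
  es1inftw_chi_rel_at
    (es1inftw_chiAt_of5 hChi (NeZero.ne L) hML.out hp.out hp5 hr hr5 hrM hr2 hrp hstar htame)
    e he hE χ hr hrM hr2 A hA σ hσ hχσ x

/-- **(TW4), `Approx` form**, from `StmtChiJDiv5` (the form which K6 delivers), `5 ≤ r`,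
`5 ≤ p`. -/
theorem es1inftw_chi_approx5 (hChi : StmtChiJDiv5) (hp5 : 5 ≤ p) (e : ℕ) (he : 1 ≤ e)
    (hE : ∀ c : (ZMod M)ˣ, c ^ (2 * e - 1) ∈ pmH H) (χ : GalQ →* (ZMod M)ˣ)
    {r : ℕ} (hr : r.Prime) (hr5 : 5 ≤ r) (hrM : r ∣ M) (hr2 : ¬ r ^ 2 ∣ L) (hrp : r ≠ p)
    (hstar : IsStarStable M r H) (htame : IsTameAt L M r H)
    (A : ValuationSubring (AlgebraicClosure ℚ)) (hA : A.LiesOverPrime r) (σ : GalQ)
    (hσ : σ ∈ A.inertiaSubgroupIn ℚ) (hχσ : χ σ = Fermat.Agent.S42.cycloChar M σ ^ e)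
    (n : ℕ) :
    Fermat.Agent.RT.Rtk7bApprox p (es1inftwJ L M H p χ)
      (fun n g => ((Fermat.Agent.S30.cycE p n g : ℕ) : HDAlg M)) n σ
      (es1inftwChiPoly M e (Fermat.Agent.S42.cycloChar M σ)) :=
  es1inftw_chi_approx_at
    (es1inftw_chiAt_of5 hChi (NeZero.ne L) hML.out hp.out hp5 hr hr5 hrM hr2 hrp hstar htame)
    e he hE χ hr hrM hr2 hrp A hA σ hσ hχσ n

end Fermat.Agent.ES1
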