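import Fermat.Agent.ES1.Inf.PkgFaith
import Fermat.Agent.ES1.TopCyclo

/-!
# K7-TW (TW1) — the twisted `p`-adic package: the type synonym `es1inftwJ` (helper38)

`χ : G_ℚ →* (ℤ/M)ˣ` a character.  `es1inftwJ L M H p χ` is `es1infJ L M H p` (the `p`-divisible
part of the `p`-power torsion of `J_H(L; M)(ℚ̄)`) with

* the SAME module structure over `HDAlg M = ℤ[T_ℓ, δ_c]` (instance, `[Fact (M ∣ L)]`,
  `[Fact p.Prime]`);
* the TWISTED Galois action `σ ∗ x = δ_{χ σ} (σ x)` (instance `es1inftwGalois`); on the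
  underlying points of `JH L M H` it is helper34's action of `RT.K7F.JHtw`
  (`es1inftw_coe_smul`).

Also: `es1inf_dGen_smul_of_mem` (the diamonds of classes in `±H` act trivially),
`es1inf_dGen_pow_smul` (`δ_{cᵏ} = δ_cᵏ`).
-/

set_option autoImplicit false
set_option linter.unusedSectionVars false
set_option linter.style.haveILetI false

noncomputable section

namespace Fermat.Agent.ES1

open ModularCurve AlgebraicCurve CongruenceSubgroup ModularCurve.Period
open Fermat.Agent.ES Fermat.Agent.S48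
open scoped MatrixGroups

variable {L M : ℕ} [NeZero L] [NeZero M] {H : Subgroup (ZMod M)ˣ} {p : ℕ}

/-! ## Diamonds on `es1infJ` -/

/-- the diamonds of classes in `±H` act trivially on `es1infJ` -/
theorem es1inf_dGen_smul_of_mem (hML : M ∣ L) (hp : 0 < p) {c : (ZMod M)ˣ} (hc : c ∈ pmH H)
    (x : es1infJ L M H p) :
    (letI := es1infModule L M H p hML hp; es1top_dGen M c • x) = x := by
  letI := es1infModule L M H p hML hp
  apply es1infMu_injective hML hp
  rw [es1infMu_smul hML hp,
    es1infHomEval_dGen hML c _ (es1g1opSigma hML c) (es1g1opSigma_memL hML c)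
      (es1g1opSigma_memM hML c) (es1g1opSigma_diam hML c)]
  have hσ : es1g1opSigma hML c ∈ gammaH L M H :=
    ⟨es1g1opSigma_memL hML c, es1g1opSigma_memM hML c, by
      rw [es1g1opSigma_diam hML c]; exact hc⟩
  exact diamGrp_of_mem L M H hσ _

theorem es1inf_dGen_one_smul (hML : M ∣ L) (hp : 0 < p) (x : es1infJ L M H p) :
    (letI := es1infModule L M H p hML hp; es1top_dGen M 1 • x) = x :=
  es1inf_dGen_smul_of_mem hML hp (one_mem _) x

theorem es1inf_dGen_mul_smul (hML : M ∣ L) (hp : 0 < p) (c d : (ZMod M)ˣ)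
    (x : es1infJ L M H p) :
    (letI := es1infModule L M H p hML hp; es1top_dGen M (c * d) • x)
      = (letI := es1infModule L M H p hML hp; es1top_dGen M c • es1top_dGen M d • x) := by
  letI := es1infModule L M H p hML hp
  letI := es1infGalois L M H p
  exact (es1inf_dataInf hML hp).diamond_mul c d x (es1inf_isPPowerTorsion x)

/-- `δ_{cᵏ} = δ_cᵏ` on `es1infJ` -/
theorem es1inf_dGen_pow_smul (hML : M ∣ L) (hp : 0 < p) (c : (ZMod M)ˣ) (k : ℕ)
    (x : es1infJ L M H p) :
    (letI := es1infModule L M H p hML hp; es1top_dGen M (c ^ k) • x)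
      = (letI := es1infModule L M H p hML hp; (es1top_dGen M c ^ k) • x) := by
  letI := es1infModule L M H p hML hp
  induction k generalizing x with
  | zero => rw [pow_zero, pow_zero, one_smul, es1inf_dGen_one_smul hML hp]
  | succ k ih =>
      rw [pow_succ, pow_succ, es1inf_dGen_mul_smul hML hp, mul_smul, ih]

/-- Galois commutes with the polynomials (restated) -/
theorem es1inf_galois_smul (hML : M ∣ L) (hp : 0 < p) (σ : GalQ) (t : HDAlg M)
    (x : es1infJ L M H p) :
    (letI := es1infModule L M H p hML hp; letI := es1infGalois L M H p; σ • t • x)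
      = (letI := es1infModule L M H p hML hp; letI := es1infGalois L M H p; t • σ • x) :=
  es1inf_smul_comm hML hp σ t x

/-! ## The twisted action on `es1infJ` -/

/-- the twisted action on `es1infJ`: `σ ∗ x = δ_{χ σ} (σ x)` -/
def es1inftwSmul (hML : M ∣ L) (hp : 0 < p) (χ : GalQ →* (ZMod M)ˣ) (σ : GalQ)
    (x : es1infJ L M H p) : es1infJ L M H p :=
  letI := es1infModule L M H p hML hp
  letI := es1infGalois L M H p
  es1top_dGen M (χ σ) • (σ • x)

theorem es1inftwSmul_def (hML : M ∣ L) (hp : 0 < p) (χ : GalQ →* (ZMod M)ˣ) (σ : GalQ)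
    (x : es1infJ L M H p) :
    es1inftwSmul hML hp χ σ x
      = (letI := es1infModule L M H p hML hp; letI := es1infGalois L M H p;
          es1top_dGen M (χ σ) • (σ • x)) := rfl

/-- on the points of `JH L M H` the twisted action is `es1Diamond (χ σ) (σ • x)` -/
theorem es1inftwSmul_coe (hML : M ∣ L) (hp : 0 < p) (χ : GalQ →* (ZMod M)ˣ) (σ : GalQ)
    (x : es1infJ L M H p) :
    ((es1inftwSmul hML hp χ σ x : es1infJ L M H p) : JH L M H)
      = G2.es1Diamond L M H (χ σ) (σ • (x : JH L M H)) := by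
  rw [es1inftwSmul_def, es1infModule_dGen_smul]
  rfl

theorem es1inftwSmul_one (hML : M ∣ L) (hp : 0 < p) (χ : GalQ →* (ZMod M)ˣ)
    (x : es1infJ L M H p) : es1inftwSmul hML hp χ 1 x = x := by
  letI := es1infModule L M H p hML hp
  letI := es1infGalois L M H p
  rw [es1inftwSmul_def, map_one, one_smul, es1inf_dGen_one_smul hML hp]

theorem es1inftwSmul_mul (hML : M ∣ L) (hp : 0 < p) (χ : GalQ →* (ZMod M)ˣ) (σ τ : GalQ)
    (x : es1infJ L M H p) :
    es1inftwSmul hML hp χ (σ * τ) x = es1inftwSmul hML hp χ σ (es1inftwSmul hML hp χ τ x) := by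
  letI := es1infModule L M H p hML hp
  letI := es1infGalois L M H p
  rw [es1inftwSmul_def, es1inftwSmul_def, es1inftwSmul_def, map_mul, mul_smul,
    es1inf_dGen_mul_smul hML hp, es1inf_galois_smul hML hp σ]

theorem es1inftwSmul_zero (hML : M ∣ L) (hp : 0 < p) (χ : GalQ →* (ZMod M)ˣ) (σ : GalQ) :
    es1inftwSmul hML hp χ σ (0 : es1infJ L M H p) = 0 := by
  letI := es1infModule L M H p hML hp
  letI := es1infGalois L M H p
  rw [es1inftwSmul_def, smul_zero, smul_zero]

theorem es1inftwSmul_add (hML : M ∣ L) (hp : 0 < p) (χ : GalQ →* (ZMod M)ˣ) (σ : GalQ)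
    (x y : es1infJ L M H p) :
    es1inftwSmul hML hp χ σ (x + y) = es1inftwSmul hML hp χ σ x + es1inftwSmul hML hp χ σ y := by
  letI := es1infModule L M H p hML hp
  letI := es1infGalois L M H p
  rw [es1inftwSmul_def, es1inftwSmul_def, es1inftwSmul_def, smul_add, smul_add]

/-- the twisted action commutes with the polynomials -/
theorem es1inftwSmul_smul (hML : M ∣ L) (hp : 0 < p) (χ : GalQ →* (ZMod M)ˣ) (σ : GalQ)
    (t : HDAlg M) (x : es1infJ L M H p) :
    es1inftwSmul hML hp χ σ (letI := es1infModule L M H p hML hp; t • x)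
      = (letI := es1infModule L M H p hML hp; t • es1inftwSmul hML hp χ σ x) := by
  letI := es1infModule L M H p hML hp
  letI := es1infGalois L M H p
  rw [es1inftwSmul_def, es1inftwSmul_def, es1inf_galois_smul hML hp σ, smul_smul, smul_smul,
    mul_comm]

/-- where `χ` is trivial the twisted action is the plain one -/
theorem es1inftwSmul_of_one (hML : M ∣ L) (hp : 0 < p) (χ : GalQ →* (ZMod M)ˣ) {σ : GalQ}
    (hσ : χ σ = 1) (x : es1infJ L M H p) :
    es1inftwSmul hML hp χ σ x = (letI := es1infGalois L M H p; σ • x) := by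
  rw [es1inftwSmul_def, hσ, es1inf_dGen_one_smul hML hp]

/-! ## The type synonym -/

/-- **`es1infJ L M H p` with the `χ`-twisted Galois action** (a type synonym). -/
def es1inftwJ (L M : ℕ) (H : Subgroup (ZMod M)ˣ) (p : ℕ) (_χ : GalQ →* (ZMod M)ˣ) : Type :=
  es1infJ L M H p

variable (L M H p) (χ : GalQ →* (ZMod M)ˣ)

instance es1inftwAddCommGroup : AddCommGroup (es1inftwJ L M H p χ) :=
  inferInstanceAs (AddCommGroup (es1infJ L M H p))

/-- the identity `es1infJ → es1inftwJ` -/
def es1inftwTo : es1infJ L M H p ≃+ es1inftwJ L M H p χ := AddEquiv.refl _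

/-- the identity `es1inftwJ → es1infJ` -/
def es1inftwOf : es1inftwJ L M H p χ ≃+ es1infJ L M H p := AddEquiv.refl _

instance es1inftwModule [hML : Fact (M ∣ L)] [hp : Fact p.Prime] :
    Module (HDAlg M) (es1inftwJ L M H p χ) :=
  es1infModule L M H p hML.out hp.out.pos

instance es1inftwGalois [hML : Fact (M ∣ L)] [hp : Fact p.Prime] :
    DistribMulAction GalQ (es1inftwJ L M H p χ) where
  smul σ x := es1inftwSmul hML.out hp.out.pos χ σ x
  one_smul x := es1inftwSmul_one hML.out hp.out.pos χ x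
  mul_smul σ τ x := es1inftwSmul_mul hML.out hp.out.pos χ σ τ x
  smul_zero σ := es1inftwSmul_zero hML.out hp.out.pos χ σ
  smul_add σ x y := es1inftwSmul_add hML.out hp.out.pos χ σ x y

variable {L M H p χ}

theorem es1inftw_smul_def [hML : Fact (M ∣ L)] [hp : Fact p.Prime] (σ : GalQ)
    (x : es1inftwJ L M H p χ) :
    σ • x = es1inftwTo L M H p χ
      (es1inftwSmul hML.out hp.out.pos χ σ (es1inftwOf L M H p χ x)) := rfl

theorem es1inftw_hecke_smul_def [hML : Fact (M ∣ L)] [hp : Fact p.Prime] (t : HDAlg M)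
    (x : es1inftwJ L M H p χ) :
    t • x = es1inftwTo L M H p χ
      (letI := es1infModule L M H p hML.out hp.out.pos; t • es1inftwOf L M H p χ x) := rfl

theorem es1inftw_nsmul_def (k : ℕ) (x : es1inftwJ L M H p χ) :
    k • x = es1inftwTo L M H p χ (k • es1inftwOf L M H p χ x) := rfl

/-- the points of `JH L M H` under an element of `es1inftwJ` -/
def es1inftwCoe (x : es1inftwJ L M H p χ) : JH L M H := ((es1inftwOf L M H p χ x : es1infJ L M H p) : JH L M H)

theorem es1inftwCoe_injective : Function.Injective (es1inftwCoe (L := L) (M := M) (H := H)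
    (p := p) (χ := χ)) := fun _ _ h => Subtype.ext h

theorem es1inftwCoe_add (x y : es1inftwJ L M H p χ) :
    es1inftwCoe (x + y) = es1inftwCoe x + es1inftwCoe y := rfl

theorem es1inftwCoe_zero : es1inftwCoe (0 : es1inftwJ L M H p χ) = 0 := rfl

theorem es1inftwCoe_nsmul (k : ℕ) (x : es1inftwJ L M H p χ) :
    es1inftwCoe (k • x) = k • es1inftwCoe x :=
  es1inf_coe_nsmul k (es1inftwOf L M H p χ x)

/-- on the points of `JH L M H` the twisted action is `es1Diamond (χ σ) (σ • x)` -/
theorem es1inftwCoe_smul [hML : Fact (M ∣ L)] [hp : Fact p.Prime] (σ : GalQ)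
    (x : es1inftwJ L M H p χ) :
    es1inftwCoe (σ • x) = G2.es1Diamond L M H (χ σ) (σ • es1inftwCoe x) :=
  es1inftwSmul_coe hML.out hp.out.pos χ σ (es1inftwOf L M H p χ x)

theorem es1inftw_pow_smul_eq_zero_iff (n : ℕ) (x : es1inftwJ L M H p χ) :
    p ^ n • x = 0 ↔ p ^ n • es1inftwCoe x = 0 :=
  es1inf_smul_eq_zero_iff (p ^ n) (es1inftwOf L M H p χ x)

end Fermat.Agent.ES1
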