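import Fermat.Agent.ES1.Inf.TwPkg
import Fermat.Agent.RT.K7F.Tw

/-!
# K7-TW (TW3) — domination of the twisted package by `J_H^{tw}[pⁿ]` (helper38)

`es1inftwJ L M H p χ` (the `p`-divisible part, twisted action) is a Galois-stable subgroup of
helper34's `RT.K7F.JHtw L M H χ`:

* `es1inftwIncl χ : es1inftwJ L M H p χ →+ JHtw L M H χ`, injective, `G_ℚ`-equivariant;
* **`es1inftw_dom`** : an element `e ∈ ℤ[G_ℚ]` which kills `JHtw[pⁿ]` kills the `pⁿ`-torsion of
  `es1inftwJ`;
* `es1inftw_hmodel` : the hypothesis `hmodel` of `RT.rtk7f_ann_of_family` from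
  `RT.K7F.StmtFlatH` and `RT.K7F.StmtFinH`.
-/

set_option autoImplicit false
set_option linter.unusedSectionVars false
set_option linter.style.haveILetI false

noncomputable section

namespace Fermat.Agent.ES1

open ModularCurve AlgebraicCurve
open Fermat.Agent.ES Fermat.Agent.S48 Fermat.Agent.RT.K7F Fermat.Agent.W1

variable {L M : ℕ} [NeZero L] [NeZero M] {H : Subgroup (ZMod M)ˣ} {p : ℕ}
  (χ : GalQ →* (ZMod M)ˣ)

/-- the inclusion of the twisted `p`-divisible part in `J_H^{tw}` -/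
def es1inftwIncl : es1inftwJ L M H p χ →+ JHtw L M H χ where
  toFun x := toTw L M H χ (es1inftwCoe x)
  map_zero' := rfl
  map_add' _ _ := rfl

theorem es1inftwIncl_apply (x : es1inftwJ L M H p χ) :
    ofTw L M H χ (es1inftwIncl χ x) = es1inftwCoe x := rfl

theorem es1inftwIncl_injective :
    Function.Injective (es1inftwIncl (L := L) (H := H) (p := p) χ) :=
  fun _ _ h => es1inftwCoe_injective h

/-- the inclusion is `G_ℚ`-equivariant -/
theorem es1inftwIncl_smul [hML : Fact (M ∣ L)] [hp : Fact p.Prime] (σ : GalQ)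
    (x : es1inftwJ L M H p χ) : es1inftwIncl χ (σ • x) = σ • es1inftwIncl χ x := by
  apply (ofTw L M H χ).injective
  rw [es1inftwIncl_apply, es1inftwCoe_smul, tw_smul_eq L M H χ (NeZero.ne L) hML.out,
    es1inftwIncl_apply]

/-- **(TW3) domination**: an element of `ℤ[G_ℚ]` killing `J_H^{tw}[pⁿ]` kills the
`pⁿ`-torsion of the twisted `p`-divisible part. -/
theorem es1inftw_dom [hML : Fact (M ∣ L)] [hp : Fact p.Prime] (n : ℕ) (e : GalQ →₀ ℤ)
    (h : ∀ x : Submodule.torsionBy ℤ (JHtw L M H χ) ((p ^ n : ℕ) : ℤ),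
      (e.sum fun g z => z • torsAct (JHtw L M H χ) ((p ^ n : ℕ) : ℤ) g x) = 0)
    (x : es1inftwJ L M H p χ) (hx : p ^ n • x = 0) :
    (e.sum fun g z => z • g • x) = 0 := by
  apply es1inftwIncl_injective χ
  have hX : es1inftwIncl χ x ∈ Submodule.torsionBy ℤ (JHtw L M H χ) ((p ^ n : ℕ) : ℤ) := by
    rw [Submodule.mem_torsionBy_iff, natCast_zsmul, ← map_nsmul, hx, map_zero]
  have h1 := congrArg
    (fun w : Submodule.torsionBy ℤ (JHtw L M H χ) ((p ^ n : ℕ) : ℤ) => (w : JHtw L M H χ))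
    (h ⟨es1inftwIncl χ x, hX⟩)
  simp only [Finsupp.sum, Submodule.coe_sum, Submodule.coe_zero, Submodule.coe_smul] at h1
  rw [map_zero, Finsupp.sum, map_sum, ← h1]
  refine Finset.sum_congr rfl fun g _ => ?_
  rw [map_zsmul, es1inftwIncl_smul]
  rfl

/-- the hypothesis `hmodel` of `RT.rtk7f_ann_of_family`, from K7-FLAT -/
theorem es1inftw_hmodel [hML : Fact (M ∣ L)] [hp : Fact p.Prime] (hflat : StmtFlatH)
    (hfin : StmtFinH) (hlev : K7FLevel L M H p)
    (A : ValuationSubring (AlgebraicClosure ℚ))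
    (hA : A.LiesOverPrime p) (hχ : IsTwistChar A χ) (n : ℕ) :
    ∃ (X : Type) (_ : AddCommGroup X) (_ : Finite X) (act : GalQ → X → X),
      (∀ σ x x', act σ (x + x') = act σ x + act σ x') ∧
      (∀ σ τ x, act (σ * τ) x = act σ (act τ x)) ∧
      HasFiniteFlatModel (GaloisRep.ratLocalizedAt p) X act ∧
      ∀ e : GalQ →₀ ℤ, (∀ x : X, (e.sum fun g z => z • act g x) = 0) →
        ∀ x : es1inftwJ L M H p χ, p ^ n • x = 0 → (e.sum fun g z => z • g • x) = 0 := by
  refine ⟨Submodule.torsionBy ℤ (JHtw L M H χ) ((p ^ n : ℕ) : ℤ), inferInstance,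
    (hfin L M H p hlev A hA χ hχ n).1, torsAct (JHtw L M H χ) ((p ^ n : ℕ) : ℤ), ?_, ?_,
    hflat L M H p hlev A hA χ hχ n, fun e he x hx => es1inftw_dom χ n e he x hx⟩
  · intro σ x x'
    apply Subtype.ext
    show σ • ((x + x' : Submodule.torsionBy ℤ (JHtw L M H χ) ((p ^ n : ℕ) : ℤ)) : JHtw L M H χ)
      = σ • (x : JHtw L M H χ) + σ • (x' : JHtw L M H χ)
    rw [Submodule.coe_add, smul_add]
  · intro σ τ x
    apply Subtype.ext
    show (σ * τ) • (x : JHtw L M H χ) = σ • τ • (x : JHtw L M H χ)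
    rw [mul_smul]

/-- `χ = c_M ^ e` (helper81's `k7ftwChar`) satisfies the hypotheses of the twisted package -/
theorem es1inftw_char_k7f (p e : ℕ) (hML : M ∣ L) : Es1inftwChar L M p e (k7ftwChar M e) :=
  es1inftw_char_cyclo p e hML

end Fermat.Agent.ES1
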