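import Fermat.Agent.ES1.Inf.TwDefs
import Fermat.Agent.RT.K7.PlanInst

/-!
# K7-TW (TW2), (TW5) — the twisted `p`-adic package `Rtk7bPkg` (helper38)

Setting: `M ∣ L`, `p` prime, `H ≤ (ℤ/M)ˣ`, `e ≥ 1` with `c ^ (2e − 1) ∈ ±H` for all
`c ∈ (ℤ/M)ˣ`, `χ : G_ℚ →* (ℤ/M)ˣ` a character which is `c_M ^ e` (`c_M` the cyclotomic character
modulo `M`) in the sense of `Es1inftwChar`.

* `Es1inftwChar L M p e χ` : `χ(Frob_ℓ) = ⟨ℓ⟩ ^ e` and `χ(I_ℓ) = 1` for `ℓ ∤ L p`, open kernel;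
  `es1inftw_char_cyclo` : it holds for `χ = (S42.cycloChar M) ^ e`;
* `es1inftwTr M e ℓ = (δ_ℓ) ^ (e − 1) · T_ℓ` (`ℓ` prime, prime to `M`; `0` otherwise);
* **`es1inftw_pkg`** : `RT.Rtk7bPkg p L (es1inftwJ L M H p χ) (es1inftwTr M e)`;
* `es1inftw_finite`, `es1inftw_faith`, `es1inftw_faith_int` : (TW5), finiteness and faithfulness
  for the twisted module (the module structure is unchanged).
-/

set_option autoImplicit false
set_option linter.unusedSectionVars false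
set_option linter.style.haveILetI false

noncomputable section

namespace Fermat.Agent.ES1

open ModularCurve AlgebraicCurve CongruenceSubgroup ModularCurve.Period
open Fermat.Agent.ES Fermat.Agent.S48
open scoped MatrixGroups

/-- **the hypotheses on the character of the twist**: `χ = c_M ^ e` on Frobenius elements and
inertia groups at the primes `ℓ ∤ L p`, and `χ` has open kernel. -/
structure Es1inftwChar (L M p e : ℕ) (χ : GalQ →* (ZMod M)ˣ) : Prop where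
  frob : ∀ ℓ : ℕ, ℓ.Prime → ¬ ℓ ∣ L * p →
    ∀ A : ValuationSubring (AlgebraicClosure ℚ), A.LiesOverPrime ℓ →
      ∀ τ : GalQ, A.IsFrobeniusAt τ ℓ →
        ∃ c : (ZMod M)ˣ, (c : ZMod M) = (ℓ : ZMod M) ∧ χ τ = c ^ e
  unram : ∀ ℓ : ℕ, ℓ.Prime → ¬ ℓ ∣ L * p →
    ∀ A : ValuationSubring (AlgebraicClosure ℚ), A.LiesOverPrime ℓ →
      ∀ σ ∈ A.inertiaSubgroupIn ℚ, χ σ = 1
  level : ∃ E : IntermediateField ℚ (AlgebraicClosure ℚ), FiniteDimensional ℚ E ∧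
    ∀ σ : GalQ, (∀ a ∈ E, σ a = a) → χ σ = 1

theorem es1inftw_not_dvd {L M p ℓ : ℕ} (hML : M ∣ L) (h : ¬ ℓ ∣ L * p) : ¬ ℓ ∣ M :=
  fun h' => h ((h'.trans hML).mul_right p)

/-- `χ = c_M ^ e`, `c_M` the cyclotomic character modulo `M` -/
theorem es1inftw_char_cyclo {L M : ℕ} [NeZero M] (p e : ℕ) (hML : M ∣ L) :
    Es1inftwChar L M p e ((Fermat.Agent.S42.cycloChar M) ^ e) where
  frob := fun ℓ hℓ hgood A hA τ hτ =>
    ⟨Fermat.Agent.S42.cycloChar M τ,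
      es1top_cycloChar_frob M ℓ hℓ (es1inftw_not_dvd hML hgood) A hA τ hτ, rfl⟩
  unram := fun ℓ hℓ hgood A hA σ hσ => by
    rw [MonoidHom.pow_apply,
      es1top_cycloChar_inertia M ℓ hℓ (es1inftw_not_dvd hML hgood) A hA σ hσ, one_pow]
  level := by
    obtain ⟨E, hE, h⟩ := es1top_cycloChar_level M
    exact ⟨E, hE, fun σ hσ => by rw [MonoidHom.pow_apply, h σ hσ, one_pow]⟩

open Classical in
/-- the twisted Hecke operators `Tr ℓ = δ_ℓ ^ (e − 1) · T_ℓ` -/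
def es1inftwTr (M e : ℕ) (ℓ : ℕ) : HDAlg M :=
  if h : ℓ.Prime ∧ Nat.Coprime ℓ M then
    es1top_dGen M (ZMod.unitOfCoprime ℓ h.2) ^ (e - 1) * es1top_tGen M ⟨ℓ, h.1⟩
  else 0

theorem es1inftwTr_eq (M e : ℕ) {ℓ : ℕ} (hℓ : ℓ.Prime) (hc : Nat.Coprime ℓ M) :
    es1inftwTr M e ℓ
      = es1top_dGen M (ZMod.unitOfCoprime ℓ hc) ^ (e - 1) * es1top_tGen M ⟨ℓ, hℓ⟩ := by
  classical
  rw [es1inftwTr, dif_pos ⟨hℓ, hc⟩]

variable {L M : ℕ} [NeZero L] [NeZero M] {H : Subgroup (ZMod M)ˣ} {p : ℕ}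

/-- the twisted Eichler–Shimura relation, on `es1infJ` -/
theorem es1inftw_frob_aux (hML : M ∣ L) (hp : 0 < p) (e : ℕ) (he : 1 ≤ e)
    (hE : ∀ c : (ZMod M)ˣ, c ^ (2 * e - 1) ∈ pmH H) (χ : GalQ →* (ZMod M)ˣ)
    (ℓ : ℕ) (hℓ : ℓ.Prime) (hgood : ¬ ℓ ∣ L * p)
    (A : ValuationSubring (AlgebraicClosure ℚ)) (hA : A.LiesOverPrime ℓ) (τ : GalQ)
    (hτ : A.IsFrobeniusAt τ ℓ) (c : (ZMod M)ˣ) (hc : (c : ZMod M) = (ℓ : ZMod M))
    (hχ : χ τ = c ^ e) (x : es1infJ L M H p) :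
    es1inftwSmul hML hp χ τ (es1inftwSmul hML hp χ τ x)
      - (letI := es1infModule L M H p hML hp; es1inftwTr M e ℓ • es1inftwSmul hML hp χ τ x)
      + ℓ • x = 0 := by
  letI := es1infModule L M H p hML hp
  letI := es1infGalois L M H p
  have hcop : Nat.Coprime ℓ M :=
    (Nat.Prime.coprime_iff_not_dvd hℓ).mpr (es1inftw_not_dvd hML hgood)
  have hcu : ZMod.unitOfCoprime ℓ hcop = c := Units.ext (by rw [ZMod.coe_unitOfCoprime, hc])
  have hfrob := (es1inf_dataInf (H := H) hML hp).frob ℓ hℓ hgood c hc A hA τ hτ x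
    (es1inf_isPPowerTorsion x)
  set D : HDAlg M := es1top_dGen M c with hD
  set T : HDAlg M := es1top_tGen M ⟨ℓ, hℓ⟩ with hT
  have hP : ∀ y : es1infJ L M H p, (D ^ (2 * e - 1)) • y = y := by
    intro y
    rw [hD, ← es1inf_dGen_pow_smul hML hp]
    exact es1inf_dGen_smul_of_mem hML hp (hE c) y
  have hsm : ∀ y : es1infJ L M H p, es1inftwSmul hML hp χ τ y = (D ^ e) • (τ • y) := by
    intro y
    rw [es1inftwSmul_def, hχ, es1inf_dGen_pow_smul hML hp]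
  rw [hsm, hsm, es1inftwTr_eq M e hℓ hcop, hcu, ← hD, ← hT,
    es1inf_galois_smul hML hp τ (D ^ e) (τ • x)]
  have e1 : D ^ e * D ^ e = D ^ (2 * e - 1) * D := by
    rw [← pow_add, ← pow_succ]
    congr 1
    omega
  have e2 : D ^ (e - 1) * T * D ^ e = D ^ (2 * e - 1) * T := by
    have : D ^ (2 * e - 1) = D ^ (e - 1) * D ^ e := by
      rw [← pow_add]
      congr 1
      omega
    rw [this]
    ring
  have a1 : (D ^ e) • (D ^ e) • (τ • τ • x) = (D ^ (2 * e - 1)) • (D • (τ • τ • x)) :=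
    calc (D ^ e) • (D ^ e) • (τ • τ • x) = (D ^ e * D ^ e) • (τ • τ • x) :=
          (mul_smul _ _ _).symm
      _ = (D ^ (2 * e - 1) * D) • (τ • τ • x) := by rw [e1]
      _ = (D ^ (2 * e - 1)) • (D • (τ • τ • x)) := mul_smul _ _ _
  have a2 : (D ^ (e - 1) * T) • (D ^ e) • (τ • x) = (D ^ (2 * e - 1)) • (T • (τ • x)) :=
    calc (D ^ (e - 1) * T) • (D ^ e) • (τ • x) = (D ^ (e - 1) * T * D ^ e) • (τ • x) :=
          (mul_smul _ _ _).symm
      _ = (D ^ (2 * e - 1) * T) • (τ • x) := by rw [e2]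
      _ = (D ^ (2 * e - 1)) • (T • (τ • x)) := mul_smul _ _ _
  have a3 : ℓ • x = (D ^ (2 * e - 1)) • (ℓ • x) := by
    rw [smul_comm (D ^ (2 * e - 1)) ℓ x, hP x]
  rw [a1, a2, a3, ← smul_sub, ← smul_add, hfrob, smul_zero]

/-- a common field of definition of `J[pⁿ]`, for the twisted action -/
theorem es1inftw_level_aux (hML : M ∣ L) (hp : 0 < p) (χ : GalQ →* (ZMod M)ˣ)
    (hχ : ∃ E : IntermediateField ℚ (AlgebraicClosure ℚ), FiniteDimensional ℚ E ∧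
      ∀ σ : GalQ, (∀ a ∈ E, σ a = a) → χ σ = 1) (n : ℕ) :
    ∃ E : IntermediateField ℚ (AlgebraicClosure ℚ), FiniteDimensional ℚ E ∧
      ∀ σ : GalQ, (∀ a ∈ E, σ a = a) → ∀ x : es1infJ L M H p, p ^ n • x = 0 →
        es1inftwSmul hML hp χ σ x = x := by
  classical
  letI := es1infModule L M H p hML hp
  letI := es1infGalois L M H p
  have hJ := es1inf_dataInf (H := H) hML hp
  have hfin := hJ.finite n
  obtain ⟨Eχ, hEχfin, hEχ⟩ := hχ
  have hex : ∀ x : es1infJ L M H p, ∃ E : IntermediateField ℚ (AlgebraicClosure ℚ),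
      FiniteDimensional ℚ E ∧ ∀ σ : GalQ, (∀ a ∈ E, σ a = a) → σ • x = x :=
    fun x => hJ.finite_level x (es1inf_isPPowerTorsion x)
  choose Ef hEf using hex
  haveI : FiniteDimensional ℚ (⨆ x ∈ hfin.toFinset, Ef x : IntermediateField ℚ _) := by
    apply IntermediateField.finiteDimensional_iSup_of_finset'
    intro x _
    exact (hEf x).1
  refine ⟨Eχ ⊔ ⨆ x ∈ hfin.toFinset, Ef x, inferInstance, ?_⟩
  intro σ hσ x hx
  have h1 : χ σ = 1 := hEχ σ (fun a ha => hσ a ((le_sup_left : Eχ ≤ _) ha))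
  rw [es1inftwSmul_of_one hML hp χ h1]
  apply (hEf x).2 σ
  intro a ha
  apply hσ
  have hle : Ef x ≤ ⨆ y ∈ hfin.toFinset, Ef y :=
    le_iSup₂_of_le x ((Set.Finite.mem_toFinset hfin).mpr hx) le_rfl
  exact (le_sup_right : _ ≤ Eχ ⊔ ⨆ y ∈ hfin.toFinset, Ef y) (hle ha)

/-- **(TW2) The twisted `p`-adic package** for `J_H(L; M)`. -/
theorem es1inftw_pkg [hML : Fact (M ∣ L)] [hp : Fact p.Prime] (e : ℕ) (he : 1 ≤ e)
    (hE : ∀ c : (ZMod M)ˣ, c ^ (2 * e - 1) ∈ pmH H) (χ : GalQ →* (ZMod M)ˣ)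
    (hχ : Es1inftwChar L M p e χ) :
    Fermat.Agent.RT.Rtk7bPkg p L (es1inftwJ L M H p χ) (es1inftwTr M e) where
  smul_comm := fun σ t x => es1inftwSmul_smul hML.out hp.out.pos χ σ t x
  finite_level := fun n => by
    obtain ⟨E, hE, h⟩ := es1inftw_level_aux (H := H) hML.out hp.out.pos χ hχ.level n
    exact ⟨E, hE, fun σ hσ x hx => h σ hσ x hx⟩
  frob := fun ℓ hℓ hgood A hA τ hτ n x _ => by
    obtain ⟨c, hc, hχτ⟩ := hχ.frob ℓ hℓ hgood A hA τ hτ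
    exact es1inftw_frob_aux hML.out hp.out.pos e he hE χ ℓ hℓ hgood A hA τ hτ c hc hχτ x
  unram := fun ℓ hℓ hgood A hA σ hσ n x _ => by
    letI := es1infModule L M H p hML.out hp.out.pos
    letI := es1infGalois L M H p
    have h1 := hχ.unram ℓ hℓ hgood A hA σ hσ
    show es1inftwSmul hML.out hp.out.pos χ σ x = x
    rw [es1inftwSmul_of_one hML.out hp.out.pos χ h1]
    exact (es1inf_dataInf (H := H) hML.out hp.out.pos).unram ℓ hℓ hgood A hA σ hσ x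
      (es1inf_isPPowerTorsion x)

/-! ## (TW5): finiteness, divisibility and faithfulness for the twisted module -/

/-- `J[pⁿ]` is finite -/
theorem es1inftw_finite [hML : Fact (M ∣ L)] [hp : Fact p.Prime] (χ : GalQ →* (ZMod M)ˣ)
    (n : ℕ) : {x : es1inftwJ L M H p χ | p ^ n • x = 0}.Finite :=
  es1inf_finite (H := H) hML.out hp.out.pos n

/-- every element is `p`-power torsion -/
theorem es1inftw_torsion (χ : GalQ →* (ZMod M)ˣ) (x : es1inftwJ L M H p χ) :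
    ∃ n : ℕ, p ^ n • x = 0 :=
  es1inf_isPPowerTorsion (es1inftwOf L M H p χ x)

/-- `es1inftwJ` is `p`-divisible -/
theorem es1inftw_divisible (χ : GalQ →* (ZMod M)ˣ) (x : es1inftwJ L M H p χ) :
    ∃ y : es1inftwJ L M H p χ, p • y = x :=
  es1inf_divisible (es1inftwOf L M H p χ x)

/-- `T_ℓ` (`ℓ ∤ L p`) and `δ_c` on the points -/
theorem es1inftwCoe_tGen_smul [hML : Fact (M ∣ L)] [hp : Fact p.Prime]
    (χ : GalQ →* (ZMod M)ˣ) {ℓ : Nat.Primes} (h : ¬ (ℓ : ℕ) ∣ L * p)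
    (x : es1inftwJ L M H p χ) :
    es1inftwCoe (es1top_tGen M ℓ • x) = G2.es1g2T L M H ℓ (es1inftwCoe x) :=
  es1infModule_tGen_smul hML.out hp.out.pos h (es1inftwOf L M H p χ x)

theorem es1inftwCoe_dGen_smul [hML : Fact (M ∣ L)] [hp : Fact p.Prime]
    (χ : GalQ →* (ZMod M)ˣ) (c : (ZMod M)ˣ) (x : es1inftwJ L M H p χ) :
    es1inftwCoe (es1top_dGen M c • x) = G2.es1Diamond L M H c (es1inftwCoe x) :=
  es1infModule_dGen_smul hML.out hp.out.pos c (es1inftwOf L M H p χ x)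

/-- **faithfulness** for the twisted module -/
theorem es1inftw_faith [hML : Fact (M ∣ L)] [hp : Fact p.Prime] (χ : GalQ →* (ZMod M)ˣ) :
    ES1FaithInf L M H hML.out p (es1inftwJ L M H p χ) :=
  es1inf_faith (H := H) hML.out hp.out.pos

/-- a polynomial killing `J[pⁿ]` maps the lattice `Λ` of the integral parabolic homomorphisms
into `pⁿ Λ` -/
theorem es1inftw_faith_int [hML : Fact (M ∣ L)] [hp : Fact p.Prime] (χ : GalQ →* (ZMod M)ˣ)
    (n : ℕ) (t : HDAlg M) (ht : ∀ x : es1inftwJ L M H p χ, p ^ n • x = 0 → t • x = 0)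
    (φ : Additive (gammaH L M H) →+ ℤ) (hφ : IsParabolicHom (gammaH L M H) φ) :
    ∃ ψ : Additive (gammaH L M H) →+ ℤ, IsParabolicHom (gammaH L M H) ψ ∧
      es1infHomEval L M H hML.out p ℤ t φ = p ^ n • ψ :=
  (es1inftw_faith (H := H) χ).int hp.out.ne_zero n t ht φ hφ

end Fermat.Agent.ES1
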